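import Mathlib
import Fermat.Prelude.Def_GaloisRep_Residual

/-!
S29 (mod-`p` Galois representation attached to a weight-2 eigenform, every prime `p`):
cross-block interface written by the lead.  Statement-`Prop`s only.

* `S29InputsStatement`: what the modular-curve blocks deliver (the analogue of
  `Fermat.Agent.S42.S42InputsStatement` for an arbitrary prime `p`, with the extra clause that
  inertia at `ℓ ∤ N p` acts trivially on `X = J_0(N)[p]`).
* `S29AttachKStatement`: the attached representation over an algebraically closed coefficient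
  field `K` of characteristic `p`.
-/

set_option autoImplicit false

open scoped TensorProduct

namespace Fermat.Agent.S29

section

local notation "Qb" => AlgebraicClosure ℚ
local notation "GQ" => (AlgebraicClosure ℚ ≃ₐ[ℚ] AlgebraicClosure ℚ)
local notation "Zb" => (integralClosure ℤ ℂ)

/-- What the modular-curve blocks deliver, for every level `N > 0`, every prime `p`, every
normalised eigenform `g`, every algebraically closed field `K` of characteristic `p` and every
ring homomorphism `ψ : ℤ̄ → K`: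
integrality of the `a_ℓ(g)`, a `ZMod p`-module `X` with Galois action and Hecke operators
(`J_0(N)[p]`), the relations, an eigenvector in `K ⊗ X`, and triviality of inertia at the primes
`ℓ ∤ N p`. -/
def S29InputsStatement : Prop :=
  ∀ (N : ℕ) [NeZero N] (p : ℕ) [Fact p.Prime]
    (g : CuspForm (CongruenceSubgroup.Gamma0 N) 2), g.IsNormalizedEigenform →
    ∀ (K : Type) [Field K] [IsAlgClosed K] [Algebra (ZMod p) K] (ψ : Zb →+* K),
    ∃ (a : ℕ → Zb) (X : Type) (_ : AddCommGroup X) (_ : Module (ZMod p) X)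
      (ρX : GQ →* Module.End (ZMod p) X) (T : ℕ → Module.End (ZMod p) X)
      (w : K ⊗[ZMod p] X),
      (∀ ℓ : ℕ, ℓ.Prime → ¬ ℓ ∣ N → ((a ℓ : Zb) : ℂ) = ModularFormClass.qCoeff g ℓ) ∧
      (∀ ℓ : ℕ, ℓ.Prime → ¬ ℓ ∣ N → ℓ ≠ p → ∀ σ : GQ, T ℓ * ρX σ = ρX σ * T ℓ) ∧
      (∀ x : X, ∃ F : IntermediateField ℚ Qb, FiniteDimensional ℚ F ∧
        ∀ σ ∈ F.fixingSubgroup, ρX σ x = x) ∧
      (∀ ℓ : ℕ, ℓ.Prime → ¬ ℓ ∣ N → ℓ ≠ p →
        ∀ A : ValuationSubring Qb, A.LiesOverPrime ℓ → ∀ τ : GQ, A.IsFrobeniusAt τ ℓ →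
          ρX τ * ρX τ - T ℓ * ρX τ + (ℓ : ZMod p) • (1 : Module.End (ZMod p) X) = 0) ∧
      w ≠ 0 ∧
      (∀ ℓ : ℕ, ℓ.Prime → ¬ ℓ ∣ N → ℓ ≠ p → (T ℓ).baseChange K w = ψ (a ℓ) • w) ∧
      (∀ ℓ : ℕ, ℓ.Prime → ¬ ℓ ∣ N * p →
        ∀ A : ValuationSubring Qb, A.LiesOverPrime ℓ →
          ∀ σ ∈ A.inertiaSubgroupIn ℚ, ρX σ = 1)

/-- The attached representation over an algebraically closed field of characteristic `p`. -/
def S29AttachKStatement : Prop :=
  ∀ (N : ℕ) [NeZero N] (p : ℕ) [Fact p.Prime]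
    (g : CuspForm (CongruenceSubgroup.Gamma0 N) 2), g.IsNormalizedEigenform →
    ∀ (K : Type) [Field K] [IsAlgClosed K] [Algebra (ZMod p) K] (ψ : Zb →+* K),
    ∃ ρ : ResidualGaloisRep K, ρ.IsAttachedTo g ψ ∧
      ∀ ℓ : ℕ, ℓ.Prime → ¬ ℓ ∣ N * p → ρ.IsUnramifiedAt ℓ

end

end Fermat.Agent.S29
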