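import Mathlib
import Fermat.Prelude.Def_GaloisRep_Residual
import Fermat.Agent.S42.FinalAbstract
import Fermat.Agent.S42.FinalInputsA
import Fermat.Agent.S29.Interfaces

/-!
S29, abstract core (written by the lead): `S29InputsStatement → S29AttachKStatement`.

From a `ZMod p`-module `X` with Galois action and Hecke operators (`J_0(N)[p]`), the
Eichler–Shimura relation, open stabilisers, triviality of inertia at `ℓ ∤ N p` and an eigenvector
in `K ⊗ X`, the algebra lemma `alg_two_dim` (applied with the normal subgroup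
`H' = ker (action on the orbit span) ⊓ ker χ`) and the Frobenius-power cover give a
two-dimensional representation over `K` with the right characteristic polynomials, unramified at
the primes `ℓ ∤ N p`.
-/

set_option autoImplicit false
set_option linter.style.haveILetI false

open scoped TensorProduct
open Fermat.Agent.S42

namespace Fermat.Agent.S29

section

local notation "Qb" => AlgebraicClosure ℚ
local notation "GQ" => (AlgebraicClosure ℚ ≃ₐ[ℚ] AlgebraicClosure ℚ)
local notation "Zb" => (integralClosure ℤ ℂ)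

/-- An inertia element at `ℓ ≠ p` has cyclotomic exponent `1` modulo `p`. -/
theorem s29_cycloExp_inertia (p : ℕ) [Fact p.Prime] (ℓ : ℕ) (hℓ : ℓ.Prime) (hℓp : ℓ ≠ p)
    (A : ValuationSubring Qb) (hA : A.LiesOverPrime ℓ) (σ : GQ)
    (hσ : σ ∈ A.inertiaSubgroupIn ℚ) :
    (ExtCitation.cycloExp p σ : ZMod p) = 1 := by
  have hp : p.Prime := Fact.out
  obtain ⟨ζ, hζ⟩ := fi_exists_primitiveRoot p
  obtain ⟨s, hs, hsσ⟩ := Subgroup.mem_map.mp hσ
  have hζA : ζ ∈ A :=
    Fermat.Agent.Lib.FrobeniusExists.mem_of_isIntegral_int A (hζ.isIntegral hp.pos)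
  set a : ↥A := ⟨ζ, hζA⟩ with ha
  have haprim : IsPrimitiveRoot a p :=
    IsPrimitiveRoot.of_map_of_injective (f := A.subtype)
      (show IsPrimitiveRoot (A.subtype a) p from hζ) Subtype.val_injective
  set z : IsLocalRing.ResidueField ↥A := IsLocalRing.residue ↥A a with hz
  -- `ℓ = 0` in the residue field
  have hℓ0 : (ℓ : IsLocalRing.ResidueField ↥A) = 0 := by
    have h1 : ((ℓ : ↥A) : Qb) ∈ A.nonunits := by
      have h0 : (ℓ : Qb) ∈ A.nonunits := hA
      simpa using h0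
    have h2 : (ℓ : ↥A) ∈ IsLocalRing.maximalIdeal ↥A := ValuationSubring.coe_mem_nonunits_iff.mp h1
    have h3 : IsLocalRing.residue ↥A (ℓ : ↥A) = 0 := (IsLocalRing.residue_eq_zero_iff _).mpr h2
    rwa [map_natCast] at h3
  -- `p ≠ 0` in the residue field
  have hp0 : (p : IsLocalRing.ResidueField ↥A) ≠ 0 := by
    intro hp0
    have hcop : Nat.Coprime p ℓ := (Nat.coprime_primes hp hℓ).mpr (Ne.symm hℓp)
    have hb := Nat.gcd_eq_gcd_ab p ℓ
    rw [hcop.gcd_eq_one] at hb
    have hb' := congrArg (fun t : ℤ => (t : IsLocalRing.ResidueField ↥A)) hb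
    simp only [Nat.cast_one, Int.cast_one, Int.cast_add, Int.cast_mul, Int.cast_natCast, hp0, hℓ0,
      zero_mul, add_zero] at hb'
    exact one_ne_zero hb'
  -- the product formula
  obtain ⟨n, hn⟩ : ∃ n, p = n + 1 := ⟨p - 1, by have := hp.two_le; omega⟩
  have hprod : ∏ k ∈ Finset.range n, (1 - z ^ (k + 1)) = (p : IsLocalRing.ResidueField ↥A) := by
    have h := IsPrimitiveRoot.prod_one_sub_pow_eq_order (hn ▸ haprim)
    have h' := congrArg (IsLocalRing.residue ↥A) h
    rw [map_prod] at h'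
    simp only [map_sub, map_one, map_pow, map_add, map_natCast] at h'
    rw [hn]
    push_cast
    exact h'
  have hzne : ∀ k, k < n → z ^ (k + 1) ≠ 1 := by
    intro k hk h1
    apply hp0
    rw [← hprod]
    exact Finset.prod_eq_zero (Finset.mem_range.mpr hk) (by rw [h1, sub_self])
  have hzp : z ^ p = 1 := by
    rw [hz, ← map_pow, haprim.pow_eq_one, map_one]
  have hfin : IsOfFinOrder z := isOfFinOrder_iff_pow_eq_one.mpr ⟨p, hp.pos, hzp⟩
  -- the inertia element fixes the residue field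
  have hsz : s • z = z := by
    have h1 : MulSemiringAction.toRingAut (A.decompositionSubgroup ℚ)
        (IsLocalRing.ResidueField ↥A) s = 1 := MonoidHom.mem_ker.mp hs
    have h2 := congrArg (fun f : RingAut (IsLocalRing.ResidueField ↥A) => f z) h1
    exact h2
  have hσζ : σ ζ = ζ ^ (ExtCitation.cycloExp p σ) := fi_cyclo_spec p σ ζ hζ
  have hsm : s • z = z ^ (ExtCitation.cycloExp p σ) := by
    rw [hz, ← IsLocalRing.ResidueField.residue_smul, ← map_pow]
    congr 1
    apply Subtype.ext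
    show ((s : GQ)) ζ = ζ ^ (ExtCitation.cycloExp p σ)
    have hs' : (s : GQ) = σ := hsσ
    rw [hs']
    exact hσζ
  have hpow : z ^ (ExtCitation.cycloExp p σ) = z ^ 1 := by
    rw [← hsm, hsz, pow_one]
  by_cases hn0 : n = 0
  · -- `p = 1` is impossible
    exfalso
    have := hp.two_le
    omega
  have hord : orderOf z = p := by
    have hdvd : orderOf z ∣ p := orderOf_dvd_of_pow_eq_one hzp
    rcases (Nat.dvd_prime hp).mp hdvd with h1 | h1
    · exfalso
      have hz1 : z = 1 := orderOf_eq_one_iff.mp h1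
      have hn0' : 0 < n := Nat.pos_of_ne_zero hn0
      exact hzne 0 hn0' (by rw [hz1]; simp)
    · exact h1
  have hmod := hfin.pow_eq_pow_iff_modEq.mp hpow
  rw [hord] at hmod
  have := (ZMod.natCast_eq_natCast_iff _ _ _).mpr hmod
  simpa using this

/-- The cyclotomic character with values in a field of characteristic `p`: trivial on the absolute
Galois group of `ℚ(ζ_p)`, `Frob_ℓ ↦ ℓ`, and trivial on inertia at `ℓ ≠ p`. -/
theorem s29_cyclo (p : ℕ) [Fact p.Prime] (K : Type) [Field K] [Algebra (ZMod p) K] :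
    ∃ (χ : GQ →* Kˣ) (Fχ : IntermediateField ℚ Qb), FiniteDimensional ℚ Fχ ∧
      (∀ σ ∈ Fχ.fixingSubgroup, χ σ = 1) ∧
      (∀ ℓ : ℕ, ℓ.Prime → ℓ ≠ p → ∀ A : ValuationSubring Qb, A.LiesOverPrime ℓ →
        ∀ τ : GQ, A.IsFrobeniusAt τ ℓ → ((χ τ : Kˣ) : K) = (ℓ : K)) ∧
      (∀ ℓ : ℕ, ℓ.Prime → ℓ ≠ p → ∀ A : ValuationSubring Qb, A.LiesOverPrime ℓ →
        ∀ σ ∈ A.inertiaSubgroupIn ℚ, χ σ = 1) := by
  have hp : p.Prime := Fact.out
  obtain ⟨ζ, hζ⟩ := fi_exists_primitiveRoot p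
  have hint : IsIntegral ℚ ζ := (hζ.isIntegral hp.pos).tower_top
  refine ⟨(Units.map (algebraMap (ZMod p) K).toMonoidHom).comp (ExtCitation.cycloChar p),
    IntermediateField.adjoin ℚ {ζ}, IntermediateField.adjoin.finiteDimensional hint, ?_, ?_, ?_⟩
  · intro σ hσ
    have hσζ : σ ζ = ζ := by
      rw [IntermediateField.mem_fixingSubgroup_iff] at hσ
      exact hσ ζ (IntermediateField.subset_adjoin ℚ {ζ} (Set.mem_singleton ζ))
    have h1 : (1 : ZMod p) = (ExtCitation.cycloExp p σ : ZMod p) := by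
      have := (fi_cyclo_iff p σ ζ hζ 1).mp (by rw [pow_one]; exact hσζ)
      simpa using this
    have h2 : ExtCitation.cycloChar p σ = 1 := by
      apply Units.ext
      rw [ExtCitation.coe_cycloChar, ← h1, Units.val_one]
    rw [MonoidHom.comp_apply, h2, map_one]
  · intro ℓ hℓ hℓp A hA τ hτ
    have h1 := fi_cycloExp_frob p ℓ hℓ hℓp A hA τ hτ
    rw [MonoidHom.comp_apply, Units.coe_map]
    show algebraMap (ZMod p) K ((ExtCitation.cycloChar p τ : (ZMod p)ˣ) : ZMod p) = (ℓ : K)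
    rw [ExtCitation.coe_cycloChar, h1, map_natCast]
  · intro ℓ hℓ hℓp A hA σ hσ
    have h1 := s29_cycloExp_inertia p ℓ hℓ hℓp A hA σ hσ
    have h2 : ExtCitation.cycloChar p σ = 1 := by
      apply Units.ext
      rw [ExtCitation.coe_cycloChar, h1, Units.val_one]
    rw [MonoidHom.comp_apply, h2, map_one]

/-- A normal subgroup fixing `w` acts trivially on the span of the orbit of `w`. -/
theorem s29_orb_fix {K G V : Type} [Field K] [Group G] [AddCommGroup V] [Module K V]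
    (ρ : Representation K G V) (w : V) (H : Subgroup G) [hHn : H.Normal]
    (hHw : ∀ h ∈ H, ρ h w = w) : ∀ h ∈ H, faOrbRep ρ w h = 1 := by
  intro h hh
  apply LinearMap.ext; intro u; apply Subtype.ext
  show ρ h (u : V) = (u : V)
  refine fa_orb_induction ρ w (ρ h) LinearMap.id ?_ u.2
  intro τ
  have hconj : τ⁻¹ * h * τ ∈ H := by
    have := hHn.conj_mem h hh τ⁻¹
    simpa using this
  have h2 : ρ h (ρ τ w) = ρ τ (ρ (τ⁻¹ * h * τ) w) := by
    rw [← Module.End.mul_apply, ← Module.End.mul_apply, ← map_mul, ← map_mul]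
    congr 2
    group
  rw [h2, hHw _ hconj]
  rfl

/-- Characteristic polynomial of an endomorphism of a two-dimensional space. -/
theorem s29_charpoly_two {K V : Type} [Field K] [AddCommGroup V] [Module K V]
    [Module.Finite K V] (h2 : Module.finrank K V = 2) (f : Module.End K V) :
    LinearMap.charpoly f = Polynomial.X ^ 2 - Polynomial.C (LinearMap.trace K V f) * Polynomial.X
      + Polynomial.C (LinearMap.det f) := by
  let b := Module.finBasisOfFinrankEq K V h2
  rw [← LinearMap.charpoly_toMatrix f b, Matrix.charpoly_fin_two,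
    LinearMap.trace_eq_matrix_trace K b f, LinearMap.det_toMatrix b f]

/-- The abstract core of S29. -/
theorem s29_attachK_of_inputs (h : S29InputsStatement) : S29AttachKStatement := by
  intro N _ p _ g hg K _ _ _ ψ
  classical
  have hp : p.Prime := Fact.out
  have hN : 0 < N := Nat.pos_of_ne_zero (NeZero.ne N)
  obtain ⟨a, X, iX1, iX2, ρX, T, w, ha, hGH, hopen, hES, hw, hwT, hin⟩ := h N p g hg K ψ
  obtain ⟨χ, Fχ, hFχ, hχker, hχfrob, hχin⟩ := s29_cyclo p K
  obtain ⟨Fw, hFw, hFwfix⟩ := fa_exists_field_fixing (K := K) ρX hopen w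
  have hF0 : FiniteDimensional ℚ (Fw ⊔ Fχ : IntermediateField ℚ Qb) := by
    haveI := hFw; haveI := hFχ
    exact IntermediateField.finiteDimensional_sup Fw Fχ
  obtain ⟨F1, hle, hF1fd, hF1gal, hF1n, hF1fin⟩ := fa_exists_galois _ hF0
  have hFw_le : Fw ≤ F1 := le_trans le_sup_left hle
  have hFχ_le : Fχ ≤ F1 := le_trans le_sup_right hle
  haveI : F1.fixingSubgroup.Normal := hF1n
  haveI : Finite (GQ ⧸ F1.fixingSubgroup) := hF1fin
  have hHw : ∀ h ∈ F1.fixingSubgroup, faBcRep (K := K) ρX h w = w := fun h hh =>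
    hFwfix h (IntermediateField.fixingSubgroup_antitone hFw_le hh)
  have hχH : ∀ h ∈ F1.fixingSubgroup, χ h = 1 := fun h hh =>
    hχker h (IntermediateField.fixingSubgroup_antitone hFχ_le hh)
  -- the bigger normal subgroup
  let R : Representation K GQ (faOrb (faBcRep (K := K) ρX) w) :=
    faOrbRep (faBcRep (K := K) ρX) w
  let H' : Subgroup GQ := (MonoidHom.ker R) ⊓ (MonoidHom.ker χ)
  have hF1H' : F1.fixingSubgroup ≤ H' := by
    intro σ hσ
    exact ⟨MonoidHom.mem_ker.mpr (s29_orb_fix (faBcRep (K := K) ρX) w F1.fixingSubgroup hHw σ hσ),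
      MonoidHom.mem_ker.mpr (hχH σ hσ)⟩
  haveI hH'n : H'.Normal := Subgroup.normal_inf_normal _ _
  haveI hH'fin : Finite (GQ ⧸ H') := by
    haveI : F1.fixingSubgroup.FiniteIndex := Subgroup.finiteIndex_of_finite_quotient
    haveI : H'.FiniteIndex := Subgroup.finiteIndex_of_le hF1H'
    infer_instance
  have hH'w : ∀ h ∈ H', faBcRep (K := K) ρX h w = w := by
    intro σ hσ
    have h1 : R σ = 1 := MonoidHom.mem_ker.mp hσ.1
    have h2 := congrArg (fun f : Module.End K (faOrb (faBcRep (K := K) ρX) w) =>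
      ((f ⟨w, fa_self_mem_orb (faBcRep (K := K) ρX) w⟩ : faOrb (faBcRep (K := K) ρX) w) :
        K ⊗[ZMod p] X)) h1
    exact h2
  have hχH' : ∀ h ∈ H', χ h = 1 := fun σ hσ => MonoidHom.mem_ker.mp hσ.2
  -- eigen-property on the span of the orbit
  have heig : ∀ ℓ : ℕ, ℓ.Prime → ¬ ℓ ∣ N → ℓ ≠ p →
      ∀ u ∈ faOrb (faBcRep (K := K) ρX) w, (T ℓ).baseChange K u = ψ (a ℓ) • u := by
    intro ℓ hℓ hℓM hℓp u hu
    refine fa_orb_induction (faBcRep (K := K) ρX) w ((T ℓ).baseChange K)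
      (ψ (a ℓ) • LinearMap.id) ?_ hu
    intro τ
    have hc : (T ℓ).baseChange K * (ρX τ).baseChange K
        = (ρX τ).baseChange K * (T ℓ).baseChange K := by
      rw [← LinearMap.baseChange_mul, ← LinearMap.baseChange_mul, hGH ℓ hℓ hℓM hℓp τ]
    have hc' := congrArg (fun f : Module.End K (K ⊗[ZMod p] X) => f w) hc
    simp only [Module.End.mul_apply] at hc'
    show (T ℓ).baseChange K ((ρX τ).baseChange K w) = ψ (a ℓ) • (ρX τ).baseChange K w
    rw [hc', hwT ℓ hℓ hℓM hℓp, map_smul]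
  -- the index type of all Frobenius elements at good primes
  let ι : Type := {t : ℕ × ValuationSubring Qb × GQ //
    t.1.Prime ∧ ¬ t.1 ∣ N ∧ t.1 ≠ p ∧ t.2.1.LiesOverPrime t.1 ∧ t.2.1.IsFrobeniusAt t.2.2 t.1}
  let gι : ι → GQ := fun i => i.1.2.2
  let aι : ι → K := fun i => ψ (a i.1.1)
  have hquad : ∀ i : ι, ∀ u ∈ faOrb (faBcRep (K := K) ρX) w,
      faBcRep (K := K) ρX (gι i) (faBcRep (K := K) ρX (gι i) u)
        - aι i • faBcRep (K := K) ρX (gι i) u + ((χ (gι i) : Kˣ) : K) • u = 0 := by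
    rintro ⟨⟨ℓ, A, τ⟩, hℓ, hℓM, hℓp, hA, hτ⟩ u hu
    have hE := hES ℓ hℓ hℓM hℓp A hA τ hτ
    have hEK := congrArg (LinearMap.baseChange K) hE
    rw [LinearMap.baseChange_add, LinearMap.baseChange_sub, LinearMap.baseChange_zero,
      LinearMap.baseChange_smul, LinearMap.baseChange_mul, LinearMap.baseChange_mul,
      LinearMap.baseChange_one] at hEK
    have hEu := congrArg (fun f : Module.End K (K ⊗[ZMod p] X) => f u) hEK
    simp only [LinearMap.add_apply, LinearMap.sub_apply, Module.End.mul_apply,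
      LinearMap.smul_apply, Module.End.one_apply, LinearMap.zero_apply] at hEu
    have h1 : (T ℓ).baseChange K ((ρX τ).baseChange K u) = ψ (a ℓ) • (ρX τ).baseChange K u :=
      heig ℓ hℓ hℓM hℓp _ (fa_orb_stable (faBcRep (K := K) ρX) w τ hu)
    have h3 : ((ℓ : ZMod p) • u) = (ℓ : K) • u := by
      rw [Nat.cast_smul_eq_nsmul, Nat.cast_smul_eq_nsmul]
    rw [h1, h3] at hEu
    have hχτ : ((χ τ : Kˣ) : K) = (ℓ : K) := hχfrob ℓ hℓ hℓp A hA τ hτ
    show (ρX τ).baseChange K ((ρX τ).baseChange K u) - ψ (a ℓ) • (ρX τ).baseChange K u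
      + ((χ τ : Kˣ) : K) • u = 0
    rw [hχτ]
    exact hEu
  have hcov : ∀ h : GQ, ∃ i : ι, ∃ n : ℕ, h⁻¹ * gι i ^ n ∈ H' := by
    intro h
    obtain ⟨ℓ, hℓ, hℓS, A, hA, τ, hτ, n, hn⟩ :=
      frobenius_power_cover F1 hF1fd hF1gal (insert p N.primeFactors) h
    have hℓp : ℓ ≠ p := fun e => hℓS (by rw [e]; exact Finset.mem_insert_self _ _)
    have hℓM : ¬ ℓ ∣ N := fun hd =>
      hℓS (Finset.mem_insert_of_mem (Nat.mem_primeFactors.mpr ⟨hℓ, hd, hN.ne'⟩))
    exact ⟨⟨(ℓ, A, τ), hℓ, hℓM, hℓp, hA, hτ⟩, n, hF1H' hn⟩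
  obtain ⟨V, iV1, iV2, ρ, hfr, hHρ, htd⟩ :=
    fa_alg_on_orbit (faBcRep (K := K) ρX) w hw χ H' hH'w hχH' gι aι hquad hcov
  -- package
  haveI hVfin : Module.Finite K V := Module.finite_of_finrank_eq_succ hfr
  refine ⟨{ V := V, finrank_eq := hfr, ρ := ρ, factorsThroughFiniteLevel := ?_ }, ?_, ?_⟩
  · refine ⟨F1, hF1fd, fun σ hσ => hHρ σ (hF1H' ?_)⟩
    rw [IntermediateField.mem_fixingSubgroup_iff]
    exact hσ
  · -- attached
    intro ℓ hℓ hℓN hℓK A hA σ hσ
    have hℓp : ℓ ≠ p := by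
      rintro rfl
      apply hℓK
      have h0 : ((ℓ : ZMod ℓ) : ZMod ℓ) = 0 := ZMod.natCast_self ℓ
      have h1 := congrArg (algebraMap (ZMod ℓ) K) h0
      rwa [map_natCast, map_zero] at h1
    refine ⟨a ℓ, ha ℓ hℓ hℓN, ?_⟩
    have ht := htd ⟨(ℓ, A, σ), hℓ, hℓN, hℓp, hA, hσ⟩
    show LinearMap.charpoly (ρ σ) = _
    rw [s29_charpoly_two hfr (ρ σ)]
    have h1 : LinearMap.trace K V (ρ σ) = ψ (a ℓ) := ht.1
    have h2 : LinearMap.det (ρ σ) = (ℓ : K) := by
      rw [ht.2]
      exact hχfrob ℓ hℓ hℓp A hA σ hσ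
    rw [h1, h2]
  · -- unramified
    intro ℓ hℓ hℓNp A hA σ hσ
    have hℓp : ℓ ≠ p := by
      rintro rfl
      exact hℓNp (dvd_mul_left _ _)
    show ρ σ = 1
    apply hHρ σ
    refine ⟨MonoidHom.mem_ker.mpr ?_, MonoidHom.mem_ker.mpr (hχin ℓ hℓ hℓp A hA σ hσ)⟩
    have hX : ρX σ = 1 := hin ℓ hℓ hℓNp A hA σ hσ
    apply LinearMap.ext; intro u; apply Subtype.ext
    show (ρX σ).baseChange K (u : K ⊗[ZMod p] X) = (u : K ⊗[ZMod p] X)
    rw [hX]
    show LinearMap.baseChange K (LinearMap.id : X →ₗ[ZMod p] X) (u : K ⊗[ZMod p] X) = _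
    rw [LinearMap.baseChange_id]
    rfl

end

end Fermat.Agent.S29
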