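import Mathlib
import Fermat.Prelude.Def_GaloisRep_Residual
import Fermat.Agent.S29.Interfaces

/-!
S29, final wiring (helper4): `S29AttachKStatement → ` the frozen statement S29.

* `N = 0`: both conditions are vacuous (`ℓ ∣ 0`), the trivial two-dimensional representation works.
* `N ≠ 0`: `K := ℤ̄ ⧸ ker φ` is an algebraically closed field of characteristic `p`
  (`ker φ` is a prime over `p`, hence maximal; monic polynomials over `ℤ̄` have roots in `ℤ̄`),
  `ψ := ` the quotient map, `K → k` is `RingHom.kerLift φ`; base change the representation to `k`.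
-/

set_option autoImplicit false
set_option linter.style.haveILetI false

open scoped TensorProduct
open Polynomial

namespace Fermat.Agent.S29

section

local notation "Qb" => AlgebraicClosure ℚ
local notation "GQ" => (AlgebraicClosure ℚ ≃ₐ[ℚ] AlgebraicClosure ℚ)
local notation "Zb" => (integralClosure ℤ ℂ)

/-- The trivial two-dimensional residual representation. -/
noncomputable def s29fin_trivialRep (k : Type) [Field k] : ResidualGaloisRep k where
  V := Fin 2 → k
  finrank_eq := by simp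
  ρ := 1
  factorsThroughFiniteLevel := ⟨⊥, inferInstance, fun _ _ => rfl⟩

/-- Every monic polynomial of positive degree over `ℤ̄` has a root in `ℤ̄`. -/
theorem s29fin_exists_root (Q : Zb[X]) (hQ : Q.Monic) (hdeg : Q.natDegree ≠ 0) :
    ∃ z : Zb, Q.eval z = 0 := by
  have hmap : (Q.map (algebraMap Zb ℂ)).degree ≠ 0 := by
    rw [hQ.degree_map, Polynomial.degree_eq_natDegree hQ.ne_zero]
    exact_mod_cast hdeg
  obtain ⟨z, hz⟩ := IsAlgClosed.exists_root (Q.map (algebraMap Zb ℂ)) hmap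
  have hz' : Polynomial.eval₂ (algebraMap Zb ℂ) z Q = 0 := by
    rwa [Polynomial.IsRoot.def, Polynomial.eval_map] at hz
  have hint : IsIntegral Zb z := ⟨Q, hQ, hz'⟩
  obtain ⟨y, rfl⟩ := (IsIntegrallyClosedIn.isIntegral_iff (R := Zb) (A := ℂ)).mp hint
  refine ⟨y, ?_⟩
  have h2 : algebraMap Zb ℂ (Q.eval y) = 0 := by
    rw [← hz']
    exact (Polynomial.eval₂_at_apply (algebraMap Zb ℂ) y).symm
  exact (FaithfulSMul.algebraMap_injective Zb ℂ) (by rw [h2, map_zero])

/-- A field which is a quotient of `ℤ̄` is algebraically closed. -/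
theorem s29fin_isAlgClosed_of_surjective {K : Type} [Field K] (ψ : Zb →+* K)
    (hψ : Function.Surjective ψ) : IsAlgClosed K := by
  refine IsAlgClosed.of_exists_root K ?_
  intro q hq hirr
  have hlift : q ∈ Polynomial.lifts ψ := by
    rw [Polynomial.mem_lifts]
    exact Polynomial.map_surjective ψ hψ q
  obtain ⟨Q, hQmap, hQdeg, hQmon⟩ := Polynomial.lifts_and_natDegree_eq_and_monic hlift hq
  have hdeg : Q.natDegree ≠ 0 := by
    rw [hQdeg]
    exact (Polynomial.natDegree_pos_iff_degree_pos.mpr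
      (Polynomial.degree_pos_of_irreducible hirr)).ne'
  obtain ⟨z, hz⟩ := s29fin_exists_root Q hQmon hdeg
  refine ⟨ψ z, ?_⟩
  rw [← hQmap, Polynomial.eval_map, Polynomial.eval₂_at_apply, hz, map_zero]

/-- The kernel of a ring homomorphism from `ℤ̄` to a field of characteristic `p` is maximal. -/
theorem s29fin_ker_isMaximal {p : ℕ} (hp : p.Prime) {k : Type} [Field k] [CharP k p]
    (φ : Zb →+* k) : (RingHom.ker φ).IsMaximal := by
  haveI : Fact p.Prime := ⟨hp⟩
  haveI : (RingHom.ker φ).IsPrime := RingHom.ker_isPrime φ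
  refine Ideal.isMaximal_of_isIntegral_of_isMaximal_comap (R := ℤ) (RingHom.ker φ) ?_
  have hcomap : (RingHom.ker φ).comap (algebraMap ℤ Zb) = Ideal.span {(p : ℤ)} := by
    ext n
    rw [Ideal.mem_comap, RingHom.mem_ker, Ideal.mem_span_singleton]
    have h1 : φ (algebraMap ℤ Zb n) = (n : k) := by
      rw [eq_intCast (algebraMap ℤ Zb) n, map_intCast]
    rw [h1]
    exact CharP.intCast_eq_zero_iff k p n
  rw [hcomap]
  exact Int.ideal_span_isMaximal_of_prime p

/-- Base change of an attached, unramified representation along a ring homomorphism of fields. -/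
theorem s29fin_baseChange {N : ℕ} (g : CuspForm (CongruenceSubgroup.Gamma0 N) 2)
    {K k : Type} [Field K] [Field k] (ι : K →+* k) (ψ : Zb →+* K) (φ : Zb →+* k)
    (hιψ : ∀ a : Zb, ι (ψ a) = φ a) (ρ : ResidualGaloisRep K)
    (hatt : ρ.IsAttachedTo g ψ) (S : Set ℕ) (hunr : ∀ ℓ ∈ S, ρ.IsUnramifiedAt ℓ) :
    ∃ ρ' : ResidualGaloisRep k, ρ'.IsAttachedTo g φ ∧ ∀ ℓ ∈ S, ρ'.IsUnramifiedAt ℓ := by
  letI : Algebra K k := ι.toAlgebra
  have halg : ∀ x : K, algebraMap K k x = ι x := fun _ => rfl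
  refine ⟨ρ.baseChange k, ?_, ?_⟩
  · intro ℓ hℓ hℓN hℓk A hA σ hσ
    have hℓK : (ℓ : K) ≠ 0 := by
      intro h0
      apply hℓk
      have : ι (ℓ : K) = (ℓ : k) := map_natCast ι ℓ
      rw [← this, h0, map_zero]
    obtain ⟨a, ha, hchar⟩ := hatt ℓ hℓ hℓN hℓK A hA σ hσ
    refine ⟨a, ha, ?_⟩
    have h1 : LinearMap.charpoly ((ρ.baseChange k).ρ σ)
        = (LinearMap.charpoly (ρ.ρ σ)).map (algebraMap K k) :=
      LinearMap.charpoly_baseChange (ρ.ρ σ) k
    rw [h1, hchar]
    simp only [Polynomial.map_add, Polynomial.map_sub, Polynomial.map_mul, Polynomial.map_pow,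
      Polynomial.map_X, Polynomial.map_C, Polynomial.map_natCast, halg, hιψ, map_natCast]
  · intro ℓ hℓ A hA σ hσ
    have h1 : ρ.ρ σ = 1 := hunr ℓ hℓ A hA σ hσ
    show (ρ.ρ σ).baseChange k = 1
    rw [h1, LinearMap.baseChange_one]

/-- **Final wiring for S29**: the attached representations over algebraically closed fields give
the frozen statement. -/
theorem s29_final (h : S29AttachKStatement)
    {N : ℕ} {g : CuspForm (CongruenceSubgroup.Gamma0 N) 2} (hg : g.IsNormalizedEigenform)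
    {p : ℕ} (hp : p.Prime) {k : Type} [Field k] [CharP k p]
    (φ : integralClosure ℤ ℂ →+* k) :
    ∃ ρ : ResidualGaloisRep k, ρ.IsAttachedTo g φ ∧
      ∀ ℓ : ℕ, ℓ.Prime → ¬ ℓ ∣ N * p → ρ.IsUnramifiedAt ℓ := by
  rcases Nat.eq_zero_or_pos N with hN | hN
  · subst hN
    refine ⟨s29fin_trivialRep k, ?_, ?_⟩
    · intro ℓ _ hℓN
      exact absurd (dvd_zero ℓ) hℓN
    · intro ℓ _ hℓN
      exact absurd (by rw [Nat.zero_mul]; exact dvd_zero ℓ) hℓN
  · haveI : NeZero N := ⟨hN.ne'⟩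
    haveI : Fact p.Prime := ⟨hp⟩
    haveI hmax : (RingHom.ker φ).IsMaximal := s29fin_ker_isMaximal hp φ
    letI : Field (Zb ⧸ RingHom.ker φ) := Ideal.Quotient.field (RingHom.ker φ)
    haveI : IsAlgClosed (Zb ⧸ RingHom.ker φ) :=
      s29fin_isAlgClosed_of_surjective (Ideal.Quotient.mk (RingHom.ker φ))
        Ideal.Quotient.mk_surjective
    haveI : CharP (Zb ⧸ RingHom.ker φ) p :=
      RingHom.charP (RingHom.kerLift φ) (RingHom.kerLift_injective φ) p
    letI : Algebra (ZMod p) (Zb ⧸ RingHom.ker φ) := ZMod.algebra (Zb ⧸ RingHom.ker φ) p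
    obtain ⟨ρ, hatt, hunr⟩ := h N p g hg (Zb ⧸ RingHom.ker φ) (Ideal.Quotient.mk (RingHom.ker φ))
    obtain ⟨ρ', hatt', hunr'⟩ := s29fin_baseChange g (RingHom.kerLift φ)
      (Ideal.Quotient.mk (RingHom.ker φ)) φ (fun a => RingHom.kerLift_mk φ a) ρ hatt
      {ℓ : ℕ | ℓ.Prime ∧ ¬ ℓ ∣ N * p} (fun ℓ hℓ => hunr ℓ hℓ.1 hℓ.2)
    exact ⟨ρ', hatt', fun ℓ hℓ hℓN => hunr' ℓ ⟨hℓ, hℓN⟩⟩

end

end Fermat.Agent.S29
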