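/-
S29 — inputs glue (helper26): the lead's `S29InputsStatement` from ES', GH, OPEN, integrality,
UNR (inertia acts trivially on torsion) and an abstract BRIDGE statement (a `ZMod p`-module with
an injective Hecke-equivariant additive map to `J₀(N)` and an eigenvector after base change).
-/
import Mathlib
import Fermat.Agent.S42.FinalGlue
import Fermat.Agent.S29.Interfaces
import Fermat.Prelude.Def_FLTPrelim_Ramification

set_option autoImplicit false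

open ModularCurve AlgebraicCurve CongruenceSubgroup
open scoped TensorProduct
open Fermat.Agent.S42

namespace Fermat.Agent.S29

noncomputable section

/-- (UNR) inertia at a good prime acts trivially on the `p`-power torsion of `J₀(N)`. -/
def UnrStatement : Prop :=
  ∀ (N p : ℕ) [NeZero N] (ℓ : ℕ), ℓ.Prime → ¬ ℓ ∣ N * p →
    ∀ A : ValuationSubring Qbar, A.LiesOverPrime ℓ →
      ∀ σ : Qbar ≃ₐ[ℚ] Qbar, σ ∈ A.inertiaSubgroupIn ℚ →
        ∀ x : JZero N, (∃ n : ℕ, p ^ n • x = 0) → σ • x = x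

/-- (BRIDGE) an abstract `ZMod p`-module `Λ` with an injective Hecke-equivariant additive map
to `J₀(N)` and an eigenvector in `K ⊗ Λ` with the eigenvalues of `g`. -/
def BridgeStatement : Prop :=
  ∀ (N : ℕ) [NeZero N] (p : ℕ) [Fact p.Prime]
    (g : CuspForm (CongruenceSubgroup.Gamma0 N) 2), g.IsNormalizedEigenform →
    ∀ (K : Type) [Field K] [IsAlgClosed K] [Algebra (ZMod p) K] (ψ : Zbar →+* K),
    ∃ (Λ : Type) (_ : AddCommGroup Λ) (_ : Module (ZMod p) Λ) (Θ : Λ →+ JZero N)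
      (T' : ℕ → Module.End (ZMod p) Λ) (v : K ⊗[ZMod p] Λ),
      Function.Injective Θ ∧ v ≠ 0 ∧
      (∀ (ℓ : ℕ) (hℓ : ℓ.Prime), ¬ ℓ ∣ N → ℓ ≠ p → ∀ c : Λ,
        Θ (T' ℓ c) = heckeOperatorBar N ⟨ℓ, hℓ⟩ (Θ c)) ∧
      (∀ ℓ : ℕ, ℓ.Prime → ¬ ℓ ∣ N → ℓ ≠ p → ∀ a : Zbar,
        (a : ℂ) = ModularFormClass.qCoeff g ℓ → (T' ℓ).baseChange K v = ψ a • v)

theorem ig_theta_mem (N p : ℕ) {Λ : Type} [AddCommGroup Λ] [Module (ZMod p) Λ]
    (Θ : Λ →+ JZero N) (c : Λ) : Θ c ∈ fgTors N p := by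
  rw [Pic0.mem_torsion, ← map_zsmul, natCast_zsmul, ZModModule.char_nsmul_eq_zero, map_zero]

/-- `Θ` with values in the `p`-torsion, as a `ZMod p`-linear map. -/
def igTheta (N p : ℕ) {Λ : Type} [AddCommGroup Λ] [Module (ZMod p) Λ] (Θ : Λ →+ JZero N) :
    Λ →ₗ[ZMod p] fgTors N p :=
  (Θ.codRestrict (fgTors N p) (ig_theta_mem N p Θ)).toZModLinearMap p

theorem igTheta_coe (N p : ℕ) {Λ : Type} [AddCommGroup Λ] [Module (ZMod p) Λ]
    (Θ : Λ →+ JZero N) (c : Λ) : ((igTheta N p Θ c : fgTors N p) : JZero N) = Θ c := rfl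

theorem igTheta_injective (N p : ℕ) {Λ : Type} [AddCommGroup Λ] [Module (ZMod p) Λ]
    (Θ : Λ →+ JZero N) (hΘ : Function.Injective Θ) : Function.Injective (igTheta N p Θ) := by
  intro c d h
  apply hΘ
  have := congrArg (fun y : fgTors N p => (y : JZero N)) h
  simpa [igTheta_coe] using this

theorem ig_end_poly {R X : Type} [CommRing R] [AddCommGroup X] [Module R X]
    (f g : Module.End R X) (ℓ : ℕ) (x : X) :
    (f * f - g * f + (ℓ : R) • (1 : Module.End R X)) x = f (f x) - g (f x) + ℓ • x := by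
  rw [LinearMap.add_apply, LinearMap.sub_apply, Module.End.mul_apply, Module.End.mul_apply,
    LinearMap.smul_apply, Module.End.one_apply, Nat.cast_smul_eq_nsmul]

theorem ig_torsion_pow (N p : ℕ) (x : fgTors N p) : ∃ n : ℕ, p ^ n • (x : JZero N) = 0 := by
  refine ⟨1, ?_⟩
  rw [pow_one, ← natCast_zsmul]
  exact Pic0.mem_torsion.mp x.2

theorem ig_gh (hGH : GHStatement) (N p : ℕ) [NeZero N] (ℓ : ℕ) (hℓ : ℓ.Prime)
    (σ : Qbar ≃ₐ[ℚ] Qbar) :
    fgT N p ℓ * JZero.torsionGaloisRep N p σ = JZero.torsionGaloisRep N p σ * fgT N p ℓ := by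
  apply LinearMap.ext
  intro x
  apply Subtype.ext
  calc ((fgT N p ℓ (JZero.torsionGaloisRep N p σ x) : fgTors N p) : JZero N)
      = heckeOperatorBar N ⟨ℓ, hℓ⟩ (σ • (x : JZero N)) := fgT_coe N p ℓ hℓ _
    _ = σ • heckeOperatorBar N ⟨ℓ, hℓ⟩ (x : JZero N) := hGH N ⟨ℓ, hℓ⟩ σ (x : JZero N)
    _ = σ • ((fgT N p ℓ x : fgTors N p) : JZero N) :=
        congrArg (fun y : JZero N => σ • y) (fgT_coe N p ℓ hℓ x).symm

theorem ig_coe_poly {J : Type} [AddCommGroup J] (S : AddSubgroup J) (a b x : S) (ℓ : ℕ) :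
    ((a - b + ℓ • x : S) : J) = (a : J) - (b : J) + ℓ • (x : J) := by
  rw [AddSubgroup.coe_add, AddSubgroup.coe_sub, AddSubgroup.coe_nsmul]

theorem ig_es (N p : ℕ) [NeZero N] (ℓ : ℕ) (hℓ : ℓ.Prime) (τ : Qbar ≃ₐ[ℚ] Qbar)
    (h : ∀ x : fgTors N p, τ • τ • (x : JZero N)
      - heckeOperatorBar N ⟨ℓ, hℓ⟩ (τ • (x : JZero N)) + ℓ • (x : JZero N) = 0) :
    JZero.torsionGaloisRep N p τ * JZero.torsionGaloisRep N p τ
      - fgT N p ℓ * JZero.torsionGaloisRep N p τ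
      + (ℓ : ZMod p) • (1 : Module.End (ZMod p) (fgTors N p)) = 0 := by
  apply LinearMap.ext
  intro x
  refine Eq.trans (ig_end_poly _ _ ℓ x) (Eq.trans ?_ (LinearMap.zero_apply x).symm)
  apply Subtype.ext
  have ea : ((JZero.torsionGaloisRep N p τ (JZero.torsionGaloisRep N p τ x) : fgTors N p) :
      JZero N) = τ • τ • (x : JZero N) :=
    (JZero.coe_torsionGaloisRep_apply N τ (JZero.torsionGaloisRep N p τ x)).trans
      (congrArg (fun y : JZero N => τ • y) (JZero.coe_torsionGaloisRep_apply N τ x))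
  have e : ((fgT N p ℓ (JZero.torsionGaloisRep N p τ x) : fgTors N p) : JZero N)
      = heckeOperatorBar N ⟨ℓ, hℓ⟩ (τ • (x : JZero N)) := fgT_coe N p ℓ hℓ _
  refine (ig_coe_poly (fgTors N p) _ _ x ℓ).trans ?_
  refine Eq.trans (congrArg₂ (fun u v : JZero N => u - v + ℓ • (x : JZero N)) ea e) ?_
  exact h x

theorem ig_comm (N p : ℕ) [NeZero N] {Λ : Type} [AddCommGroup Λ] [Module (ZMod p) Λ]
    (Θ : Λ →+ JZero N) (T' : Module.End (ZMod p) Λ) (ℓ : ℕ) (hℓ : ℓ.Prime)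
    (h : ∀ c : Λ, Θ (T' c) = heckeOperatorBar N ⟨ℓ, hℓ⟩ (Θ c)) :
    fgT N p ℓ ∘ₗ igTheta N p Θ = igTheta N p Θ ∘ₗ T' := by
  apply LinearMap.ext
  intro c
  apply Subtype.ext
  have e1 : ((fgT N p ℓ (igTheta N p Θ c) : fgTors N p) : JZero N)
      = heckeOperatorBar N ⟨ℓ, hℓ⟩ (Θ c) := fgT_coe N p ℓ hℓ _
  have e2 : ((igTheta N p Θ (T' c) : fgTors N p) : JZero N) = Θ (T' c) := rfl
  exact e1.trans ((h c).symm.trans e2.symm)

theorem ig_eigen {k K X Y : Type} [Field k] [Field K] [Algebra k K]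
    [AddCommGroup X] [Module k X] [AddCommGroup Y] [Module k Y]
    (T : Module.End k X) (T' : Module.End k Y) (θ : Y →ₗ[k] X) (hcomm : T ∘ₗ θ = θ ∘ₗ T')
    (v : K ⊗[k] Y) (c : K) (hv : T'.baseChange K v = c • v) :
    T.baseChange K (θ.baseChange K v) = c • θ.baseChange K v := by
  have h1 : T.baseChange K (θ.baseChange K v) = (T ∘ₗ θ).baseChange K v := by
    rw [LinearMap.baseChange_comp]; rfl
  rw [h1, hcomm, LinearMap.baseChange_comp, LinearMap.comp_apply, hv, map_smul]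

theorem ig_one (N p : ℕ) (σ : Qbar ≃ₐ[ℚ] Qbar)
    (h : ∀ x : fgTors N p, σ • (x : JZero N) = (x : JZero N)) :
    JZero.torsionGaloisRep N p σ = 1 := by
  apply LinearMap.ext
  intro x
  apply Subtype.ext
  exact h x

/-- The lead's `S29InputsStatement` from the block statements. -/
theorem ig_inputs (hES : ESStatement) (hGH : GHStatement) (hOpen : OpenStabStatement)
    (hInt : PERIntegralStatement) (hUnr : UnrStatement) (hB : BridgeStatement) :
    S29InputsStatement := by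
  intro N _ p _ g hg K _ _ _ ψ
  have hpp : p.Prime := Fact.out
  obtain ⟨Λ, iΛ1, iΛ2, Θ, T', v, hΘinj, hv, hΘT, hvT⟩ := hB N p g hg K ψ
  -- integrality
  have ha : ∀ ℓ : ℕ, ℓ.Prime → ¬ ℓ ∣ N →
      ((fgCoeff N g ℓ : Zbar) : ℂ) = ModularFormClass.qCoeff g ℓ := by
    intro ℓ hℓ hℓN
    unfold fgCoeff
    rw [dif_pos (hInt N g hg ℓ hℓ hℓN)]
  refine ⟨fgCoeff N g, fgTors N p, inferInstance, inferInstance, JZero.torsionGaloisRep N p,
    fgT N p, (igTheta N p Θ).baseChange K v, ha, ?_, ?_, ?_, ?_, ?_, ?_⟩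
  · -- GH
    intro ℓ hℓ hℓN hℓp σ
    exact ig_gh hGH N p ℓ hℓ σ
  · -- OPEN
    intro x
    obtain ⟨E, hE, hEfix⟩ := hOpen N (x : JZero N)
    refine ⟨E, hE, fun σ hσ => ?_⟩
    apply Subtype.ext
    exact hEfix σ hσ
  · -- ES
    intro ℓ hℓ hℓN hℓp A hA τ hτ
    exact ig_es N p ℓ hℓ τ (fun x =>
      hES N p ℓ hℓ (fg_not_dvd hpp hℓ hℓN hℓp) A hA τ hτ (x : JZero N) (ig_torsion_pow N p x))
  · -- `w ≠ 0`
    intro hw0
    apply hv
    apply fg_baseChange_injective (igTheta N p Θ) (igTheta_injective N p Θ hΘinj)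
    rw [hw0, map_zero]
  · -- eigenvector
    intro ℓ hℓ hℓN hℓp
    exact ig_eigen (fgT N p ℓ) (T' ℓ) (igTheta N p Θ)
      (ig_comm N p Θ (T' ℓ) ℓ hℓ (hΘT ℓ hℓ hℓN hℓp)) v (ψ (fgCoeff N g ℓ))
      (hvT ℓ hℓ hℓN hℓp (fgCoeff N g ℓ) (ha ℓ hℓ hℓN))
  · -- UNR
    intro ℓ hℓ hℓNp A hA σ hσ
    exact ig_one N p σ (fun x =>
      hUnr N p ℓ hℓ hℓNp A hA σ hσ (x : JZero N) (ig_torsion_pow N p x))

end

end Fermat.Agent.S29
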