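/-
S29 — block KUM' (helper22): INTERFACE FILE.  Definitions and statement-`Prop`s only.
Kummer generators for ALL primes `p`, for parabolic homomorphisms that kill the elements of
finite order ("elliptic-trivial").  Everything of S42 (landed) is reused:
`Fermat.Agent.S42` (`Lam`, `RootProp`, `chiOf`, `FN`, `Qbar`, `kum_Root`, `kum_Par`, `dict_An`,
`dict_AnC`, `dict_ModFun`, `dict_Rat`, `FNC`, `FNbar`, `jC`, `Hol`, …) and `Fermat.Agent.S24`
(`ordAt`, `ellI`, `ellRho`, `jBar`, `Kbar`, …).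
-/
import Fermat.Agent.S42.KumInterfaces
import Fermat.Agent.S42.ALInterfaces

set_option autoImplicit false

open UpperHalfPlane ModularForm Complex CongruenceSubgroup ModularGroup AlgebraicCurve
open scoped MatrixGroups Manifold Real

namespace Fermat.Agent.S29

open Fermat.Agent.S24 Fermat.Agent.S42

noncomputable section

/-! ## Shared definitions -/

/-- `c` kills every element of finite order of `Γ₀(N)`. -/
def EllTriv (N p : ℕ) (c : Additive ↥(Gamma0 N) →+ ZMod p) : Prop :=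
  ∀ γ : ↥(Gamma0 N), IsOfFinOrder γ → c (Additive.ofMul γ) = 0

/-- The multiplier `χ` is trivial on the elements of finite order of `Γ₀(N)`. -/
def kumE_Ell (N : ℕ) (χ : ↥(Gamma0 N) → ℂ) : Prop :=
  ∀ γ : ↥(Gamma0 N), IsOfFinOrder γ → χ γ = 1

/-- (hard clause) every holomorphic function invariant under the stabiliser of `z` in `Γ₀(N)`
vanishes at `z` to an order divisible by `m`. -/
def dictE_StabDiv (N : ℕ) (z : ℍ) (m : ℕ) : Prop :=
  ∀ s : ℍ → ℂ, Hol s →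
    (∀ γ : SL(2, ℤ), γ ∈ Gamma0 N → γ • z = z → ∀ τ : ℍ, s (γ • τ) = s τ) → m ∣ ordAt z s

/-- (easy clause) if `γ ∈ Γ₀(N)` fixes `z`, `s ∘ γ = χ₀ • s` and `m ∣ ord_z s`, then `χ₀ = 1`. -/
def dictE_StabChar (N : ℕ) (z : ℍ) (m : ℕ) : Prop :=
  ∀ (s : ℍ → ℂ) (χ₀ : ℂ) (γ : SL(2, ℤ)), Hol s → s ≠ 0 → γ ∈ Gamma0 N → γ • z = z →
    (∀ τ : ℍ, s (γ • τ) = χ₀ * s τ) → m ∣ ordAt z s → χ₀ = 1

/-- The multiplier of the Möbius transformation `γ` at a fixed point `z`: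
`dγ/dτ (z) = 1 / (c z + d)^2`. -/
def dictE_zeta (γ : SL(2, ℤ)) (z : ℍ) : ℂ :=
  1 / ((((γ : Matrix (Fin 2) (Fin 2) ℤ) 1 0 : ℤ) : ℂ) * (z : ℂ) +
    (((γ : Matrix (Fin 2) (Fin 2) ℤ) 1 1 : ℤ) : ℂ)) ^ 2

/-! ## Shared local lemmas (leaf packages, staffed by helper22) -/

/-- (LOC) If `γ` fixes `z` and `s ∘ γ = χ₀ • s` for a nonzero holomorphic `s`, then
`χ₀ = ζ_γ(z) ^ ord_z s`. -/
def dictE_LocStatement : Prop :=
  ∀ (s : ℍ → ℂ) (χ₀ : ℂ) (γ : SL(2, ℤ)) (z : ℍ), Hol s → s ≠ 0 → γ • z = z →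
    (∀ τ : ℍ, s (γ • τ) = χ₀ * s τ) → χ₀ = dictE_zeta γ z ^ ordAt z s

/-- (STD) the standard elliptic points: `S` fixes `i`, `S * T` fixes `ρ`; functions invariant under
`S` (resp. `S * T`) vanish at `i` (resp. `ρ`) to an order divisible by `2` (resp. `3`). -/
def dictE_StdStatement : Prop :=
  (S • ellI = ellI ∧ (S * T) • ellRho = ellRho) ∧
  (∀ s : ℍ → ℂ, Hol s → (∀ τ : ℍ, s (S • τ) = s τ) → 2 ∣ ordAt ellI s) ∧
  (∀ s : ℍ → ℂ, Hol s → (∀ τ : ℍ, s ((S * T) • τ) = s τ) → 3 ∣ ordAt ellRho s)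

/-- (FIXFIN) an element of `Γ₀(N)` fixing a point of `ℍ` has finite order. -/
def dictE_FixFinStatement : Prop :=
  ∀ (N : ℕ) (γ : ↥(Gamma0 N)) (z : ℍ), (γ : SL(2, ℤ)) • z = z → IsOfFinOrder γ

/-- (ELLFIX) an element of finite order of `SL(2, ℤ)` fixes a point of `ℍ`. -/
def dictE_EllFixStatement : Prop :=
  ∀ γ : SL(2, ℤ), IsOfFinOrder γ → ∃ z : ℍ, γ • z = z

/-! ## The refined dictionary -/

/-- (PT) pointwise refinement over `ℚ̄` at the points of the orbits of `i` and `ρ`: if the point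
`z = γ • z₀` (`z₀ ∈ {i, ρ}`) gives the place `P₀` of `FNbar N` with multiplicity `m₀`, then every
holomorphic function invariant under the stabiliser of `z` in `Γ₀(N)` vanishes at `z` to an order
divisible by `m₀` (i.e. `m₀` is the order of the stabiliser of `z` in `Γ₀(N) / ±1`). -/
def dictE_PtStatement : Prop :=
  ∀ (N : ℕ) [NeZero N] (z₀ : ℍ), z₀ = ellI ∨ z₀ = ellRho → ∀ (γ : SL(2, ℤ))
    (P₀ : Place Kbar ↥(FNbar N)) (m₀ : ℕ), 0 < m₀ →
    (∀ (f : ↥(FNbar N)) (φ : ℍ → ℂ), f ≠ 0 → dict_An (f : LaurentSeries Kbar) φ →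
      dict_ModFun N φ → (ordAt (γ • z₀) φ : ℤ) = m₀ * P₀.ord f) →
    dictE_StabDiv N (γ • z₀) m₀

/-- (DQP) points of the orbits of `i` and `ρ` give finite places of `FNbar N`. -/
def dictE_PointPlaceStatement : Prop :=
  ∀ (N : ℕ) [NeZero N] (z₀ : ℍ), z₀ = ellI ∨ z₀ = ellRho → ∀ γ : SL(2, ℤ),
    ∃ (P₀ : Place Kbar ↥(FNbar N)) (m₀ : ℕ), 0 < m₀ ∧
    ∀ (f : ↥(FNbar N)) (φ : ℍ → ℂ), f ≠ 0 → dict_An (f : LaurentSeries Kbar) φ →
      dict_ModFun N φ → (ordAt (γ • z₀) φ : ℤ) = m₀ * P₀.ord f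

/-- (DQ3f) finite places of `FNbar N` come from points; the point is in the orbit of `i` or `ρ`
unless the multiplicity is `1`. -/
def dictE_PlacePointFormStatement : Prop :=
  ∀ (N : ℕ) [NeZero N] (P : Place Kbar ↥(FNbar N)), 0 ≤ P.ord (jBar N) →
    ∃ (z : ℍ) (m : ℕ), 0 < m ∧
    (∀ (f : ↥(FNbar N)) (φ : ℍ → ℂ), f ≠ 0 → dict_An (f : LaurentSeries Kbar) φ →
      dict_ModFun N φ → (ordAt z φ : ℤ) = m * P.ord f) ∧
    (m = 1 ∨ ∃ γ : SL(2, ℤ), z = γ • ellI ∨ z = γ • ellRho)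

/-- (DQ3') finite places of `FNbar N` come from points, with the refined multiplicity. -/
def dictE_PlacePointStatement : Prop :=
  ∀ (N : ℕ) [NeZero N] (P : Place Kbar ↥(FNbar N)), 0 ≤ P.ord (jBar N) →
    ∃ (z : ℍ) (m : ℕ), 0 < m ∧
    (∀ (f : ↥(FNbar N)) (φ : ℍ → ℂ), f ≠ 0 → dict_An (f : LaurentSeries Kbar) φ →
      dict_ModFun N φ → (ordAt z φ : ℤ) = m * P.ord f) ∧
    dictE_StabDiv N z m

/-- (DC5f) finite places of `FNC N` come from points; the point is in the orbit of `i` or `ρ`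
unless the multiplicity is `1`. -/
def dictE_PlacePointCFormStatement : Prop :=
  ∀ (N : ℕ) [NeZero N] (P : Place ℂ ↥(FNC N)), 0 ≤ P.ord (jC N) →
    ∃ (z : ℍ) (m : ℕ), 0 < m ∧
    (∀ (x : ↥(FNC N)) (φ : ℍ → ℂ), x ≠ 0 → dict_AnC x φ → dict_ModFun N φ →
      (ordAt z φ : ℤ) = m * P.ord x) ∧
    (m = 1 ∨ ∃ γ : SL(2, ℤ), z = γ • ellI ∨ z = γ • ellRho)

/-- (DC5') finite places of `FNC N` come from points, with the refined multiplicity. -/
def dictE_PlacePointCStatement : Prop :=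
  ∀ (N : ℕ) [NeZero N] (P : Place ℂ ↥(FNC N)), 0 ≤ P.ord (jC N) →
    ∃ (z : ℍ) (m : ℕ), 0 < m ∧
    (∀ (x : ↥(FNC N)) (φ : ℍ → ℂ), x ≠ 0 → dict_AnC x φ → dict_ModFun N φ →
      (ordAt z φ : ℤ) = m * P.ord x) ∧
    dictE_StabDiv N z m

/-- (DC4') every point gives a finite place of `FNC N`, with the easy clause. -/
def dictE_PointPlaceCStatement : Prop :=
  ∀ (N : ℕ) [NeZero N] (z : ℍ), ∃ (P : Place ℂ ↥(FNC N)) (m : ℕ),
    0 < m ∧ 0 ≤ P.ord (jC N) ∧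
    (∀ (x : ↥(FNC N)) (φ : ℍ → ℂ), x ≠ 0 → dict_AnC x φ → dict_ModFun N φ →
      (ordAt z φ : ℤ) = m * P.ord x) ∧
    dictE_StabChar N z m

/-! ## Descent and Kummer statements for all primes -/

/-- (DESC') descent for elliptic-trivial multipliers, every prime `p`. -/
def descE_Statement : Prop :=
  ∀ (N : ℕ) [NeZero N] (p : ℕ), p.Prime → ∀ (χ : ↥(Gamma0 N) → ℂ) (s₀ : ℍ → ℂ),
    kumE_Ell N χ → kum_Root N p χ s₀ →
    ∃ s : ℍ → ℂ, kum_Root N p χ s ∧ dict_Rat (fun z : ℍ => s z ^ p)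

/-- (K1') existence of the Kummer generator. -/
def kumE_ExistsStatement : Prop :=
  ∀ (N : ℕ) [NeZero N] (p : ℕ), p.Prime → ∀ (χ : ↥(Gamma0 N) → ℂ) (s₀ : ℍ → ℂ),
    kumE_Ell N χ → kum_Root N p χ s₀ →
    ∃ (f : ↥(FNbar N)) (s : ℍ → ℂ), f ≠ 0 ∧ kum_Root N p χ s ∧
      dict_An (f : LaurentSeries Kbar) (fun z : ℍ => s z ^ p)

/-- (K2') the divisor of a Kummer generator is divisible by `p`. -/
def kumE_DivStatement : Prop :=
  ∀ (N : ℕ) [NeZero N] (p : ℕ), p.Prime → ∀ (χ : ↥(Gamma0 N) → ℂ) (s : ℍ → ℂ)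
    (f : ↥(FNbar N)), kum_Par N χ → kumE_Ell N χ → kum_Root N p χ s →
    dict_An (f : LaurentSeries Kbar) (fun z : ℍ => s z ^ p) →
    ∀ P : Place Kbar ↥(FNbar N), (p : ℤ) ∣ P.ord f

/-- (EIS→KUM) the Kummer root from the twisted Eisenstein series, every prime `p`. -/
def eisE_RootStatement : Prop :=
  ∀ (N p : ℕ) [NeZero N] [Fact p.Prime] (c : ↥(Lam N p)),
    ∃ s₀ : ℍ → ℂ, kum_Root N p (chiOf N p (c : Additive ↥(Gamma0 N) →+ ZMod p)) s₀

/-- (AD4) `chiOf` of an elliptic-trivial homomorphism is elliptic-trivial. -/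
def adaptE_EllStatement : Prop :=
  ∀ (N p : ℕ) [NeZero N] [Fact p.Prime] (c : Additive ↥(Gamma0 N) →+ ZMod p),
    EllTriv N p c → kumE_Ell N (chiOf N p c)

/-! ## The four deliverables (for THETA', helper26) -/

/-- (N1') every elliptic-trivial parabolic character has a root function in `F_N`. -/
def ExistRootEStatement : Prop :=
  ∀ (N p : ℕ) [NeZero N] [Fact p.Prime] (c : ↥(Lam N p)),
    EllTriv N p (c : Additive ↥(Gamma0 N) →+ ZMod p) →
    ∃ f : FN N, RootProp N p (c : Additive ↥(Gamma0 N) →+ ZMod p) f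

/-- (N2') the divisor of a root function of an elliptic-trivial character is divisible by `p`. -/
def DivByPEStatement : Prop :=
  ∀ (N p : ℕ) [NeZero N] [Fact p.Prime] (c : ↥(Lam N p)) (f : FN N),
    EllTriv N p (c : Additive ↥(Gamma0 N) →+ ZMod p) →
    RootProp N p (c : Additive ↥(Gamma0 N) →+ ZMod p) f →
      ∀ P : Place Qbar (FN N), (p : ℤ) ∣ P.ord f

/-- (N3') two root functions for the same character differ by `a * h ^ p`. -/
def SameCharEStatement : Prop :=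
  ∀ (N p : ℕ) [NeZero N] [Fact p.Prime] (c : ↥(Lam N p)) (f f' : FN N),
    RootProp N p (c : Additive ↥(Gamma0 N) →+ ZMod p) f →
    RootProp N p (c : Additive ↥(Gamma0 N) →+ ZMod p) f' →
      ∃ (a : Qbar) (h : FN N), a ≠ 0 ∧ h ≠ 0 ∧ f' = algebraMap Qbar (FN N) a * h ^ p * f

/-- (N4') a root function of the form `a * h ^ p` has trivial character. -/
def TrivCharEStatement : Prop :=
  ∀ (N p : ℕ) [NeZero N] [Fact p.Prime] (c : ↥(Lam N p)) (a : Qbar) (h : FN N),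
    RootProp N p (c : Additive ↥(Gamma0 N) →+ ZMod p) (algebraMap Qbar (FN N) a * h ^ p) → c = 0

end

end Fermat.Agent.S29
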