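/-
S29 — BRIDGE assembly (helper26): the abstract `BridgeStatement` of `InputsGlue.lean` from
* a Hecke-stable family of submodules `LE N p ≤ Lam N p` of elliptic-trivial parabolic
  homomorphisms carrying the reduced period eigenvector (block LAM'/PER'),
* the relative THETA statement (block THETA'),
* N1'–N4' (block KUM').
-/
import Mathlib
import Fermat.Agent.S29.InputsGlue
import Fermat.Agent.S29.KumInterfaces
import Fermat.Agent.S42.ThetaInterfaces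

set_option autoImplicit false

open ModularCurve AlgebraicCurve CongruenceSubgroup
open scoped TensorProduct
open Fermat.Agent.S42

namespace Fermat.Agent.S29

noncomputable section

/-- The restricted Hecke operators on a Hecke-stable submodule (junk `0` at bad indices). -/
def brT (N p : ℕ) (L : Submodule (ZMod p) ↥(Lam N p))
    (hL : ∀ ℓ : ℕ, ℓ.Prime → ¬ ℓ ∣ N → ∀ c : ↥(Lam N p), c ∈ L → perTcohLam N ℓ p c ∈ L)
    (ℓ : ℕ) : Module.End (ZMod p) ↥L := by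
  classical
  exact if h : ℓ.Prime ∧ ¬ ℓ ∣ N then (perTcohLam N ℓ p).restrict (hL ℓ h.1 h.2) else 0

theorem brT_coe (N p : ℕ) (L : Submodule (ZMod p) ↥(Lam N p))
    (hL : ∀ ℓ : ℕ, ℓ.Prime → ¬ ℓ ∣ N → ∀ c : ↥(Lam N p), c ∈ L → perTcohLam N ℓ p c ∈ L)
    (ℓ : ℕ) (hℓ : ℓ.Prime) (hℓN : ¬ ℓ ∣ N) (c : ↥L) :
    ((brT N p L hL ℓ c : ↥L) : ↥(Lam N p)) = perTcohLam N ℓ p (c : ↥(Lam N p)) := by
  unfold brT
  rw [dif_pos ⟨hℓ, hℓN⟩]
  rfl

theorem br_eigen {k K X Y : Type} [Field k] [Field K] [Algebra k K]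
    [AddCommGroup X] [Module k X] [AddCommGroup Y] [Module k Y]
    (ι : Y →ₗ[k] X) (T' : Module.End k Y) (T : Module.End k X) (hcomm : ι ∘ₗ T' = T ∘ₗ ι)
    (v : K ⊗[k] Y) (c : K) (hv : T.baseChange K (ι.baseChange K v) = c • ι.baseChange K v) :
    ι.baseChange K (T'.baseChange K v) = ι.baseChange K (c • v) := by
  have h1 : ι.baseChange K (T'.baseChange K v) = (ι ∘ₗ T').baseChange K v := by
    rw [LinearMap.baseChange_comp]; rfl
  rw [h1, hcomm, LinearMap.baseChange_comp, LinearMap.comp_apply, hv, map_smul]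

/-- (BRIDGE) from LAM'/PER' (`hP1`, `hP2`, `hP3`), THETA' (`hTheta`) and KUM' (N1'–N4'). -/
theorem bridge_of (LE : ∀ N p : ℕ, Submodule (ZMod p) ↥(Lam N p))
    (hP1 : ∀ (N p : ℕ) [NeZero N] [Fact p.Prime] (c : ↥(Lam N p)), c ∈ LE N p →
      EllTriv N p (c : Additive ↥(Gamma0 N) →+ ZMod p))
    (hP2 : ∀ (N p ℓ : ℕ) [NeZero N] [Fact p.Prime], ℓ.Prime → ¬ ℓ ∣ N →
      ∀ c : ↥(Lam N p), c ∈ LE N p → perTcohLam N ℓ p c ∈ LE N p)
    (hP3 : ∀ (N : ℕ) [NeZero N] (p : ℕ) [Fact p.Prime]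
      (g : CuspForm (CongruenceSubgroup.Gamma0 N) 2), g.IsNormalizedEigenform →
      ∀ (K : Type) [Field K] [Algebra (ZMod p) K] (ψ : Zbar →+* K),
      ∃ v : K ⊗[ZMod p] ↥(LE N p), v ≠ 0 ∧
        ∀ ℓ : ℕ, ℓ.Prime → ¬ ℓ ∣ N → ∀ a : Zbar, (a : ℂ) = ModularFormClass.qCoeff g ℓ →
          (perTcohLam N ℓ p).baseChange K ((LE N p).subtype.baseChange K v)
            = ψ a • (LE N p).subtype.baseChange K v)
    (hTheta : ∀ (N p : ℕ) [NeZero N] [Fact p.Prime] (L : Submodule (ZMod p) ↥(Lam N p)),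
      (∀ c : ↥(Lam N p), c ∈ L → ∃ f : FN N, RootProp N p (c : Additive ↥(Gamma0 N) →+ ZMod p) f) →
      (∀ c : ↥(Lam N p), c ∈ L → ∀ f : FN N, RootProp N p (c : Additive ↥(Gamma0 N) →+ ZMod p) f →
        ∀ P : Place Qbar (FN N), (p : ℤ) ∣ P.ord f) →
      (∀ c : ↥(Lam N p), c ∈ L → ∀ f f' : FN N,
        RootProp N p (c : Additive ↥(Gamma0 N) →+ ZMod p) f →
        RootProp N p (c : Additive ↥(Gamma0 N) →+ ZMod p) f' →
          ∃ (a : Qbar) (h : FN N), a ≠ 0 ∧ h ≠ 0 ∧ f' = algebraMap Qbar (FN N) a * h ^ p * f) →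
      (∀ c : ↥(Lam N p), c ∈ L → ∀ (a : Qbar) (h : FN N),
        RootProp N p (c : Additive ↥(Gamma0 N) →+ ZMod p) (algebraMap Qbar (FN N) a * h ^ p) → c = 0) →
      ∃ Θ : ↥L →+ JZero N, Function.Injective Θ ∧
        ∀ ℓ : Nat.Primes, ¬ (ℓ : ℕ) ∣ N * p → ∀ (c : ↥L)
          (hc : perTcohLam N ℓ p (c : ↥(Lam N p)) ∈ L),
          Θ ⟨perTcohLam N ℓ p (c : ↥(Lam N p)), hc⟩ = heckeOperatorBar N ℓ (Θ c))
    (hN1 : ExistRootEStatement) (hN2 : DivByPEStatement) (hN3 : SameCharEStatement)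
    (hN4 : TrivCharEStatement) : BridgeStatement := by
  intro N _ p _ g hg K _ _ _ ψ
  have hpp : p.Prime := Fact.out
  obtain ⟨Θ, hΘinj, hΘT⟩ := hTheta N p (LE N p)
    (fun c hc => hN1 N p c (hP1 N p c hc))
    (fun c hc f hf => hN2 N p c f (hP1 N p c hc) hf)
    (fun c _ f f' hf hf' => hN3 N p c f f' hf hf')
    (fun c _ a h hr => hN4 N p c a h hr)
  obtain ⟨v, hv, hvT⟩ := hP3 N p g hg K ψ
  have hL : ∀ ℓ : ℕ, ℓ.Prime → ¬ ℓ ∣ N → ∀ c : ↥(Lam N p), c ∈ LE N p →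
      perTcohLam N ℓ p c ∈ LE N p := fun ℓ hℓ hℓN c hc => hP2 N p ℓ hℓ hℓN c hc
  refine ⟨↥(LE N p), inferInstance, inferInstance, Θ, brT N p (LE N p) hL, v, hΘinj, hv, ?_, ?_⟩
  · -- Hecke equivariance of `Θ`
    intro ℓ hℓ hℓN hℓp c
    have hc : perTcohLam N ℓ p (c : ↥(Lam N p)) ∈ LE N p := hL ℓ hℓ hℓN _ c.2
    have e : brT N p (LE N p) hL ℓ c = ⟨perTcohLam N ℓ p (c : ↥(Lam N p)), hc⟩ :=
      Subtype.ext (brT_coe N p (LE N p) hL ℓ hℓ hℓN c)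
    rw [e]
    exact hΘT ⟨ℓ, hℓ⟩ (fg_not_dvd hpp hℓ hℓN hℓp) c hc
  · -- the eigenvector
    intro ℓ hℓ hℓN hℓp a ha
    apply fg_baseChange_injective (LE N p).subtype (Submodule.injective_subtype _)
    have hcomm : (LE N p).subtype ∘ₗ brT N p (LE N p) hL ℓ
        = perTcohLam N ℓ p ∘ₗ (LE N p).subtype := by
      apply LinearMap.ext
      intro c
      exact brT_coe N p (LE N p) hL ℓ hℓ hℓN c
    exact br_eigen (LE N p).subtype (brT N p (LE N p) hL ℓ) (perTcohLam N ℓ p) hcomm v (ψ a)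
      (hvT ℓ hℓ hℓN a ha)

end

end Fermat.Agent.S29
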