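/-
S29 — block DESC' (sub-lead helper182): INNER INTERFACE FILE (statement `Prop`s only).
Descent for ALL primes `p`, for elliptic-trivial multipliers.  The S42 descent (`DescCore`,
`DescMain`, landed) needs `5 ≤ p` only in (KST); here (KST) is replaced by (KST'), which carries
`kumE_Ell` along.
-/
import Fermat.Agent.S29.KumInterfaces
import Fermat.Agent.S42.DescInterfaces

set_option autoImplicit false

open UpperHalfPlane ModularForm Complex CongruenceSubgroup ModularGroup AlgebraicCurve
open scoped MatrixGroups Manifold Real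

namespace Fermat.Agent.S29

open Fermat.Agent.S24 Fermat.Agent.S42

noncomputable section

/-- (KST') Kummer classes of elliptic-trivial multipliers are stable under `σ̃ = coeffMap σ`, for
every prime `p`, and the new multiplier is again elliptic-trivial. -/
def descE_KstStatement : Prop :=
  ∀ (N : ℕ) [NeZero N] (p : ℕ), p.Prime → ∀ (χ : ↥(Gamma0 N) → ℂ) (σ : ℂ ≃+* ℂ)
    (x : LaurentSeries ℂ), kumE_Ell N χ → x ∈ desc_K N p χ →
    ∃ χ' : ↥(Gamma0 N) → ℂ, kumE_Ell N χ' ∧
      ModularCurve.coeffMap (σ : ℂ →+* ℂ) x ∈ desc_K N p χ'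

/-- (DIV') The `p`-th power of a Kummer root with elliptic-trivial multiplier has order divisible
by `p` at every finite place of `FNC N`. -/
def descE_DivStatement : Prop :=
  ∀ (N : ℕ) [NeZero N] (p : ℕ), 0 < p → ∀ (χ : ↥(Gamma0 N) → ℂ) (s : ℍ → ℂ)
    (x : LaurentSeries ℂ) (hxF : x ∈ FNC N), kumE_Ell N χ → kum_Root N p χ s →
    dict_AnC x (fun z : ℍ => s z ^ p) →
    ∀ P : Place ℂ ↥(FNC N), 0 ≤ P.ord (jC N) → (p : ℤ) ∣ P.ord (⟨x, hxF⟩ : ↥(FNC N))

end

end Fermat.Agent.S29
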