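/-
S29 — block DESC' (sub-lead helper182), package KST' (twin Z): Kummer classes of elliptic-trivial
multipliers are stable under `σ̃ = coeffMap σ` for every prime `p`, and the new multiplier is again
elliptic-trivial.  This is the landed S42 proof `descKstB_main` with the coprimality argument
(`m ∈ {1, 2, 3}`, `p ≥ 5`) replaced by the refined dictionary (DC5', DC4').
-/
import Fermat.Agent.S29.DescEInterfaces
import Fermat.Agent.S42.ALMain
import Fermat.Agent.S42.DCMain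
import Fermat.Agent.S42.DescKstB
import Fermat.Agent.S42.DescSigB
import Fermat.Agent.S42.DescBasB

set_option autoImplicit false

open UpperHalfPlane ModularForm Complex CongruenceSubgroup ModularGroup AlgebraicCurve
open scoped MatrixGroups Manifold Real

namespace Fermat.Agent.S29

open Fermat.Agent.S24 Fermat.Agent.S42

noncomputable section

/-- (KST') Kummer classes of elliptic-trivial multipliers are stable under `σ̃`. -/
theorem descEKstZ_main : dictE_PlacePointCStatement → dictE_PointPlaceCStatement →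
    dictE_FixFinStatement → dictE_EllFixStatement → descE_KstStatement := by
  intro hDC5 hDC4 hFF hEF N _ p hp χ σ x hEll hx
  have hRoot : root_Statement := root_main
  have hSig : desc_SigStatement := descSigB_main
  have hBas : desc_BasStatement := descBasB_main
  have hRU : al_RootUnityStatement := al_RootUnity
  have hOrd : al_OrdStatement := al_Ord
  have hDC1 : dict_FieldCStatement := dcField_main
  have hDC3 : dict_IntCStatement := dcInt_main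
  have hDC3' : dict_IntC'Statement := dcInt'_main
  have hDC3'' : dict_IntPlacesCStatement := dcIntPlaces_main
  obtain ⟨s, hs, hAn⟩ := hx
  have hp0 : 0 < p := hp.pos
  obtain ⟨hMF, hCM1, hQne⟩ := hBas N p χ s hp0 hs
  have hxQ : Qexp 1 (fun z : ℍ => s z ^ p) = x := hAn.2
  have hx0 : x ≠ 0 := hxQ ▸ hQne
  have hxF : x ∈ FNC N := hxQ ▸ hDC1 N _ hMF
  have hXint : IsIntegral ↥(Algebra.adjoin ℂ ({jC N} : Set ↥(FNC N))) (⟨x, hxF⟩ : ↥(FNC N)) :=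
    hDC3' N ⟨x, hxF⟩ _ hAn hMF
  have hX0 : (⟨x, hxF⟩ : ↥(FNC N)) ≠ 0 := by
    intro h
    exact hx0 (congrArg Subtype.val h)
  -- SIG for `σ` and `σ.symm`
  obtain ⟨hS1, -, -, -, -⟩ := hSig N σ
  obtain ⟨-, hT2, hT3, -, -⟩ := hSig N σ.symm
  have hyF : ModularCurve.coeffMap (σ : ℂ →+* ℂ) x ∈ FNC N := hS1 x hxF
  have hback : ModularCurve.coeffMap (σ.symm : ℂ →+* ℂ)
      (ModularCurve.coeffMap (σ : ℂ →+* ℂ) x) = x := descKstB_symm_coeffMap σ x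
  have hy0 : ModularCurve.coeffMap (σ : ℂ →+* ℂ) x ≠ 0 := by
    intro h
    apply hx0
    rw [← hback, h, map_zero]
  have hY0 : (⟨ModularCurve.coeffMap (σ : ℂ →+* ℂ) x, hyF⟩ : ↥(FNC N)) ≠ 0 := by
    intro h
    exact hy0 (congrArg Subtype.val h)
  -- transport of finite places
  have key : ∀ P : Place ℂ ↥(FNC N), 0 ≤ P.ord (jC N) →
      ∃ P₀ : Place ℂ ↥(FNC N), 0 ≤ P₀.ord (jC N) ∧
        P.ord (⟨ModularCurve.coeffMap (σ : ℂ →+* ℂ) x, hyF⟩ : ↥(FNC N)) =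
          P₀.ord (⟨x, hxF⟩ : ↥(FNC N)) := by
    intro P hP
    obtain ⟨P₀, hP₀⟩ := hT3 P
    have hjmem : ModularCurve.coeffMap (σ.symm : ℂ →+* ℂ)
        ((jC N : ↥(FNC N)) : LaurentSeries ℂ) ∈ FNC N := by
      rw [hT2]; exact (jC N).2
    have hxmem : ModularCurve.coeffMap (σ.symm : ℂ →+* ℂ)
        (ModularCurve.coeffMap (σ : ℂ →+* ℂ) x) ∈ FNC N := by
      rw [hback]; exact hxF
    refine ⟨P₀, ?_, ?_⟩
    · have h1 := hP₀ ((jC N : ↥(FNC N)) : LaurentSeries ℂ) (jC N).2 hjmem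
      have h2 : (⟨ModularCurve.coeffMap (σ.symm : ℂ →+* ℂ)
          ((jC N : ↥(FNC N)) : LaurentSeries ℂ), hjmem⟩ : ↥(FNC N)) = jC N := Subtype.ext hT2
      rw [h2] at h1
      rw [h1]
      exact hP
    · have h1 := hP₀ (ModularCurve.coeffMap (σ : ℂ →+* ℂ) x) hyF hxmem
      have h2 : (⟨ModularCurve.coeffMap (σ.symm : ℂ →+* ℂ)
          (ModularCurve.coeffMap (σ : ℂ →+* ℂ) x), hxmem⟩ : ↥(FNC N)) = ⟨x, hxF⟩ :=
        Subtype.ext hback
      rw [h2] at h1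
      exact h1.symm
  -- `σ̃ x` is integral over `ℂ[j]`
  have hYint : IsIntegral ↥(Algebra.adjoin ℂ ({jC N} : Set ↥(FNC N)))
      (⟨ModularCurve.coeffMap (σ : ℂ →+* ℂ) x, hyF⟩ : ↥(FNC N)) := by
    apply hDC3'' N
    intro P hP
    obtain ⟨P₀, hP₀j, hP₀⟩ := key P hP
    rw [hP₀]
    exact Dict.ord_nonneg_of_isIntegral P₀ (descKstB_ord_nonneg_adjoin N P₀ hP₀j) hXint
  obtain ⟨φ', hAn', hMF'⟩ := hDC3 N ⟨ModularCurve.coeffMap (σ : ℂ →+* ℂ) x, hyF⟩ hYint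
  have hHol' : Hol φ' := hAn'.1.choose_spec.1
  have hφ'0 : φ' ≠ 0 := by
    intro h
    apply hy0
    have h1 : Qexp 1 φ' = ModularCurve.coeffMap (σ : ℂ →+* ℂ) x := hAn'.2
    have h2 : Qexp 1 (fun _ : ℍ => (0 : ℂ)) = HahnSeries.C 0 := (Qexp.qexpStatement.1 1 0).2
    rw [← h1, h, show (0 : ℍ → ℂ) = fun _ : ℍ => (0 : ℂ) from rfl, h2, map_zero]
  obtain ⟨hsHol, hs0, hsχ, hsCM⟩ := hs
  -- (a) the order of `x` at every finite place is divisible by `p`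
  have hA : ∀ P₀ : Place ℂ ↥(FNC N), 0 ≤ P₀.ord (jC N) →
      (p : ℤ) ∣ P₀.ord (⟨x, hxF⟩ : ↥(FNC N)) := by
    intro P₀ hP₀j
    obtain ⟨z', m', hm', hzm', hSD⟩ := hDC5 N P₀ hP₀j
    have h2 : (ordAt z' (fun z : ℍ => s z ^ p) : ℤ) = m' * P₀.ord (⟨x, hxF⟩ : ↥(FNC N)) :=
      hzm' _ _ hX0 hAn hMF
    have h3 : ordAt z' (fun τ : ℍ => s τ ^ p) = p * ordAt z' s := (hOrd s hsHol hs0 z').1 p
    rw [h3] at h2
    have hinv : ∀ γ : SL(2, ℤ), γ ∈ Gamma0 N → γ • z' = z' → ∀ τ : ℍ, s (γ • τ) = s τ := by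
      intro γ hγ hz τ
      have h4 : IsOfFinOrder (⟨γ, hγ⟩ : ↥(Gamma0 N)) := hFF N ⟨γ, hγ⟩ z' hz
      have h5 := (hsχ ⟨γ, hγ⟩).2 τ
      rw [hEll _ h4, one_mul] at h5
      exact h5
    obtain ⟨k, hk⟩ := hSD s hsHol hinv
    rw [hk] at h2
    refine ⟨(k : ℤ), ?_⟩
    have hm'0 : (m' : ℤ) ≠ 0 := by exact_mod_cast hm'.ne'
    apply mul_left_cancel₀ hm'0
    rw [← h2]
    push_cast
    ring
  -- all orders of `φ'` are divisible by `p`
  have hdiv : ∀ z : ℍ, p ∣ ordAt z φ' := by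
    intro z
    obtain ⟨P, m, hm, hPj, hPm, -⟩ := hDC4 N z
    have h1 : (ordAt z φ' : ℤ) =
        m * P.ord (⟨ModularCurve.coeffMap (σ : ℂ →+* ℂ) x, hyF⟩ : ↥(FNC N)) :=
      hPm _ φ' hY0 hAn' hMF'
    obtain ⟨P₀, hP₀j, hP₀⟩ := key P hPj
    have h6 : (p : ℤ) ∣ (ordAt z φ' : ℤ) := by
      rw [h1, hP₀]
      exact Dvd.dvd.mul_left (hA P₀ hP₀j) _
    exact Int.natCast_dvd_natCast.mp h6
  -- the `p`-th root
  obtain ⟨s', hs'Hol, hs'pow⟩ := hRoot p φ' hp0 hHol' hφ'0 hdiv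
  have hs'0 : s' ≠ 0 := by
    intro h
    apply hφ'0
    funext z
    rw [← hs'pow z, h]
    simp [hp0.ne']
  have hpowfun : (fun z : ℍ => s' z ^ p) = φ' := funext hs'pow
  have hex : ∀ γ : ↥(Gamma0 N), ∃ ω : ℂ, ω ^ p = 1 ∧
      ∀ z : ℍ, s' ((γ : SL(2, ℤ)) • z) = ω * s' z := by
    intro γ
    have hγHol : Hol (fun z : ℍ => s' ((γ : SL(2, ℤ)) • z)) :=
      (PointVal.pointValStatement.2.2.2.2.1 UpperHalfPlane.I (γ : SL(2, ℤ)) s' hs'Hol).1
    exact hRU p _ s' hp0 hγHol hs'Hol hs'0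
      (fun z => by rw [hs'pow, hs'pow]; exact hMF'.1 γ γ.2 z)
  choose χ' hχ' using hex
  -- (b) the new multiplier is elliptic-trivial
  have hEll' : kumE_Ell N χ' := by
    intro γ hfin
    have hfin' : IsOfFinOrder (γ : SL(2, ℤ)) := (Gamma0 N).subtype.isOfFinOrder hfin
    obtain ⟨z, hz⟩ := hEF (γ : SL(2, ℤ)) hfin'
    obtain ⟨P, m, hm, hPj, hPm, hSC⟩ := hDC4 N z
    have h1 : (ordAt z φ' : ℤ) =
        m * P.ord (⟨ModularCurve.coeffMap (σ : ℂ →+* ℂ) x, hyF⟩ : ↥(FNC N)) :=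
      hPm _ φ' hY0 hAn' hMF'
    obtain ⟨P₀, hP₀j, hP₀⟩ := key P hPj
    obtain ⟨t, ht⟩ := hA P₀ hP₀j
    have h3 : ordAt z (fun τ : ℍ => s' τ ^ p) = p * ordAt z s' := (hOrd s' hs'Hol hs'0 z).1 p
    rw [hpowfun] at h3
    rw [h3, hP₀, ht] at h1
    push_cast at h1
    have hp0' : (p : ℤ) ≠ 0 := by exact_mod_cast hp0.ne'
    have h4 : (ordAt z s' : ℤ) = m * t := by
      apply mul_left_cancel₀ hp0'
      rw [h1]
      ring
    have h5 : m ∣ ordAt z s' := Int.natCast_dvd_natCast.mp ⟨t, h4⟩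
    exact hSC s' (χ' γ) (γ : SL(2, ℤ)) hs'Hol hs'0 γ.2 hz (hχ' γ).2 h5
  refine ⟨χ', hEll', s', ⟨hs'Hol, hs'0, hχ', ?_⟩, ?_⟩
  · rw [hpowfun]; exact hMF'.2
  · rw [hpowfun]; exact hAn'

end

end Fermat.Agent.S29
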