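/-
S29 — block DESC' (sub-lead helper182): core assembly `descECore_main` of the descent statement
`descE_Statement` (all primes `p`, elliptic-trivial multipliers) from the inner statements of
S42's `DescInterfaces.lean` and (KST') of `DescEInterfaces.lean`.

Same argument as S42's `DescCore.lean` (whose canonical-element lemmas are reused): the
coefficientwise action of `Aut(ℂ)` permutes the canonical elements of the Kummer classes of the
elliptic-trivial multipliers; (KST') carries elliptic-triviality along.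
-/
import Fermat.Agent.S29.DescEInterfaces
import Fermat.Agent.S42.DescCore

set_option autoImplicit false

open UpperHalfPlane ModularForm Complex CongruenceSubgroup ModularGroup AlgebraicCurve
open scoped MatrixGroups Manifold Real

namespace Fermat.Agent.S29

open Fermat.Agent.S24 Fermat.Agent.S42

noncomputable section

/-- Transport of `𝒦_χ^(n)` under `σ̃` (elliptic-trivial multipliers). -/
theorem descECore_transport (hSig : desc_SigStatement) (hKst : descE_KstStatement)
    (hCls : desc_ClsStatement) (hInj : desc_InjStatement)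
    (N : ℕ) [NeZero N] (p : ℕ) (hpr : p.Prime) (χ χ' : ↥(Gamma0 N) → ℂ) (hEll : kumE_Ell N χ)
    (σ : ℂ ≃+* ℂ) (x : LaurentSeries ℂ) (hx : x ∈ desc_K N p χ)
    (hx' : ModularCurve.coeffMap (σ : ℂ →+* ℂ) x ∈ desc_K N p χ') (n : ℕ) (y : LaurentSeries ℂ)
    (hy : y ∈ desc_Kn N p χ n) : ModularCurve.coeffMap (σ : ℂ →+* ℂ) y ∈ desc_Kn N p χ' n := by
  obtain ⟨hS1, -, -, hS4, -⟩ := hSig N σ
  obtain ⟨u, hu, huy⟩ := hCls N p χ y x hpr.pos hy.1 hx
  obtain ⟨χ'', -, hχ''⟩ := hKst N p hpr χ σ y hEll hy.1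
  have h1 : ModularCurve.coeffMap (σ : ℂ →+* ℂ) y =
      ModularCurve.coeffMap (σ : ℂ →+* ℂ) u ^ p * ModularCurve.coeffMap (σ : ℂ →+* ℂ) x := by
    rw [huy, map_mul, map_pow]
  have h2 : χ'' = χ' := hInj N p χ'' χ' _ _ _ hpr.pos hχ'' hx' (hS1 u hu) h1
  subst h2
  exact ⟨hχ'', hS4 (p * n) y hy.2⟩

/-- The image under `σ̃` of a canonical element is canonical (elliptic-trivial multipliers). -/
theorem descECore_can_map (hSig : desc_SigStatement) (hKst : descE_KstStatement)
    (hCls : desc_ClsStatement) (hInj : desc_InjStatement)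
    (N : ℕ) [NeZero N] (p : ℕ) (hpr : p.Prime) (χ χ' : ↥(Gamma0 N) → ℂ) (hEll : kumE_Ell N χ)
    (hEll' : kumE_Ell N χ')
    (σ : ℂ ≃+* ℂ) (x : LaurentSeries ℂ) (hx : descCore_IsCan N p χ x)
    (hx' : ModularCurve.coeffMap (σ : ℂ →+* ℂ) x ∈ desc_K N p χ') :
    descCore_IsCan N p χ' (ModularCurve.coeffMap (σ : ℂ →+* ℂ) x) := by
  obtain ⟨n, hxn, hmin, hmax, hlc⟩ := hx
  have hback : ∀ (n' : ℕ) (y : LaurentSeries ℂ), y ∈ desc_Kn N p χ' n' →
      ModularCurve.coeffMap (σ.symm : ℂ →+* ℂ) y ∈ desc_Kn N p χ n' := by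
    intro n' y hy
    refine descECore_transport hSig hKst hCls hInj N p hpr χ' χ hEll' σ.symm _ hx' ?_ n' y hy
    rw [descCore_symm_apply]
    exact hxn.1
  obtain ⟨-, -, -, -, hS5⟩ := hSig N σ
  obtain ⟨-, -, -, -, hS5'⟩ := hSig N σ.symm
  refine ⟨n, descECore_transport hSig hKst hCls hInj N p hpr χ χ' hEll σ x hxn.1 hx' n x hxn,
    fun n' hn' y hy => hmin n' hn' _ (hback n' y hy), fun y hy => ?_, ?_⟩
  · rw [(hS5 x).1, ← (hS5' y).1]
    exact hmax _ (hback n y hy)
  · rw [(hS5 x).2, hlc, map_one]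

/-- (DESC') Assembly of the descent statement for all primes and elliptic-trivial multipliers. -/
theorem descECore_main (hAlg : desc_AlgStatement) (hFin : desc_FinStatement)
    (hDC1 : dict_FieldCStatement) (hBas : desc_BasStatement) (hSig : desc_SigStatement)
    (hKst : descE_KstStatement) (hCls : desc_ClsStatement) (hInj : desc_InjStatement)
    (hBex : desc_BndExStatement) (hOrd : desc_OrdBddStatement) (hScl : desc_ScaleStatement)
    (hDif : desc_DiffStatement) : descE_Statement := by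
  classical
  intro N _ p hpr χ s₀ hEll hs₀
  have hp : 0 < p := hpr.pos
  -- the canonical element of each class
  let canf : (↥(Gamma0 N) → ℂ) → LaurentSeries ℂ := fun χ' =>
    if h : ∃ x, descCore_IsCan N p χ' x then h.choose else 0
  have hcanf : ∀ (χ' : ↥(Gamma0 N) → ℂ) (x : LaurentSeries ℂ), descCore_IsCan N p χ' x →
      canf χ' = x := by
    intro χ' x hx
    have h : ∃ x, descCore_IsCan N p χ' x := ⟨x, hx⟩
    have h1 : canf χ' = h.choose := dif_pos h
    rw [h1]
    exact descCore_unique hDif N p hp χ' _ _ h.choose_spec hx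
  -- the class of `χ` is nonempty
  have hne : (desc_K N p χ).Nonempty :=
    ⟨Qexp 1 (fun z : ℍ => s₀ z ^ p), s₀, hs₀, (hBas N p χ s₀ hp hs₀).2.1, rfl⟩
  obtain ⟨x, hx⟩ := descCore_exists hBas hDC1 hBex hOrd hScl N p hp χ hne
  have hxK : x ∈ desc_K N p χ := by
    obtain ⟨n, hxn, -⟩ := hx
    exact hxn.1
  -- the conjugates of `x` are canonical elements of classes of `p`-torsion characters
  have hfin := hFin N p hp
  have hconj : ∀ σ : ℂ ≃+* ℂ, ModularCurve.coeffMap (σ : ℂ →+* ℂ) x ∈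
      canf '' {χ : ↥(Gamma0 N) → ℂ | (∀ γ, χ γ ^ p = 1) ∧ ∀ γ γ', χ (γ * γ') = χ γ * χ γ'} := by
    intro σ
    obtain ⟨χ', hEll', hχ'⟩ := hKst N p hpr χ σ x hEll hxK
    exact ⟨χ', descCore_char N p χ' ⟨_, hχ'⟩,
      hcanf χ' _ (descECore_can_map hSig hKst hCls hInj N p hpr χ χ' hEll hEll' σ x hx hχ')⟩
  -- hence `x` is rational
  have hrat : ∀ n : ℤ, x.coeff n ∈ Set.range iotaHom := by
    intro n
    apply hAlg
    refine Set.Finite.subset ((hfin.image canf).image (fun y : LaurentSeries ℂ => y.coeff n)) ?_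
    rintro d ⟨σ, -, rfl⟩
    exact ⟨_, hconj σ, rfl⟩
  obtain ⟨s, hs, hAn⟩ := hxK
  refine ⟨s, hs, fun n => ?_⟩
  rw [hAn.2]
  exact hrat n

end

end Fermat.Agent.S29
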