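/-
S29 — block DESC' (sub-lead helper182): `descEMainPre_main`, the descent statement
`descE_Statement` (all primes `p`, elliptic-trivial multipliers) from (KST') alone; every other
ingredient is a landed S42 theorem (dictionary over `ℂ`, analytic lemmas, the DESC packages).
-/
import Fermat.Agent.S29.DescECore
import Fermat.Agent.S42.ALMain
import Fermat.Agent.S42.DCMain
import Fermat.Agent.S42.DescMain

set_option autoImplicit false

namespace Fermat.Agent.S29

open Fermat.Agent.S24 Fermat.Agent.S42

/-- (DESC') from (KST'). -/
theorem descEMainPre_main (hKst : descE_KstStatement) : descE_Statement :=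
  have hBas : desc_BasStatement := descBasB_main
  have hSig : desc_SigStatement := descSigB_main
  have hW : desc_WStatement := descWpkB_main (descMrtB_main al_CuspRoot) hBas
  descECore_main descAlg_main descFin_main dcField_main hBas hSig hKst
    (descClsB_main hW hBas dcField_main)
    (descInjA_main hBas al_RootUnity dcField_main dcInt_main dcInt'_main)
    (descBexB_main dcFin_main) (descOrdB_main dcFin_main dcField_main dcInt'_main hBas)
    descSclB_main (descDifB_main hBas hW (descAddB_main al_CuspGrowth) dcField_main)

end Fermat.Agent.S29
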