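/-
S29 — block DESC' (sub-lead helper182): `descE_main`, the descent statement `descE_Statement`
(all primes `p`, elliptic-trivial multipliers) from the refined dictionary over `ℂ` (DC5', DC4')
and the two group-theoretic leaves (FIXFIN, ELLFIX).

Structure: `DescECore.lean` (`descECore_main`, the canonical-element/orbit argument of S42 carrying
elliptic-triviality along), `DescEMainPre.lean` (everything except (KST') from landed S42
theorems), `DescEKstZ.lean` ((KST') from DC5', DC4', FIXFIN, ELLFIX).
-/
import Fermat.Agent.S29.DescEMainPre
import Fermat.Agent.S29.DescEKstZ

set_option autoImplicit false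

namespace Fermat.Agent.S29

open Fermat.Agent.S24 Fermat.Agent.S42

/-- (DESC') Descent for all primes `p` and elliptic-trivial multipliers: if a Kummer root with
multiplier `χ` exists, then one exists whose `p`-th power has a `ℚ̄`-rational `q`-expansion. -/
theorem descE_main : dictE_PlacePointCStatement → dictE_PointPlaceCStatement →
    dictE_FixFinStatement → dictE_EllFixStatement → descE_Statement :=
  fun hDC5 hDC4 hFF hEF => descEMainPre_main (descEKstZ_main hDC5 hDC4 hFF hEF)

end Fermat.Agent.S29
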