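/-
S29 — block KUM', package EK1 (twin Z, helper179): existence of the Kummer generator from DESC'.
-/
import Mathlib
import Fermat.Agent.S29.KumInterfaces
import Fermat.Agent.S42.KumMain
import Fermat.Agent.S42.DQMain
import Fermat.Agent.S42.DCMain

set_option autoImplicit false

open UpperHalfPlane ModularForm Complex CongruenceSubgroup ModularGroup AlgebraicCurve
open scoped MatrixGroups Manifold Real

namespace Fermat.Agent.S29

open Fermat.Agent.S24 Fermat.Agent.S42

theorem kumEk1z_main : descE_Statement → kumE_ExistsStatement := by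
  intro hD N _ p hp χ s₀ hEll hs₀
  obtain ⟨s, hs, hrat⟩ := hD N p hp χ s₀ hEll hs₀
  have hmod : dict_ModFun N (fun z : ℍ => s z ^ p) := by
    refine ⟨?_, hs.2.2.2⟩
    intro γ hγ z
    have := hs.2.2.1 ⟨γ, hγ⟩
    show s (γ • z) ^ p = s z ^ p
    rw [this.2 z, mul_pow, this.1, one_mul]
  obtain ⟨f, hf⟩ := dqImg_main dcField_main N _ hmod hrat
  refine ⟨f, s, ?_, hs, hf⟩
  intro hf0
  have hq : Qexp 1 (fun z : ℍ => s z ^ p) = 0 := by
    have := hf.2
    rw [this, hf0]
    simp
  have h0 := Qexp.qexpStatement.2.2.1 1 _ hf.1 hq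
  apply hs.2.1
  funext z
  have h1 : s z ^ p = 0 := congrFun h0 z
  exact pow_eq_zero_iff (hp.ne_zero) |>.mp h1

end Fermat.Agent.S29
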