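/-
S29 — block KUM', package EK2 (twin Z, helper179): the divisor of a Kummer generator is divisible
by `p`, for every prime `p` (elliptic-trivial multipliers).
-/
import Mathlib
import Fermat.Agent.S29.KumInterfaces
import Fermat.Agent.S42.KumMain
import Fermat.Agent.S42.DQMain

set_option autoImplicit false

open UpperHalfPlane ModularForm Complex CongruenceSubgroup ModularGroup AlgebraicCurve
open scoped MatrixGroups Manifold Real

namespace Fermat.Agent.S29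

open Fermat.Agent.S24 Fermat.Agent.S42

theorem kumEk2z_main : dictE_PlacePointStatement → dictE_FixFinStatement → kumE_DivStatement := by
  intro hDQ3 hFix N _ p hp χ s f hPar hEll hRoot hAn P
  have hDQ4 : dict_CuspPlaceStatement := dqCuspPlace_main
  have hKL1 : kumL_KL1Statement := kumkl1a_main
  have hKL2 : kumL_KL2Statement := kumkl2a_main
  obtain ⟨hs, hs0, hχ, hcusp⟩ := hRoot
  obtain ⟨-, -, hinj, -⟩ := Qexp.qexpStatement
  have hMod : dict_ModFun N (fun z : ℍ => s z ^ p) := by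
    refine ⟨?_, hcusp⟩
    intro γ hγ z
    obtain ⟨h1, h2⟩ := hχ ⟨γ, hγ⟩
    show s (γ • z) ^ p = s z ^ p
    rw [show s (γ • z) = χ ⟨γ, hγ⟩ * s z from h2 z, mul_pow, h1, one_mul]
  have hf0 : f ≠ 0 := by
    rintro rfl
    obtain ⟨hcm, hq⟩ := hAn
    have hq0 : Qexp 1 (fun z : ℍ => s z ^ p) = 0 := by
      rw [hq]
      simp
    exact kumk2a_pow_ne_zero s hs0 p (hinj 1 _ hcm hq0)
  by_cases hfin : 0 ≤ P.ord (jBar N)
  · obtain ⟨z, m, hm, H, hStab⟩ := hDQ3 N P hfin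
    have h1 := H f _ hf0 hAn hMod
    rw [kumk2a_ordAt_pow s hs hs0 z p] at h1
    have hinv : ∀ γ : SL(2, ℤ), γ ∈ Gamma0 N → γ • z = z → ∀ τ : ℍ, s (γ • τ) = s τ := by
      intro γ hγ hz τ
      have hfo : IsOfFinOrder (⟨γ, hγ⟩ : ↥(Gamma0 N)) := hFix N ⟨γ, hγ⟩ z hz
      obtain ⟨-, h2⟩ := hχ ⟨γ, hγ⟩
      rw [show s (γ • τ) = χ ⟨γ, hγ⟩ * s τ from h2 τ, hEll ⟨γ, hγ⟩ hfo, one_mul]
    obtain ⟨k, hk⟩ := hStab s hs hinv
    refine ⟨(k : ℤ), ?_⟩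
    have hm0 : (m : ℤ) ≠ 0 := by exact_mod_cast hm.ne'
    apply mul_left_cancel₀ hm0
    rw [← h1, hk]
    push_cast
    ring
  · have hinf : P.ord (jBar N) < 0 := not_le.mp hfin
    obtain ⟨γ, h, hh, hhN, hconj, H⟩ := hDQ4 N P hinf
    have h1 := H f _ hf0 hAn hMod
    have htHol : Hol (fun z : ℍ => s (γ • z)) := PointVal.mdifferentiable_comp_smul γ hs
    have hper : ∀ n : ℕ, γ * T ^ n * γ⁻¹ ∈ Gamma0 N → ∀ z : ℍ,
        (fun z : ℍ => s (γ • z)) (((n : ℕ) : ℝ) +ᵥ z) = (fun z : ℍ => s (γ • z)) z := by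
      intro n hn z
      show s (γ • (((n : ℕ) : ℝ) +ᵥ z)) = s (γ • z)
      have e : γ • (((n : ℕ) : ℝ) +ᵥ z : ℍ) = (γ * T ^ n * γ⁻¹) • (γ • z) := by
        rw [kumk2a_vadd_eq, mul_smul, mul_smul, inv_smul_smul]
      obtain ⟨-, h2⟩ := hχ ⟨γ * T ^ n * γ⁻¹, hn⟩
      rw [e, show s ((γ * T ^ n * γ⁻¹) • (γ • z)) = χ ⟨γ * T ^ n * γ⁻¹, hn⟩ * s (γ • z) from
        h2 (γ • z), hPar ⟨γ * T ^ n * γ⁻¹, hn⟩ (kumk2a_trace_conj γ n), one_mul]
    have hconjN : γ * T ^ N * γ⁻¹ ∈ Gamma0 N := by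
      obtain ⟨k, hk⟩ := hhN
      have e : γ * T ^ N * γ⁻¹ = (γ * T ^ h * γ⁻¹) ^ k := by
        rw [conj_pow, ← pow_mul, ← hk]
      rw [e]
      exact Subgroup.pow_mem _ hconj k
    have hcmp : IsCuspMer N (fun z : ℍ => (fun z : ℍ => s (γ • z)) z ^ p) := hcusp γ
    have hcmt : IsCuspMer N (fun z : ℍ => s (γ • z)) :=
      hKL1 N p _ hp.pos htHol (hper N hconjN) hcmp
    have hpow := kumk2a_qexp_pow N _ hcmt p
    obtain ⟨a, ha⟩ := hKL2 N h _ hh hhN hcmt (hper h hconj)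
    have h2 : (Qexp N (fun z : ℍ => (fun z : ℍ => s (γ • z)) z ^ p)).order =
        ((N / h : ℕ) : ℤ) * P.ord f := h1
    rw [hpow.2, HahnSeries.order_pow, ha] at h2
    have hNh : ((N / h : ℕ) : ℤ) ≠ 0 := by
      have h3 : 0 < N / h :=
        Nat.div_pos (Nat.le_of_dvd (Nat.pos_of_ne_zero (NeZero.ne N)) hhN) hh
      exact_mod_cast h3.ne'
    refine ⟨a, ?_⟩
    apply mul_left_cancel₀ hNh
    rw [← h2, nsmul_eq_mul]
    ring

end Fermat.Agent.S29
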