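/-
S29 — block KUM', package EKE (twin Z, helper179): the Kummer root `E^χ / Δ` for every prime `p`.
-/
import Mathlib
import Fermat.Agent.S29.KumInterfaces
import Fermat.Agent.S42.KumMain
import Fermat.Agent.S42.EISFinal

set_option autoImplicit false

open UpperHalfPlane ModularForm Complex CongruenceSubgroup ModularGroup AlgebraicCurve
open scoped MatrixGroups Manifold Real

namespace Fermat.Agent.S29

open Fermat.Agent.S24 Fermat.Agent.S42

/-- (KE') The Kummer root `E^χ / Δ`, every prime `p`. -/
theorem kumEkez_main : eisE_RootStatement := by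
  intro N p _ hp c
  have hMain : EISMainStatement := eis_main
  have hPer : EISPeriodicStatement := eis_periodic
  have hChar : EISCharStatement := eis_char
  have hChi : adapt_ChiStatement := kumka3_main
  have : NeZero p := ⟨hp.out.ne_zero⟩
  obtain ⟨hE, -, hne⟩ := hMain N p c
  have hpar := (hChi N p c).1
  have hchar := (hChar N p (c : Additive ↥(Gamma0 N) →+ ZMod p)).2.2.2.2
  refine ⟨kumkea_quot (eisE N p c), kumkea_hol _ hE.holo, ?_, ?_, ?_⟩
  · intro h0
    apply hne
    funext z
    have h1 := congrFun h0 z
    have hΔ := discriminant_ne_zero z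
    simp only [kumkea_quot, Pi.zero_apply, div_eq_zero_iff] at h1
    simpa using h1.resolve_right hΔ
  · intro γ
    refine ⟨hchar γ, fun z => ?_⟩
    rw [kumkea_quot_smul, hE.slash γ]
    simp only [kumkea_quot, Pi.smul_apply, smul_eq_mul]
    ring
  · exact kumkea_cuspMer N p _ hE.holo (hPer N 12 _ _ hE.slash hpar) hE.bdd

end Fermat.Agent.S29
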