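/-
S29 — block KUM' (sub-lead helper179): the finals N1'–N4' from the block statements, and the
hypothesis-free N3', N4', AD4.
-/
import Fermat.Agent.S29.KumInterfaces
import Fermat.Agent.S42.KumMain
import Fermat.Agent.S42.DQMain
import Fermat.Agent.S42.DCMain

set_option autoImplicit false

open UpperHalfPlane ModularForm Complex CongruenceSubgroup ModularGroup AlgebraicCurve
open scoped MatrixGroups Manifold Real

namespace Fermat.Agent.S29

open Fermat.Agent.S24 Fermat.Agent.S42

/-- (AD4) `chiOf` of an elliptic-trivial homomorphism is elliptic-trivial. -/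
theorem kumE_adaptEll : adaptE_EllStatement := by
  intro N p _ _ c hc γ hγ
  exact (kumka3_chi_eq_one_iff N p c γ).mpr (hc γ hγ)

/-- (N1') from the Eisenstein root, K1' and the adapters. -/
theorem kumE_N1_of (hE : eisE_RootStatement) (hK1 : kumE_ExistsStatement) :
    ExistRootEStatement := by
  intro N p _ _ c hc
  obtain ⟨s₀, hs₀⟩ := hE N p c
  obtain ⟨f, s, _, hs, hf⟩ := hK1 N p (Fact.out) _ s₀ (kumE_adaptEll N p _ hc) hs₀
  exact ⟨f, kum_adaptTo N p _ f s hs hf⟩

/-- (N2') from K2' and the adapters. -/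
theorem kumE_N2_of (hK2 : kumE_DivStatement) : DivByPEStatement := by
  intro N p _ _ c f hc hf P
  obtain ⟨s, hs, hfs⟩ := kum_adaptOf dqRep_main N p _ f hf
  exact hK2 N p (Fact.out) _ s f (kum_adaptChi N p c).1 (kumE_adaptEll N p _ hc) hs hfs P

/-- (N3') two root functions for the same character differ by `a * h ^ p` (every prime `p`). -/
theorem kumE_N3 : SameCharEStatement := by
  intro N p _ _ c f f' hf hf'
  obtain ⟨s, hs, hfs⟩ := kum_adaptOf dqRep_main N p _ f hf
  obtain ⟨s', hs', hfs'⟩ := kum_adaptOf dqRep_main N p _ f' hf'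
  obtain ⟨a, h, ha, hh, h3⟩ :=
    kum_uniq (dqImg_main dcField_main) N p (Fact.out) _ s' s f' f hs' hs hfs' hfs
  exact ⟨a, h, ha, hh, h3⟩

/-- (N4') a root function of the form `a * h ^ p` has trivial character (every prime `p`). -/
theorem kumE_N4 : TrivCharEStatement := by
  intro N p _ _ c a h hf
  obtain ⟨s, hs, hfs⟩ := kum_adaptOf dqRep_main N p _ _ hf
  exact (kum_adaptChi N p c).2 (kum_inj dqRep_main N p (Fact.out) _ s _ h a hs hfs rfl)

end Fermat.Agent.S29
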