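/-
S29 — block KUM' (sub-lead helper179): the four deliverables N1'–N4' for ALL primes `p`
(`ExistRootEStatement`, `DivByPEStatement`, `SameCharEStatement`, `TrivCharEStatement`).
`kumE_N3`, `kumE_N4` (hypothesis-free) and `kumE_adaptEll` are in `KumEMainAux.lean`.
-/
import Fermat.Agent.S29.KumEMainAux
import Fermat.Agent.S29.KumEKEZ
import Fermat.Agent.S29.KumEK1Z
import Fermat.Agent.S29.KumEK2Z

set_option autoImplicit false

namespace Fermat.Agent.S29

open Fermat.Agent.S24 Fermat.Agent.S42

/-- (EIS→KUM) the Kummer root from the twisted Eisenstein series, every prime `p`. -/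
theorem kumE_eisRoot : eisE_RootStatement := kumEkez_main

/-- (K1') existence of the Kummer generator. -/
theorem kumE_exists : descE_Statement → kumE_ExistsStatement := kumEk1z_main

/-- (K2') the divisor of a Kummer generator is divisible by `p`. -/
theorem kumE_div : dictE_PlacePointStatement → dictE_FixFinStatement → kumE_DivStatement :=
  kumEk2z_main

/-- (N1') every elliptic-trivial parabolic character has a root function in `F_N`. -/
theorem kumE_N1 : descE_Statement → ExistRootEStatement :=
  fun hD => kumE_N1_of kumE_eisRoot (kumE_exists hD)

/-- (N2') the divisor of a root function of an elliptic-trivial character is divisible by `p`. -/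
theorem kumE_N2 : dictE_PlacePointStatement → dictE_FixFinStatement → DivByPEStatement :=
  fun hPP hFix => kumE_N2_of (kumE_div hPP hFix)

end Fermat.Agent.S29
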