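/-
S29, leaf package ELLFIX (twin A): `ellFixA_main : dictE_EllFixStatement`.
-/
import Fermat.Agent.S29.KumInterfaces

set_option autoImplicit false

open UpperHalfPlane ModularGroup Complex
open scoped MatrixGroups

namespace Fermat.Agent.S29

/-- Cayley–Hamilton for `2 × 2` integer matrices of determinant `1`. -/
theorem ellFixA_sq (M : Matrix (Fin 2) (Fin 2) ℤ) (hdet : M.det = 1) :
    M * M = (M 0 0 + M 1 1) • M - 1 := by
  rw [Matrix.det_fin_two] at hdet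
  ext i j
  fin_cases i <;> fin_cases j <;>
    simp [Matrix.mul_apply, Fin.sum_univ_two, -zsmul_eq_mul] <;>
    first | ring1 | linear_combination (-1 : ℤ) * hdet

/-- Powers of a matrix of determinant `1` and trace of absolute value at least `2`. -/
theorem ellFixA_pow (M : Matrix (Fin 2) (Fin 2) ℤ) (hdet : M.det = 1)
    (ht : 2 ≤ |M 0 0 + M 1 1|) (n : ℕ) :
    ∃ x y : ℤ, M ^ (n + 1) = x • M + y • (1 : Matrix (Fin 2) (Fin 2) ℤ) ∧ |y| < |x| := by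
  induction n with
  | zero => exact ⟨1, 0, by simp, by simp⟩
  | succ n ih =>
    obtain ⟨x, y, hxy, hlt⟩ := ih
    refine ⟨(M 0 0 + M 1 1) * x + y, -x, ?_, ?_⟩
    · rw [pow_succ, hxy, add_mul, smul_mul_assoc, ellFixA_sq M hdet, smul_mul_assoc, one_mul]
      module
    · have h2 : |(M 0 0 + M 1 1) * x| - |y| ≤ |(M 0 0 + M 1 1) * x + y| := by
        have := abs_sub_abs_le_abs_sub ((M 0 0 + M 1 1) * x) (-y)
        simpa using this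
      have h3 : 2 * |x| ≤ |M 0 0 + M 1 1| * |x| := mul_le_mul_of_nonneg_right ht (abs_nonneg x)
      rw [abs_mul] at h2
      rw [abs_neg]
      linarith

/-- A finite-order element of `SL(2, ℤ)` with `|trace| ≥ 2` is `±1`. -/
theorem ellFixA_pm_one (γ : SL(2, ℤ)) (n : ℕ) (hn : 0 < n) (hγ : γ ^ n = 1)
    (ht : 2 ≤ |γ 0 0 + γ 1 1|) : γ = 1 ∨ γ = -1 := by
  obtain ⟨m, rfl⟩ : ∃ m, n = m + 1 := ⟨n - 1, by omega⟩
  obtain ⟨x, y, hxy, hlt⟩ := ellFixA_pow (γ : Matrix (Fin 2) (Fin 2) ℤ) γ.det_coe ht m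
  have hM : (γ : Matrix (Fin 2) (Fin 2) ℤ) ^ (m + 1) = 1 := by
    have := congrArg (fun g : SL(2, ℤ) => (g : Matrix (Fin 2) (Fin 2) ℤ)) hγ
    simpa using this
  rw [hM] at hxy
  have hx : x ≠ 0 := by
    intro h
    rw [h, abs_zero] at hlt
    exact absurd hlt (not_lt.mpr (abs_nonneg y))
  have hdet : γ 0 0 * γ 1 1 - γ 0 1 * γ 1 0 = 1 := by
    have := γ.det_coe
    rwa [Matrix.det_fin_two] at this
  have h00 := congrFun (congrFun hxy 0) 0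
  have h01 := congrFun (congrFun hxy 0) 1
  have h10 := congrFun (congrFun hxy 1) 0
  have h11 := congrFun (congrFun hxy 1) 1
  simp only [Matrix.add_apply, Matrix.smul_apply, Matrix.one_apply_eq, smul_eq_mul, mul_one,
    Matrix.one_apply_ne (show (0 : Fin 2) ≠ 1 by decide),
    Matrix.one_apply_ne (show (1 : Fin 2) ≠ 0 by decide), mul_zero, add_zero] at h00 h01 h10 h11
  have hb : γ 0 1 = 0 := by
    rcases mul_eq_zero.mp h01.symm with h | h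
    · exact absurd h hx
    · exact h
  have hc : γ 1 0 = 0 := by
    rcases mul_eq_zero.mp h10.symm with h | h
    · exact absurd h hx
    · exact h
  have had : γ 0 0 = γ 1 1 := by
    have : x * (γ 0 0 - γ 1 1) = 0 := by linear_combination h11 - h00
    rcases mul_eq_zero.mp this with h | h
    · exact absurd h hx
    · linarith
  rw [hb, hc, ← had] at hdet
  have ha : γ 0 0 = 1 ∨ γ 0 0 = -1 := by
    have : (γ 0 0 - 1) * (γ 0 0 + 1) = 0 := by linear_combination hdet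
    rcases mul_eq_zero.mp this with h | h
    · left; linarith
    · right; linarith
  rcases ha with ha | ha
  · left
    ext i j
    fin_cases i <;> fin_cases j <;> simp [hb, hc, ha, ← had]
  · right
    ext i j
    fin_cases i <;> fin_cases j <;> simp [hb, hc, ha, ← had]

/-- An element of `SL(2, ℤ)` with `|trace| < 2` fixes a point of `ℍ`. -/
theorem ellFixA_fix (γ : SL(2, ℤ)) (ht : |γ 0 0 + γ 1 1| < 2) : ∃ z : ℍ, γ • z = z := by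
  have hdet : γ 0 0 * γ 1 1 - γ 0 1 * γ 1 0 = 1 := by
    have := γ.det_coe
    rwa [Matrix.det_fin_two] at this
  have ht2 : (γ 0 0 + γ 1 1) ^ 2 < 4 := by
    have := abs_lt.mp ht
    nlinarith
  have hc : γ 1 0 ≠ 0 := by
    intro hc
    rw [hc] at hdet
    nlinarith [sq_nonneg (γ 0 0 - γ 1 1)]
  have hcR : ((γ 1 0 : ℤ) : ℝ) ≠ 0 := by exact_mod_cast hc
  have hdetR : ((γ 0 0 : ℤ) : ℝ) * (γ 1 1 : ℤ) - (γ 0 1 : ℤ) * (γ 1 0 : ℤ) = 1 := by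
    exact_mod_cast hdet
  have ht2R : (((γ 0 0 : ℤ) : ℝ) + (γ 1 1 : ℤ)) ^ 2 < 4 := by exact_mod_cast ht2
  obtain ⟨x, hx⟩ : ∃ x : ℝ, 2 * ((γ 1 0 : ℤ) : ℝ) * x = (γ 0 0 : ℤ) - (γ 1 1 : ℤ) :=
    ⟨(((γ 0 0 : ℤ) : ℝ) - (γ 1 1 : ℤ)) / (2 * ((γ 1 0 : ℤ) : ℝ)), by field_simp⟩
  obtain ⟨y, hy, hy2⟩ : ∃ y : ℝ, 0 < y ∧
      4 * ((γ 1 0 : ℤ) : ℝ) ^ 2 * y ^ 2 = 4 - (((γ 0 0 : ℤ) : ℝ) + (γ 1 1 : ℤ)) ^ 2 := by
    have hpos : 0 < 4 - (((γ 0 0 : ℤ) : ℝ) + (γ 1 1 : ℤ)) ^ 2 := by linarith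
    have habs : 0 < |((γ 1 0 : ℤ) : ℝ)| := abs_pos.mpr hcR
    refine ⟨Real.sqrt (4 - (((γ 0 0 : ℤ) : ℝ) + (γ 1 1 : ℤ)) ^ 2) / (2 * |((γ 1 0 : ℤ) : ℝ)|),
      div_pos (Real.sqrt_pos.mpr hpos) (by positivity), ?_⟩
    rw [div_pow, mul_pow, sq_abs, Real.sq_sqrt hpos.le]
    field_simp
    norm_num
  have him : (0 : ℝ) < ((x : ℂ) + (y : ℂ) * Complex.I).im := by simpa using hy
  refine ⟨UpperHalfPlane.mk ((x : ℂ) + (y : ℂ) * Complex.I) him, ?_⟩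
  apply UpperHalfPlane.ext
  rw [coe_specialLinearGroup_apply]
  simp only [eq_intCast, Complex.ofReal_intCast]
  have hre : ((γ 0 0 : ℤ) : ℝ) * x + (γ 0 1 : ℤ)
      - ((γ 1 0 : ℤ) * x ^ 2 - (γ 1 0 : ℤ) * y ^ 2 + (γ 1 1 : ℤ) * x) = 0 := by
    have h4 : 4 * ((γ 1 0 : ℤ) : ℝ) * (((γ 0 0 : ℤ) : ℝ) * x + (γ 0 1 : ℤ)
      - ((γ 1 0 : ℤ) * x ^ 2 - (γ 1 0 : ℤ) * y ^ 2 + (γ 1 1 : ℤ) * x)) = 0 := by
      linear_combination -(2 * ((γ 1 0 : ℤ) : ℝ) * x + ((γ 0 0 : ℤ) - (γ 1 1 : ℤ))) * hx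
        - 2 * (((γ 1 1 : ℤ) : ℝ) - (γ 0 0 : ℤ)) * hx + hy2 - 4 * hdetR
    rcases mul_eq_zero.mp h4 with h | h
    · exfalso; apply hcR; linarith
    · exact h
  have himE : ((γ 0 0 : ℤ) : ℝ) * y - 2 * (γ 1 0 : ℤ) * x * y - (γ 1 1 : ℤ) * y = 0 := by
    linear_combination -y * hx
  have hreC : (((γ 0 0 : ℤ) : ℂ)) * x + (γ 0 1 : ℤ)
      - ((γ 1 0 : ℤ) * (x : ℂ) ^ 2 - (γ 1 0 : ℤ) * (y : ℂ) ^ 2 + (γ 1 1 : ℤ) * x) = 0 := by
    exact_mod_cast congrArg (fun r : ℝ => (r : ℂ)) hre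
  have himC : (((γ 0 0 : ℤ) : ℂ)) * y - 2 * (γ 1 0 : ℤ) * x * y - (γ 1 1 : ℤ) * y = 0 := by
    exact_mod_cast congrArg (fun r : ℝ => (r : ℂ)) himE
  have hden : ((γ 1 0 : ℤ) : ℂ) * ((x : ℂ) + (y : ℂ) * Complex.I) + ((γ 1 1 : ℤ) : ℂ) ≠ 0 := by
    intro h0
    have := congrArg Complex.im h0
    simp at this
    rcases this with h | h
    · exact hc h
    · exact hy.ne' h
  rw [div_eq_iff hden]
  linear_combination hreC + Complex.I * himC - (((γ 1 0 : ℤ) : ℂ) * (y : ℂ) ^ 2) * Complex.I_sq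

/-- (ELLFIX) an element of finite order of `SL(2, ℤ)` fixes a point of `ℍ`. -/
theorem ellFixA_main : dictE_EllFixStatement := by
  intro γ hγ
  obtain ⟨n, hn, hpow⟩ := isOfFinOrder_iff_pow_eq_one.mp hγ
  by_cases ht : |γ 0 0 + γ 1 1| < 2
  · exact ellFixA_fix γ ht
  · rcases ellFixA_pm_one γ n hn hpow (not_lt.mp ht) with h | h
    · exact ⟨UpperHalfPlane.I, by rw [h, one_smul]⟩
    · exact ⟨UpperHalfPlane.I, by rw [h, SL_neg_smul, one_smul]⟩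

end Fermat.Agent.S29
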