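/-
S29 — leaf package FIXFIN (twin A): an element of `Γ₀(N)` fixing a point of the upper half plane
has finite order.
-/
import Fermat.Agent.S29.KumInterfaces

set_option autoImplicit false

open UpperHalfPlane ModularForm Complex CongruenceSubgroup ModularGroup
open scoped MatrixGroups Manifold Real

namespace Fermat.Agent.S29

open Fermat.Agent.S24 Fermat.Agent.S42

/-- The arithmetic of a fixed point: either `γ = ±1` (in entry form) or the trace is `0, ±1`. -/
theorem fixFinA_trace (g : SL(2, ℤ)) (z : ℍ) (hz : g • z = z) :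
    (g 1 0 = 0 ∧ g 0 1 = 0 ∧ g 0 0 = g 1 1) ∨
      (g 0 0 + g 1 1 = 0 ∨ g 0 0 + g 1 1 = 1 ∨ g 0 0 + g 1 1 = -1) := by
  have hdet : g 0 0 * g 1 1 - g 0 1 * g 1 0 = 1 := by
    have h := g.det_coe
    rwa [Matrix.det_fin_two] at h
  have hdetR : (g 0 0 : ℝ) * (g 1 1 : ℝ) - (g 0 1 : ℝ) * (g 1 0 : ℝ) = 1 := by exact_mod_cast hdet
  have hy : 0 < z.im := z.im_pos
  have hcoe : (z : ℂ) = (((g 0 0 : ℤ) : ℂ) * z + ((g 0 1 : ℤ) : ℂ)) /
      (((g 1 0 : ℤ) : ℂ) * z + ((g 1 1 : ℤ) : ℂ)) := by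
    have h := coe_specialLinearGroup_apply g z
    rw [hz] at h
    simpa using h
  have hden : (((g 1 0 : ℤ) : ℂ) * z + ((g 1 1 : ℤ) : ℂ)) ≠ 0 := by
    intro h0
    rw [h0, div_zero] at hcoe
    have : (z : ℂ).im = 0 := by rw [hcoe]; simp
    exact hy.ne' this
  have heq : (z : ℂ) * (((g 1 0 : ℤ) : ℂ) * z + ((g 1 1 : ℤ) : ℂ)) =
      ((g 0 0 : ℤ) : ℂ) * z + ((g 0 1 : ℤ) : ℂ) := by
    rw [eq_div_iff hden] at hcoe
    exact hcoe
  have hre := congrArg Complex.re heq
  have him := congrArg Complex.im heq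
  simp only [Complex.mul_re, Complex.mul_im, Complex.add_re, Complex.add_im, Complex.intCast_re,
    Complex.intCast_im, zero_mul, sub_zero, add_zero, UpperHalfPlane.coe_re,
    UpperHalfPlane.coe_im] at hre him
  -- notation
  set a : ℝ := (g 0 0 : ℝ) with ha
  set b : ℝ := (g 0 1 : ℝ) with hb
  set c : ℝ := (g 1 0 : ℝ) with hc
  set d : ℝ := (g 1 1 : ℝ) with hd
  set x : ℝ := z.re with hx
  set y : ℝ := z.im with hyy
  have h1 : a = 2 * c * x + d := by
    have : y * (a - (2 * c * x + d)) = 0 := by linarith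
    rcases mul_eq_zero.1 this with h | h
    · exact absurd h hy.ne'
    · linarith
  have h2 : b = -(c * x ^ 2) - c * y ^ 2 := by
    rw [h1] at hre
    linarith [hre]
  have h3 : (a + d) ^ 2 + 4 * c ^ 2 * y ^ 2 = 4 := by
    rw [h2] at hdetR
    rw [h1] at hdetR ⊢
    nlinarith [hdetR]
  by_cases hc0 : g 1 0 = 0
  · left
    have hcR : c = 0 := by rw [hc, hc0]; simp
    have hbR : b = 0 := by rw [h2, hcR]; ring
    have hadR : a = d := by rw [h1, hcR]; ring
    refine ⟨hc0, ?_, ?_⟩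
    · rw [hb] at hbR
      exact_mod_cast hbR
    · rw [ha, hd] at hadR
      exact_mod_cast hadR
  · right
    have hc1 : (1 : ℝ) ≤ c ^ 2 := by
      have : (1 : ℤ) ≤ (g 1 0) ^ 2 := by
        have := sq_nonneg (g 1 0)
        have h0 : (g 1 0) ^ 2 ≠ 0 := pow_ne_zero 2 hc0
        omega
      rw [hc]
      exact_mod_cast this
    have hy2 : 0 < y ^ 2 := by positivity
    have hlt : (a + d) ^ 2 < 4 := by nlinarith
    have hltZ : (g 0 0 + g 1 1) ^ 2 < 4 := by
      have : (((g 0 0 + g 1 1 : ℤ)) : ℝ) ^ 2 < 4 := by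
        push_cast
        exact hlt
      exact_mod_cast this
    have hl : -2 < g 0 0 + g 1 1 := by nlinarith
    have hu : g 0 0 + g 1 1 < 2 := by nlinarith
    omega

/-- Finite order from the trace condition. -/
theorem fixFinA_pow (g : SL(2, ℤ))
    (h : (g 1 0 = 0 ∧ g 0 1 = 0 ∧ g 0 0 = g 1 1) ∨
      (g 0 0 + g 1 1 = 0 ∨ g 0 0 + g 1 1 = 1 ∨ g 0 0 + g 1 1 = -1)) :
    g ^ 12 = 1 := by
  have hdet : g 0 0 * g 1 1 - g 0 1 * g 1 0 = 1 := by
    have h := g.det_coe
    rwa [Matrix.det_fin_two] at h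
  have key : ∀ n : ℕ, (g : Matrix (Fin 2) (Fin 2) ℤ) ^ n = 1 → n ∣ 12 → g ^ 12 = 1 := by
    intro n hn hdvd
    obtain ⟨m, hm⟩ := hdvd
    apply Subtype.ext
    rw [Matrix.SpecialLinearGroup.coe_pow, hm, pow_mul, hn, one_pow,
      Matrix.SpecialLinearGroup.coe_one]
  have hMM : ∀ t : ℤ, g 0 0 + g 1 1 = t →
      (g : Matrix (Fin 2) (Fin 2) ℤ) * (g : Matrix (Fin 2) (Fin 2) ℤ) =
        t • (g : Matrix (Fin 2) (Fin 2) ℤ) - 1 := by
    intro t ht
    subst ht
    ext i j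
    simp only [Matrix.sub_apply, Matrix.smul_apply, Matrix.mul_apply, Fin.sum_univ_two,
      smul_eq_mul, Matrix.one_apply]
    fin_cases i <;> fin_cases j <;> simp <;>
      first | linear_combination (-1) * hdet | ring1
  rcases h with ⟨hc, hb, had⟩ | h0 | h1 | h1
  · refine key 2 ?_ (by norm_num)
    rw [pow_two]
    rw [hb, hc, had] at hdet
    ext i j
    fin_cases i <;> fin_cases j <;>
      simp [Matrix.mul_apply, Fin.sum_univ_two, hc, hb, had]
    all_goals linear_combination hdet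
  · have hM := hMM 0 h0
    rw [zero_smul, zero_sub] at hM
    refine key 4 ?_ (by norm_num)
    have : (g : Matrix (Fin 2) (Fin 2) ℤ) ^ 4 =
        ((g : Matrix (Fin 2) (Fin 2) ℤ) * (g : Matrix (Fin 2) (Fin 2) ℤ)) ^ 2 := by
      rw [← pow_two, ← pow_mul]
    rw [this, hM]
    simp
  · have hM := hMM 1 h1
    rw [one_smul] at hM
    have h3 : (g : Matrix (Fin 2) (Fin 2) ℤ) ^ 3 = -1 := by
      rw [pow_succ, pow_two, hM, sub_mul, hM, one_mul]
      abel
    refine key 6 ?_ (by norm_num)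
    have : (g : Matrix (Fin 2) (Fin 2) ℤ) ^ 6 = ((g : Matrix (Fin 2) (Fin 2) ℤ) ^ 3) ^ 2 := by
      rw [← pow_mul]
    rw [this, h3]
    simp
  · have hM := hMM (-1) h1
    rw [neg_one_smul] at hM
    refine key 3 ?_ (by norm_num)
    rw [pow_succ, pow_two, hM, sub_mul, neg_mul, hM, one_mul]
    abel

/-- (FIXFIN) an element of `Γ₀(N)` fixing a point of `ℍ` has finite order. -/
theorem fixFinA_main : dictE_FixFinStatement := by
  intro N γ z hz
  rw [isOfFinOrder_iff_pow_eq_one]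
  refine ⟨12, by norm_num, ?_⟩
  apply Subtype.ext
  rw [Subgroup.coe_pow, Subgroup.coe_one]
  exact fixFinA_pow _ (fixFinA_trace _ z hz)

end Fermat.Agent.S29
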