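/-
S29 — leaf package LOC (twin A): the local multiplier lemma.  If `γ ∈ SL(2, ℤ)` fixes `z` and
`s ∘ γ = χ₀ • s` for a nonzero holomorphic `s`, then `χ₀ = ζ_γ(z) ^ ord_z s`.
-/
import Fermat.Agent.S29.KumInterfaces
import Fermat.Agent.S24.PointVal

set_option autoImplicit false

open UpperHalfPlane ModularForm Complex CongruenceSubgroup ModularGroup Filter
open scoped MatrixGroups Manifold Real Topology

namespace Fermat.Agent.S29

open Fermat.Agent.S24 Fermat.Agent.S42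

/-- Twisted rotation lemma: if `g` fixes `z₀` with derivative `ζ` there, and `F` is analytic at
`z₀` of finite order `n` with `F ∘ g = χ₀ • F` near `z₀`, then `ζ ^ n = χ₀`. -/
theorem locA_rotation {F g : ℂ → ℂ} {z₀ ζ χ₀ : ℂ} {n : ℕ}
    (hg : HasDerivAt g ζ z₀) (hgz : g z₀ = z₀)
    (hF : AnalyticAt ℂ F z₀) (hn : analyticOrderAt F z₀ = n)
    (hinv : ∀ᶠ z in 𝓝 z₀, F (g z) = χ₀ * F z) : ζ ^ n = χ₀ := by
  obtain ⟨G, hG, hG0, hFG⟩ := hF.analyticOrderAt_eq_natCast.mp hn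
  have hgh : ∀ z, g z - z₀ = (z - z₀) * dslope g z₀ z := by
    intro z
    have h := sub_smul_dslope g z₀ z
    rw [hgz] at h
    rw [← h, smul_eq_mul]
  have hhc : ContinuousAt (dslope g z₀) z₀ := continuousAt_dslope_same.mpr hg.differentiableAt
  have hh0 : dslope g z₀ z₀ = ζ := by rw [dslope_same, hg.deriv]
  have hgc : Tendsto g (𝓝 z₀) (𝓝 z₀) := by
    have h := hg.continuousAt.tendsto
    rwa [hgz] at h
  have hFg : ∀ᶠ z in 𝓝 z₀, F (g z) = (g z - z₀) ^ n • G (g z) := hgc.eventually hFG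
  have key : ∀ᶠ z in 𝓝[≠] z₀, dslope g z₀ z ^ n * G (g z) = χ₀ * G z := by
    have h : ∀ᶠ z in 𝓝 z₀, z ≠ z₀ → dslope g z₀ z ^ n * G (g z) = χ₀ * G z := by
      filter_upwards [hFG, hFg, hinv] with z h1 h2 h3 hz
      rw [h1, h2, hgh z, mul_pow, smul_eq_mul, smul_eq_mul, mul_assoc, mul_left_comm χ₀] at h3
      exact mul_left_cancel₀ (pow_ne_zero n (sub_ne_zero.mpr hz)) h3
    exact eventually_nhdsWithin_iff.mpr h
  have hGc : ContinuousAt G z₀ := hG.continuousAt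
  have t1 : Tendsto (fun z => dslope g z₀ z ^ n * G (g z)) (𝓝[≠] z₀)
      (𝓝 (dslope g z₀ z₀ ^ n * G z₀)) := by
    have h : Tendsto (fun z => dslope g z₀ z ^ n * G (g z)) (𝓝 z₀)
        (𝓝 (dslope g z₀ z₀ ^ n * G z₀)) :=
      (hhc.tendsto.pow n).mul (hGc.tendsto.comp hgc)
    exact h.mono_left nhdsWithin_le_nhds
  have t2 : Tendsto (fun z => χ₀ * G z) (𝓝[≠] z₀) (𝓝 (χ₀ * G z₀)) :=
    (hGc.tendsto.const_mul χ₀).mono_left nhdsWithin_le_nhds
  have h := tendsto_nhds_unique_of_eventuallyEq t1 t2 key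
  rw [hh0] at h
  exact mul_right_cancel₀ hG0 h

/-- The multiplier in terms of `denom`. -/
theorem locA_zeta (γ : SL(2, ℤ)) (z : ℍ) :
    dictE_zeta γ z = 1 / denom (γ : GL (Fin 2) ℝ) z ^ 2 := by
  unfold dictE_zeta
  rw [ModularGroup.denom_apply]

/-- (LOC) -/
theorem locA_main : dictE_LocStatement := by
  intro s χ₀ γ z hs hs0 hfix hinv
  have hder := (z.hasStrictDerivAt_smul (PointVal.det_pos γ)).hasDerivAt
  rw [PointVal.det_eq_one, Complex.ofReal_one] at hder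
  rw [locA_zeta]
  symm
  refine locA_rotation (F := s ∘ ofComplex) hder ?_ (PointVal.analyticAt_comp_ofComplex hs z) ?_ ?_
  · rw [ofComplex_apply, ← sl_moeb, hfix]
  · unfold ordAt
    rw [ENat.natCast_toNat (PointVal.order_ne_top hs hs0 z)]
  · have hopen : {w : ℂ | 0 < w.im} ∈ 𝓝 (z : ℂ) :=
      (isOpen_lt continuous_const Complex.continuous_im).mem_nhds z.im_pos
    filter_upwards [hopen] with w hw
    simp only [Function.comp_apply, ofComplex_apply, ← sl_moeb]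
    exact hinv _

end Fermat.Agent.S29
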