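/-
S29 — block KUM', leaf package STD (twin A): the standard elliptic points.
-/
import Fermat.Agent.S29.KumInterfaces
import Fermat.Agent.S24.PointVal

set_option autoImplicit false

open UpperHalfPlane ModularForm Complex CongruenceSubgroup ModularGroup AlgebraicCurve Filter
open scoped MatrixGroups Manifold Real Topology

namespace Fermat.Agent.S29

open Fermat.Agent.S24 Fermat.Agent.S42

/-- The order of the zero function is `0` (by convention). -/
theorem stdA_ordAt_zero (z : ℍ) : ordAt z (0 : ℍ → ℂ) = 0 := by
  unfold ordAt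
  have h0 : ((0 : ℍ → ℂ) ∘ ofComplex) = (0 : ℂ → ℂ) := rfl
  have h1 : analyticOrderAt (0 : ℂ → ℂ) (z : ℂ) = ⊤ :=
    analyticOrderAt_eq_top.mpr (Eventually.of_forall fun _ => rfl)
  rw [h0, h1]
  rfl

/-- (STD) the standard elliptic points, hypothesis-free. -/
theorem stdA_free : dictE_StdStatement := by
  refine ⟨⟨PointVal.S_smul_ellI, PointVal.ST_smul_ellRho⟩, ?_, ?_⟩
  · intro s hs hinv
    by_cases h0 : s = 0
    · rw [h0, stdA_ordAt_zero]
      exact dvd_zero 2
    · exact PointVal.two_dvd_ordAt_ellI hs h0 hinv
  · intro s hs hinv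
    by_cases h0 : s = 0
    · rw [h0, stdA_ordAt_zero]
      exact dvd_zero 3
    · exact PointVal.three_dvd_ordAt_ellRho hs h0 hinv

/-- (STD) the standard elliptic points. -/
theorem stdA_main : dictE_LocStatement → dictE_StdStatement := fun _ => stdA_free

end Fermat.Agent.S29
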