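/-
S29 — block KUM' (helper22): the PROVEN shared leaf statements, collected.
-/
import Fermat.Agent.S29.LocA
import Fermat.Agent.S29.StdA
import Fermat.Agent.S29.FixFinA
import Fermat.Agent.S29.EllFixA

set_option autoImplicit false

namespace Fermat.Agent.S29

/-- (LOC), hypothesis-free. -/
theorem leaf_loc : dictE_LocStatement := locA_main

/-- (STD), hypothesis-free. -/
theorem leaf_std : dictE_StdStatement := stdA_free

/-- (FIXFIN), hypothesis-free. -/
theorem leaf_fixFin : dictE_FixFinStatement := fixFinA_main

/-- (ELLFIX), hypothesis-free. -/
theorem leaf_ellFix : dictE_EllFixStatement := ellFixA_main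

end Fermat.Agent.S29
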