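/-
S29 — block REF-C (refined dictionary over `ℂ`), package PLC/C (helper210):
(DC5') finite places of `FNC N` come from points, with the refined multiplicity clause
`dictE_StabDiv`.

Main result: `refCplcc_main : dictE_PlacePointCFormStatement → dictE_PointPlaceStatement →
  dictE_PtStatement → dictE_PlacePointCStatement`.
-/
import Fermat.Agent.S29.KumInterfaces
import Fermat.Agent.S42.DCMain
import Fermat.Agent.S42.DQMain

set_option autoImplicit false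

open UpperHalfPlane ModularForm Complex CongruenceSubgroup ModularGroup AlgebraicCurve
open scoped MatrixGroups Manifold Real

namespace Fermat.Agent.S29

open Fermat.Agent.S24 Fermat.Agent.S42

noncomputable section

/-- `coeffMap iotaHom` has trivial kernel. -/
theorem refCplcc_coeffMap_eq_zero (g : LaurentSeries Kbar)
    (h : ModularCurve.coeffMap iotaHom g = 0) : g = 0 := by
  ext k
  have hk : (ModularCurve.coeffMap iotaHom g).coeff k = 0 := by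
    rw [h]
    rfl
  rw [ModularCurve.coeffMap_coeff] at hk
  exact (map_eq_zero iotaHom).mp hk

/-- The multiplicity of a place of `FNC N` at a point divides the multiplicity of any place of
`FNbar N` at the same point. -/
theorem refCplcc_dvd (hRep : dict_RepStatement) (hField : dict_FieldCStatement)
    (N : ℕ) [NeZero N] (P : Place ℂ ↥(FNC N)) (z : ℍ) (m : ℕ)
    (hstar : ∀ (x : ↥(FNC N)) (φ : ℍ → ℂ), x ≠ 0 → dict_AnC x φ → dict_ModFun N φ →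
      (ordAt z φ : ℤ) = m * P.ord x)
    (P₀ : Place Kbar ↥(FNbar N)) (m₀ : ℕ)
    (hss : ∀ (f : ↥(FNbar N)) (φ : ℍ → ℂ), f ≠ 0 → dict_An (f : LaurentSeries Kbar) φ →
      dict_ModFun N φ → (ordAt z φ : ℤ) = m₀ * P₀.ord f) :
    m ∣ m₀ := by
  obtain ⟨ϖ, hϖ⟩ := IsDiscreteValuationRing.exists_irreducible P₀.toValuationSubring
  have hordϖ : P₀.ord ((ϖ : ↥(FNbar N))) = 1 := P₀.ord_coe_irreducible hϖ
  have hf0 : (ϖ : ↥(FNbar N)) ≠ 0 := by
    intro h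
    rw [h, Place.ord_zero] at hordϖ
    exact zero_ne_one hordϖ
  obtain ⟨f₁, f₂, φ₁, φ₂, hf₂, hff, hA₁, hA₂, hM₁, hM₂⟩ := hRep N (ϖ : ↥(FNbar N))
  have hf₁ : f₁ ≠ 0 := by
    rw [← hff]
    exact mul_ne_zero hf0 hf₂
  have hmem₁ := hField N φ₁ hM₁
  have hmem₂ := hField N φ₂ hM₂
  have hAC₁ : dict_AnC ((⟨Qexp 1 φ₁, hmem₁⟩ : ↥(FNC N)) : LaurentSeries ℂ) φ₁ := ⟨hA₁.1, rfl⟩
  have hAC₂ : dict_AnC ((⟨Qexp 1 φ₂, hmem₂⟩ : ↥(FNC N)) : LaurentSeries ℂ) φ₂ := ⟨hA₂.1, rfl⟩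
  have hx₁ : (⟨Qexp 1 φ₁, hmem₁⟩ : ↥(FNC N)) ≠ 0 := by
    intro h
    have h' : Qexp 1 φ₁ = 0 := congrArg Subtype.val h
    rw [hA₁.2] at h'
    exact hf₁ (Subtype.ext (refCplcc_coeffMap_eq_zero _ h'))
  have hx₂ : (⟨Qexp 1 φ₂, hmem₂⟩ : ↥(FNC N)) ≠ 0 := by
    intro h
    have h' : Qexp 1 φ₂ = 0 := congrArg Subtype.val h
    rw [hA₂.2] at h'
    exact hf₂ (Subtype.ext (refCplcc_coeffMap_eq_zero _ h'))
  have e1 := hstar _ φ₁ hx₁ hAC₁ hM₁
  have e2 := hstar _ φ₂ hx₂ hAC₂ hM₂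
  have e3 := hss f₁ φ₁ hf₁ hA₁ hM₁
  have e4 := hss f₂ φ₂ hf₂ hA₂ hM₂
  have e5 : P₀.ord f₁ = 1 + P₀.ord f₂ := by
    rw [← hff, Place.ord_mul _ hf0 hf₂, hordϖ]
  rw [e5] at e3
  have e6 : (m₀ : ℤ) = (m : ℤ) * (P.ord (⟨Qexp 1 φ₁, hmem₁⟩ : ↥(FNC N))
      - P.ord (⟨Qexp 1 φ₂, hmem₂⟩ : ↥(FNC N))) := by
    linear_combination e1 - e2 - e3 + e4
  exact Int.natCast_dvd_natCast.mp ⟨_, e6⟩

/-- **Package PLC/C (DC5')**: finite places of `FNC N` come from points, with the refined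
multiplicity. -/
theorem refCplcc_main : dictE_PlacePointCFormStatement → dictE_PointPlaceStatement →
    dictE_PtStatement → dictE_PlacePointCStatement := by
  intro hF hDQP hPT N _ P hP
  obtain ⟨z, m, hm, hstar, hcase⟩ := hF N P hP
  refine ⟨z, m, hm, hstar, ?_⟩
  rcases hcase with rfl | ⟨γ, hz⟩
  · intro s _ _
    exact one_dvd _
  · obtain ⟨z₀, hz₀, rfl⟩ : ∃ z₀ : ℍ, (z₀ = ellI ∨ z₀ = ellRho) ∧ z = γ • z₀ := by
      rcases hz with h | h
      · exact ⟨ellI, Or.inl rfl, h⟩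
      · exact ⟨ellRho, Or.inr rfl, h⟩
    obtain ⟨P₀, m₀, hm₀, hss⟩ := hDQP N z₀ hz₀ γ
    have hSD := hPT N z₀ hz₀ γ P₀ m₀ hm₀ hss
    have hdvd : m ∣ m₀ := refCplcc_dvd dqRep_main dcField_main N P (γ • z₀) m hstar P₀ m₀ hss
    intro s hs hinv
    exact hdvd.trans (hSD s hs hinv)

end

end Fermat.Agent.S29
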