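/-
S29 — block REF-C, package PPC (twin B): the refined point → place dictionary over `ℂ`,
`refCppcb_main : dictE_LocStatement → dictE_PointPlaceCStatement`.
-/
import Fermat.Agent.S29.KumInterfaces
import Fermat.Agent.S42.DCMain

set_option autoImplicit false

open UpperHalfPlane ModularForm Complex CongruenceSubgroup ModularGroup AlgebraicCurve
open scoped MatrixGroups Manifold Real

namespace Fermat.Agent.S29

open Fermat.Agent.S24 Fermat.Agent.S42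

/-- A function realising a nonzero Laurent series is nonzero. -/
theorem refCppcb_ne_zero (x : LaurentSeries ℂ) (φ : ℍ → ℂ) (hx : x ≠ 0) (h : dict_AnC x φ) :
    φ ≠ 0 := by
  intro h0
  have h3 := dc_Transfer.2.2.1 (0 : ℂ)
  apply hx
  rw [← h.2, h0]
  have e : (0 : ℍ → ℂ) = fun _ : ℍ => (0 : ℂ) := rfl
  rw [e, h3.2, map_zero]

theorem refCppcb_main : dictE_LocStatement → dictE_PointPlaceCStatement := by
  intro hLoc N _ z
  obtain ⟨P, m, hm, hPj, hstar⟩ := dcPointPlace_main N z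
  refine ⟨P, m, hm, hPj, hstar, ?_⟩
  have hclaim : ∀ γ : SL(2, ℤ), γ ∈ Gamma0 N → γ • z = z → dictE_zeta γ z ^ m = 1 := by
    intro γ hγ hγz
    obtain ⟨w, hw⟩ := IsDiscreteValuationRing.exists_irreducible P.toValuationSubring
    have hu1 : P.ord (w : ↥(FNC N)) = 1 := P.ord_coe_irreducible hw
    have hu0 : (w : ↥(FNC N)) ≠ 0 := by
      intro h0
      rw [h0, Place.ord_zero] at hu1
      exact zero_ne_one hu1
    obtain ⟨x₁, x₂, φ₁, φ₂, hx₂, hux, hA₁, hA₂, hM₁, hM₂⟩ := dcRep_main N (w : ↥(FNC N))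
    have hx₁ : x₁ ≠ 0 := by
      rw [← hux]
      exact mul_ne_zero hu0 hx₂
    have ho₁ := hstar x₁ φ₁ hx₁ hA₁ hM₁
    have ho₂ := hstar x₂ φ₂ hx₂ hA₂ hM₂
    have hord : P.ord x₁ = 1 + P.ord x₂ := by
      rw [← hux, P.ord_mul hu0 hx₂, hu1]
    have hnat : ordAt z φ₁ = ordAt z φ₂ + m := by
      have hz : (ordAt z φ₁ : ℤ) = (ordAt z φ₂ : ℤ) + (m : ℤ) := by
        rw [ho₁, ho₂, hord]
        ring
      exact_mod_cast hz
    have hφ₁ : φ₁ ≠ 0 :=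
      refCppcb_ne_zero _ φ₁ (fun h => hx₁ (ZeroMemClass.coe_eq_zero.mp h)) hA₁
    have hφ₂ : φ₂ ≠ 0 :=
      refCppcb_ne_zero _ φ₂ (fun h => hx₂ (ZeroMemClass.coe_eq_zero.mp h)) hA₂
    have hH₁ : Hol φ₁ := (dc_Transfer.1 N φ₁ hM₁).1
    have hH₂ : Hol φ₂ := (dc_Transfer.1 N φ₂ hM₂).1
    have e₁ := hLoc φ₁ 1 γ z hH₁ hφ₁ hγz (fun τ => by rw [one_mul]; exact hM₁.1 γ hγ τ)
    have e₂ := hLoc φ₂ 1 γ z hH₂ hφ₂ hγz (fun τ => by rw [one_mul]; exact hM₂.1 γ hγ τ)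
    rw [hnat, pow_add, ← e₂, one_mul] at e₁
    exact e₁.symm
  intro s χ₀ γ hs hs0 hγ hγz hsγ hdiv
  have hχ := hLoc s χ₀ γ z hs hs0 hγz hsγ
  obtain ⟨t, ht⟩ := hdiv
  rw [hχ, ht, pow_mul, hclaim γ hγ hγz, one_pow]

end Fermat.Agent.S29
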