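/-
S29 — block REF-C (refined dictionary over `ℂ`; sub-lead helper180): BLOCK MAIN.

* (DC4') `refC_pointPlace : dictE_LocStatement → dictE_PointPlaceCStatement`
* (DC5f) `refC_placePointForm : dictE_PlacePointCFormStatement`
* (DC5') `refC_placePoint : dictE_PointPlaceStatement → dictE_PtStatement →
    dictE_PlacePointCStatement`
The only hypotheses are Props of the S29 interface (`KumInterfaces.lean`): the leaf LOC, and
DQP / PT of block REF-Q.
-/
import Fermat.Agent.S29.KumInterfaces
import Fermat.Agent.S29.RefCPLFD
import Fermat.Agent.S29.RefCPPCB
import Fermat.Agent.S29.RefCPLCC

set_option autoImplicit false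

namespace Fermat.Agent.S29

open Fermat.Agent.S24 Fermat.Agent.S42

/-- (DC4') Every point of `ℍ` gives a finite place of `FNC N`, with the easy clause. -/
theorem refC_pointPlace : dictE_LocStatement → dictE_PointPlaceCStatement := refCppcb_main

/-- (DC5f) Finite places of `FNC N` come from points; the point is in the orbit of `i` or `ρ`
unless the multiplicity is `1`. -/
theorem refC_placePointForm : dictE_PlacePointCFormStatement := refCplfd_main

/-- (DC5') Finite places of `FNC N` come from points, with the refined multiplicity. -/
theorem refC_placePoint :
    dictE_PointPlaceStatement → dictE_PtStatement → dictE_PlacePointCStatement :=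
  refCplcc_main refC_placePointForm

end Fermat.Agent.S29
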