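/-
S29 / block KUM′ (E-twist of the Kummer chain) — conditional assembly.

`h22E_N3`, `h22E_N4` are hypothesis-free; `h22E_N1_of`, `h22E_N2_of` are stated
relative to the REF-Q outputs only (all other leaves are discharged here).
-/
import Fermat.Agent.S29.KumEMain
import Fermat.Agent.S29.DescEMain
import Fermat.Agent.S29.RefCMain
import Fermat.Agent.S29.LeafMain

namespace Fermat.Agent.S29

/-- (N3′) same-character statement for the twisted curve `E`. -/
theorem h22E_N3 : SameCharEStatement := kumE_N3

/-- (N4′) trivial-character statement for the twisted curve `E`. -/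
theorem h22E_N4 : TrivCharEStatement := kumE_N4

/-- (N1′) existence of the root, relative to the two REF-Q outputs (DQP, PT). -/
theorem h22E_N1_of (hDQP : dictE_PointPlaceStatement) (hPT : dictE_PtStatement) :
    ExistRootEStatement :=
  kumE_N1 (descE_main (refC_placePoint hDQP hPT) (refC_pointPlace leaf_loc)
    leaf_fixFin leaf_ellFix)

/-- (N2′) divisibility by `p`, relative to the REF-Q output (DQ3′). -/
theorem h22E_N2_of (hDQ3 : dictE_PlacePointStatement) : DivByPEStatement :=
  kumE_N2 hDQ3 leaf_fixFin

end Fermat.Agent.S29
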