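/-
S29 — block REF-Q, assembly lemma (helper179): DQ3' from DQ3f and PT.
-/
import Fermat.Agent.S29.KumInterfaces

set_option autoImplicit false

open UpperHalfPlane ModularForm Complex CongruenceSubgroup ModularGroup AlgebraicCurve
open scoped MatrixGroups Manifold Real

namespace Fermat.Agent.S29

open Fermat.Agent.S24 Fermat.Agent.S42

/-- (DQ3') from (DQ3f) and (PT): at a point of multiplicity `1` the divisibility clause is
trivial; otherwise the point lies in the orbit of `i` or `ρ` and (PT) applies. -/
theorem refqAsmK_placePoint (hPF : dictE_PlacePointFormStatement) (hPT : dictE_PtStatement) :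
    dictE_PlacePointStatement := by
  intro N _ P hP
  obtain ⟨z, m, hm, H, hshape⟩ := hPF N P hP
  refine ⟨z, m, hm, H, ?_⟩
  rcases hshape with h1 | ⟨γ, hz | hz⟩
  · subst h1
    intro s _ _
    exact one_dvd _
  · subst hz
    exact hPT N ellI (Or.inl rfl) γ P m hm H
  · subst hz
    exact hPT N ellRho (Or.inr rfl) γ P m hm H

end Fermat.Agent.S29
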