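/-
S29 — block REF-Q (refined dictionary over ℚ̄; sub-lead helper181): INNER INTERFACE FILE.
Shared definitions and the statement-`Prop`s of the work packages of block REF-Q.
Targets (S29 `KumInterfaces.lean`): `dictE_PtStatement`, `dictE_PointPlaceStatement`,
`dictE_PlacePointFormStatement`, `dictE_PlacePointStatement`.
-/
import Fermat.Agent.S29.KumInterfaces
import Fermat.Agent.S42.DQMain

set_option autoImplicit false

open UpperHalfPlane ModularForm Complex CongruenceSubgroup ModularGroup AlgebraicCurve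
open IntermediateField
open scoped MatrixGroups Manifold Real

namespace Fermat.Agent.S29

open Fermat.Agent.S24 Fermat.Agent.S42

noncomputable section

/-! ## Shared definitions -/

/-- The two standard elliptic data `(z₀, S₀, e', c)`: `(i, S, 2, 1728)` and `(ρ, S * T, 3, 0)`
(`S₀` fixes `z₀`, `j(z₀) = c`, `j - c` vanishes to order `e'` at `z₀`, `S₀ ^ e' = ±1`). -/
def refq_IsEll (z₀ : ℍ) (S₀ : SL(2, ℤ)) (e' : ℕ) (c : Kbar) : Prop :=
  (z₀ = ellI ∧ S₀ = S ∧ e' = 2 ∧ c = 1728) ∨ (z₀ = ellRho ∧ S₀ = S * T ∧ e' = 3 ∧ c = 0)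

/-- The isomorphism `θ : FNbar N ≃ F'` of the bridge (`dqBridge_main`), fixed once and for all. -/
def refq_theta (N : ℕ) [NeZero N] : ↥(FNbar N) ≃ₐ[Kbar] ↥(ModelAlg.Fp (dq_PM N)) :=
  Classical.choose (dqBridge_main N)

theorem refq_theta_j (N : ℕ) [NeZero N] :
    refq_theta N (jBar N) = ⟨ModelAlg.JM (dq_PM N), ModelAlg.JM_mem_Fp (dq_PM N)⟩ :=
  (Classical.choose_spec (dqBridge_main N)).1

/-- The bridge property of `refq_theta`: if `f ≠ 0` is realised by `φ`, then `θ f = x₁ / x₂` in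
`M = Frac (RA N)` with `φ * x₂ = x₁` as functions on `ℍ`. -/
theorem refq_theta_bridge (N : ℕ) [NeZero N] (f : ↥(FNbar N)) (φ : ℍ → ℂ) (hf : f ≠ 0)
    (hAn : dict_An (f : LaurentSeries Kbar) φ) :
    ∃ x₁ x₂ : (dq_PM N).R, x₁ ≠ 0 ∧ x₂ ≠ 0 ∧
      ((refq_theta N f : ↥(ModelAlg.Fp (dq_PM N))) : ModelAlg.MM (dq_PM N)) *
          algebraMap (dq_PM N).R (ModelAlg.MM (dq_PM N)) x₂ =
        algebraMap (dq_PM N).R (ModelAlg.MM (dq_PM N)) x₁ ∧
      ∀ z : ℍ, φ z * dq_fun N x₂ z = dq_fun N x₁ z :=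
  (Classical.choose_spec (dqBridge_main N)).2 f φ hf hAn

/-! ## Package statements -/

/-- (NS) NORMSTAB, a general Galois lemma: in a Galois situation `K(t) ⊆ F' ⊆ M` (group `Γ` acting
through a finite quotient with fixed field `K(t)`), if the place `W` of `M` (a zero of `t - c`)
is ramified over the place `w` of `F'` (`ord_W = e * ord_w` on `F'` with `e ≥ 2`), then some
element of the fixer of `F'` acting nontrivially on `M` fixes `W`. -/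
def refq_NormStabStatement : Prop :=
  ∀ (K M Γ : Type) [Field K] [Field M] [Algebra K M] [IsAlgClosed K] [CharZero K] [Group Γ]
    (act : Γ →* (M ≃ₐ[K] M)) (t : M),
    Finite act.range → Transcendental K t →
    (∀ x : M, (∀ γ : Γ, act γ x = x) ↔ x ∈ K⟮t⟯) →
    ∀ (F' : IntermediateField K M), t ∈ F' → ∀ (c : K) (W : Place K M) (w : Place K ↥F') (e : ℕ),
      0 < W.ord (t - algebraMap K M c) → 2 ≤ e →
      (∀ x : ↥F', x ≠ 0 → W.ord (x : M) = (e : ℤ) * w.ord x) →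
      ∃ h : Γ, h ∈ fixer act F' ∧ act h ≠ 1 ∧ act h • W = W

/-- (ELL) The place of the model `M = Frac (RA N)` attached to a standard elliptic point `z₀`:
`ord_{z₀} = e₀ * ord_{W₀}` on the ring `RA N`, `W₀` is a zero of `J - c`, it is fixed by `S₀`,
and the image of its stabiliser in `Aut(M)` has order `e' / e₀`. -/
def refq_EllPlaceStatement : Prop :=
  ∀ (N : ℕ) [NeZero N] (z₀ : ℍ) (S₀ : SL(2, ℤ)) (e' : ℕ) (c : Kbar), refq_IsEll z₀ S₀ e' c →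
    ∃ (W₀ : Place Kbar (ModelAlg.MM (dq_PM N))) (e₀ : ℕ), 0 < e₀ ∧
      (∀ x : (dq_PM N).R, x ≠ 0 → (ordAt z₀ (dq_fun N x) : ℤ) =
        (e₀ : ℤ) * W₀.ord (algebraMap (dq_PM N).R (ModelAlg.MM (dq_PM N)) x)) ∧
      0 < W₀.ord (ModelAlg.JM (dq_PM N) - algebraMap Kbar (ModelAlg.MM (dq_PM N)) c) ∧
      ModelAlg.act (dq_PM N) S₀ • W₀ = W₀ ∧
      Nat.card ↥((placeStab (ModelAlg.act (dq_PM N)) W₀).map (ModelAlg.act (dq_PM N))) * e₀ = e'

/-- (REL) If `ord_{z₀} = e₀ * ord_{W₀}` on the ring `RA N` and the point `γ • z₀` gives the place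
`P₀` of `FNbar N` with multiplicity `m₀`, then on `F'`: `e₀ * ord_{γ W₀} = m₀ * ord_{θ P₀}`. -/
def refq_RelStatement : Prop :=
  ∀ (N : ℕ) [NeZero N] (z₀ : ℍ) (W₀ : Place Kbar (ModelAlg.MM (dq_PM N))) (e₀ : ℕ),
    (∀ x : (dq_PM N).R, x ≠ 0 → (ordAt z₀ (dq_fun N x) : ℤ) =
      (e₀ : ℤ) * W₀.ord (algebraMap (dq_PM N).R (ModelAlg.MM (dq_PM N)) x)) →
    ∀ (γ : SL(2, ℤ)) (P₀ : Place Kbar ↥(FNbar N)) (m₀ : ℕ),
    (∀ (f : ↥(FNbar N)) (φ : ℍ → ℂ), f ≠ 0 → dict_An (f : LaurentSeries Kbar) φ →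
      dict_ModFun N φ → (ordAt (γ • z₀) φ : ℤ) = (m₀ : ℤ) * P₀.ord f) →
    ∀ x : ↥(ModelAlg.Fp (dq_PM N)), x ≠ 0 →
      (e₀ : ℤ) * (ModelAlg.act (dq_PM N) γ • W₀).ord (x : ModelAlg.MM (dq_PM N)) =
        (m₀ : ℤ) * (ModelCounts.placeMap (refq_theta N) P₀).ord x

/-- (CLAIM) If the point `γ • z₀` (`z₀` standard elliptic, `e' = 2` or `3`) gives a place of
`FNbar N` with multiplicity exactly `e'`, then a conjugate `γ S₀^k γ⁻¹` with `e' ∤ k` lies in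
`Γ₀(N)` (the stabiliser of `γ • z₀` in `Γ₀(N)` is nontrivial modulo `±1`). -/
def refq_ClaimStatement : Prop :=
  ∀ (N : ℕ) [NeZero N] (z₀ : ℍ) (S₀ : SL(2, ℤ)) (e' : ℕ) (c : Kbar), refq_IsEll z₀ S₀ e' c →
    ∀ (γ : SL(2, ℤ)) (P₀ : Place Kbar ↥(FNbar N)),
    (∀ (f : ↥(FNbar N)) (φ : ℍ → ℂ), f ≠ 0 → dict_An (f : LaurentSeries Kbar) φ →
      dict_ModFun N φ → (ordAt (γ • z₀) φ : ℤ) = (e' : ℤ) * P₀.ord f) →
    ∃ k : ℤ, ¬ ((e' : ℤ) ∣ k) ∧ γ * S₀ ^ k * γ⁻¹ ∈ Gamma0 N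

end

end Fermat.Agent.S29
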