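/-
S29 — block REF-Q, package CLA (twin M): the CLAIM (nontrivial stabiliser at an elliptic point).
Main theorem:
`refqclam_main : refq_EllPlaceStatement → refq_RelStatement → refq_NormStabStatement →
  refq_ClaimStatement`.
-/
import Fermat.Agent.S29.RefQInterfaces

set_option autoImplicit false

open UpperHalfPlane ModularForm Complex CongruenceSubgroup ModularGroup AlgebraicCurve IntermediateField
open scoped MatrixGroups Manifold Real

namespace Fermat.Agent.S29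

open Fermat.Agent.S24 Fermat.Agent.S42

noncomputable section

/-- In a group of prime order `p`, any element is a power `a ^ k` of a given nontrivial element `a`,
and for a nontrivial target the exponent is prime to `p`. -/
theorem refqclam_cyclic {G : Type*} [Group G] {p : ℕ} (hp : p.Prime) (hcard : Nat.card G = p)
    {a b : G} (ha : a ≠ 1) (hb : b ≠ 1) : ∃ k : ℤ, ¬ (p : ℤ) ∣ k ∧ a ^ k = b := by
  have : Fact p.Prime := ⟨hp⟩
  have h1 : b ∈ Subgroup.zpowers a := mem_zpowers_of_prime_card hcard ha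
  obtain ⟨k, hk⟩ := Subgroup.mem_zpowers_iff.mp h1
  refine ⟨k, ?_, hk⟩
  rintro ⟨m, rfl⟩
  apply hb
  rw [← hk, zpow_mul, zpow_natCast, ← hcard, pow_card_eq_one', one_zpow]

/-- (FIX) Elements of `SL(2, ℤ)` acting trivially on the model field lie in `Γ₀(N)`. -/
theorem refqclam_fix (N : ℕ) [NeZero N] (g : SL(2, ℤ))
    (hg : ModelAlg.act (dq_PM N) g = 1) : g ∈ Gamma0 N := by
  rw [← ModelAlg.fixer_eq (dq_PM N), mem_fixer]
  intro x _
  rw [hg]
  rfl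

/-- The group-theoretic core of the claim (case `act S₀ ≠ 1`). -/
theorem refqclam_core (N : ℕ) [NeZero N] (e' : ℕ) (he' : e'.Prime) (γ S₀ h : SL(2, ℤ))
    (W₀ : Place Kbar (ModelAlg.MM (dq_PM N)))
    (hS₀ : ModelAlg.act (dq_PM N) S₀ • W₀ = W₀)
    (hS₀1 : ModelAlg.act (dq_PM N) S₀ ≠ 1)
    (hcard : Nat.card ((placeStab (ModelAlg.act (dq_PM N)) W₀).map (ModelAlg.act (dq_PM N))) = e')
    (hh : h ∈ fixer (ModelAlg.act (dq_PM N)) (ModelAlg.Fp (dq_PM N)))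
    (hh1 : ModelAlg.act (dq_PM N) h ≠ 1)
    (hhW : ModelAlg.act (dq_PM N) h • (ModelAlg.act (dq_PM N) γ • W₀)
      = ModelAlg.act (dq_PM N) γ • W₀) :
    ∃ k : ℤ, ¬ (e' : ℤ) ∣ k ∧ γ * S₀ ^ k * γ⁻¹ ∈ Gamma0 N := by
  set act := ModelAlg.act (dq_PM N) with hact
  -- `g₁ = γ⁻¹ h γ` stabilises `W₀`
  have hg₁W : act (γ⁻¹ * h * γ) • W₀ = W₀ := by
    rw [map_mul, map_mul, map_inv, mul_smul, mul_smul, hhW, inv_smul_smul]
  have hg₁1 : act (γ⁻¹ * h * γ) ≠ 1 := by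
    intro h1
    apply hh1
    rw [map_mul, map_mul, map_inv] at h1
    have h2 : act h = act γ * ((act γ)⁻¹ * act h * act γ) * (act γ)⁻¹ := by group
    rw [h2, h1, mul_one, mul_inv_cancel]
  have hmemS : act S₀ ∈ (placeStab act W₀).map act :=
    Subgroup.mem_map_of_mem act ((mem_placeStab act W₀ S₀).mpr hS₀)
  have hmemg : act (γ⁻¹ * h * γ) ∈ (placeStab act W₀).map act :=
    Subgroup.mem_map_of_mem act ((mem_placeStab act W₀ _).mpr hg₁W)
  have ha : (⟨act S₀, hmemS⟩ : ↥((placeStab act W₀).map act)) ≠ 1 := by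
    intro h1
    exact hS₀1 (congrArg Subtype.val h1)
  have hb : (⟨act (γ⁻¹ * h * γ), hmemg⟩ : ↥((placeStab act W₀).map act)) ≠ 1 := by
    intro h1
    exact hg₁1 (congrArg Subtype.val h1)
  obtain ⟨k, hk, hpow⟩ := refqclam_cyclic he' hcard ha hb
  have hpow' : act S₀ ^ k = act (γ⁻¹ * h * γ) := by
    have h1 := congrArg Subtype.val hpow
    simpa using h1
  refine ⟨k, hk, ?_⟩
  have hm : act (h⁻¹ * (γ * S₀ ^ k * γ⁻¹)) = 1 := by
    rw [map_mul, map_mul, map_mul, map_inv, map_inv, map_zpow, hpow', map_mul, map_mul, map_inv]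
    group
  have hm' : h⁻¹ * (γ * S₀ ^ k * γ⁻¹) ∈ Gamma0 N := refqclam_fix N _ hm
  have hh' : h ∈ Gamma0 N := by
    rw [← ModelAlg.fixer_eq (dq_PM N)]
    exact hh
  have h3 : γ * S₀ ^ k * γ⁻¹ = h * (h⁻¹ * (γ * S₀ ^ k * γ⁻¹)) := by group
  rw [h3]
  exact Subgroup.mul_mem _ hh' hm'

/-- The conjugate places have the same order at `J - c`. -/
theorem refqclam_ord_J (N : ℕ) [NeZero N] (c : Kbar) (γ : SL(2, ℤ))
    (W₀ : Place Kbar (ModelAlg.MM (dq_PM N))) :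
    (ModelAlg.act (dq_PM N) γ • W₀).ord
        (ModelAlg.JM (dq_PM N) - algebraMap Kbar (ModelAlg.MM (dq_PM N)) c)
      = W₀.ord (ModelAlg.JM (dq_PM N) - algebraMap Kbar (ModelAlg.MM (dq_PM N)) c) := by
  rw [GalB.ord_smul_apply, ← map_inv]
  have hx : ModelAlg.JM (dq_PM N) - algebraMap Kbar (ModelAlg.MM (dq_PM N)) c
      ∈ Kbar⟮ModelAlg.JM (dq_PM N)⟯ :=
    sub_mem (IntermediateField.mem_adjoin_simple_self Kbar _) (IntermediateField.algebraMap_mem _ c)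
  rw [ModelAlg.act_fixed_of_mem (dq_PM N) hx γ⁻¹]

/-- Case A of the claim: `act S₀ = 1`. -/
theorem refqclam_caseA (N : ℕ) [NeZero N] (γ S₀ : SL(2, ℤ))
    (h : ModelAlg.act (dq_PM N) S₀ = 1) : γ * S₀ ^ (1 : ℤ) * γ⁻¹ ∈ Gamma0 N := by
  apply refqclam_fix
  rw [map_mul, map_mul, map_zpow, h, map_inv, one_zpow, mul_one, mul_inv_cancel]

/-- If `D` contains a nontrivial element and `Nat.card D * e₀ = e'` with `e'` prime, then
`Nat.card D = e'` and `e₀ = 1`. -/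
theorem refqclam_card {G : Type*} [Group G] (D : Subgroup G) {e₀ e' : ℕ} (he' : e'.Prime)
    (hc : Nat.card D * e₀ = e') {a : G} (ha : a ∈ D) (ha1 : a ≠ 1) :
    Nat.card D = e' ∧ e₀ = 1 := by
  have hne : Nat.card D ≠ 1 := by
    intro h1
    obtain ⟨hsub, -⟩ := Nat.card_eq_one_iff_unique.mp h1
    have h2 : (⟨a, ha⟩ : ↥D) = 1 := Subsingleton.elim _ _
    exact ha1 (congrArg Subtype.val h2)
  have hdvd : Nat.card D ∣ e' := ⟨e₀, hc.symm⟩
  rcases (Nat.dvd_prime he').mp hdvd with h1 | h1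
  · exact absurd h1 hne
  · refine ⟨h1, ?_⟩
    rw [h1] at hc
    have h2 : e' * e₀ = e' * 1 := by rw [hc, mul_one]
    exact Nat.eq_of_mul_eq_mul_left he'.pos h2

/-- The claim, with the outputs of ELL / REL / NORMSTAB as explicit hypotheses. -/
theorem refqclam_full (N : ℕ) [NeZero N] (S₀ : SL(2, ℤ)) (e' : ℕ) (c : Kbar) (he' : e'.Prime)
    (γ : SL(2, ℤ)) (W₀ : Place Kbar (ModelAlg.MM (dq_PM N))) (e₀ : ℕ)
    (ha' : 0 < W₀.ord (ModelAlg.JM (dq_PM N) - algebraMap Kbar (ModelAlg.MM (dq_PM N)) c))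
    (hb : ModelAlg.act (dq_PM N) S₀ • W₀ = W₀)
    (hc : Nat.card ((placeStab (ModelAlg.act (dq_PM N)) W₀).map (ModelAlg.act (dq_PM N))) * e₀
      = e')
    (w : Place Kbar ↥(ModelAlg.Fp (dq_PM N)))
    (hrel : e₀ = 1 → ∀ x : ↥(ModelAlg.Fp (dq_PM N)), x ≠ 0 →
      (ModelAlg.act (dq_PM N) γ • W₀).ord (x : ModelAlg.MM (dq_PM N)) = (e' : ℤ) * w.ord x)
    (hNS : 0 < (ModelAlg.act (dq_PM N) γ • W₀).ord
        (ModelAlg.JM (dq_PM N) - algebraMap Kbar (ModelAlg.MM (dq_PM N)) c) → 2 ≤ e' →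
      (∀ x : ↥(ModelAlg.Fp (dq_PM N)), x ≠ 0 →
        (ModelAlg.act (dq_PM N) γ • W₀).ord (x : ModelAlg.MM (dq_PM N)) = (e' : ℤ) * w.ord x) →
      ∃ h : SL(2, ℤ), h ∈ fixer (ModelAlg.act (dq_PM N)) (ModelAlg.Fp (dq_PM N)) ∧
        ModelAlg.act (dq_PM N) h ≠ 1 ∧
        ModelAlg.act (dq_PM N) h • (ModelAlg.act (dq_PM N) γ • W₀)
          = ModelAlg.act (dq_PM N) γ • W₀) :
    ∃ k : ℤ, ¬ (e' : ℤ) ∣ k ∧ γ * S₀ ^ k * γ⁻¹ ∈ Gamma0 N := by
  by_cases hA : ModelAlg.act (dq_PM N) S₀ = 1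
  · refine ⟨1, ?_, refqclam_caseA N γ S₀ hA⟩
    intro hdvd
    have h1 : (e' : ℤ) ≤ 1 := Int.le_of_dvd one_pos hdvd
    have h2 : 2 ≤ e' := he'.two_le
    omega
  · have hmemS : ModelAlg.act (dq_PM N) S₀
        ∈ (placeStab (ModelAlg.act (dq_PM N)) W₀).map (ModelAlg.act (dq_PM N)) :=
      Subgroup.mem_map_of_mem _ ((mem_placeStab _ W₀ S₀).mpr hb)
    obtain ⟨hcard, he₀⟩ := refqclam_card _ he' hc hmemS hA
    have hrel' := hrel he₀
    have hpos : 0 < (ModelAlg.act (dq_PM N) γ • W₀).ord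
        (ModelAlg.JM (dq_PM N) - algebraMap Kbar (ModelAlg.MM (dq_PM N)) c) := by
      rw [refqclam_ord_J]
      exact ha'
    obtain ⟨h, hh, hh1, hhW⟩ := hNS hpos he'.two_le hrel'
    exact refqclam_core N e' he' γ S₀ h W₀ hb hA hcard hh hh1 hhW

/-- (CLAIM) from ELL, REL and NORMSTAB. -/
theorem refqclam_main :
    refq_EllPlaceStatement → refq_RelStatement → refq_NormStabStatement →
      refq_ClaimStatement := by
  intro hEll hRel hNS N _ z₀ S₀ e' c hIsEll γ P₀ hH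
  have he' : e'.Prime := by
    rcases hIsEll with ⟨-, -, h, -⟩ | ⟨-, -, h, -⟩
    · rw [h]
      exact Nat.prime_two
    · rw [h]
      exact Nat.prime_three
  obtain ⟨W₀, e₀, -, ha, ha', hb, hc⟩ := hEll N z₀ S₀ e' c hIsEll
  refine refqclam_full N S₀ e' c he' γ W₀ e₀ ha' hb hc
    (ModelCounts.placeMap (refq_theta N) P₀) ?_ ?_
  · intro he₀1 x hx
    have h1 := hRel N z₀ W₀ e₀ ha γ P₀ e' hH x hx
    rw [he₀1, Nat.cast_one, one_mul] at h1
    exact h1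
  · intro hpos h2 hrel
    exact hNS Kbar (ModelAlg.MM (dq_PM N)) SL(2, ℤ) (ModelAlg.act (dq_PM N))
      (ModelAlg.JM (dq_PM N)) (ModelAlg.act_finite_range (dq_PM N))
      (ModelAlg.JM_transc (dq_PM N)) (ModelAlg.fix_iff (dq_PM N))
      (ModelAlg.Fp (dq_PM N)) (ModelAlg.JM_mem_Fp (dq_PM N)) c _ _ e' hpos h2 hrel

end

end Fermat.Agent.S29

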