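/-
S29 — block REF-Q, package DQP (twin L): the points of the orbits of `i` and `ρ` give finite
places of `FNbar N` (`dictE_PointPlaceStatement`), from the place of the model attached to the
elliptic point (`refq_EllPlaceStatement`), by conjugation, restriction to `F'` and transport
along `θ`.
-/
import Fermat.Agent.S29.RefQInterfaces

set_option autoImplicit false

open UpperHalfPlane ModularForm Complex CongruenceSubgroup ModularGroup AlgebraicCurve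
open IntermediateField
open scoped MatrixGroups Manifold Real

namespace Fermat.Agent.S29

open Fermat.Agent.S24 Fermat.Agent.S42

noncomputable section

/-- Core of the construction: a place `W₀` of the model computing the orders at `z₀` (with
multiplicity `e₀`) and lying over `J = c` gives, for every `γ`, a place of `FNbar N` computing
the orders at `γ • z₀`. -/
theorem refqdqpl_core (N : ℕ) [NeZero N] (z₀ : ℍ) (c : Kbar) (γ : SL(2, ℤ))
    (θ : ↥(FNbar N) ≃ₐ[Kbar] ↥(ModelAlg.Fp (dq_PM N)))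
    (hθ : ∀ (f : ↥(FNbar N)) (φ : ℍ → ℂ), f ≠ 0 → dict_An (f : LaurentSeries Kbar) φ →
      ∃ x₁ x₂ : (dq_PM N).R, x₁ ≠ 0 ∧ x₂ ≠ 0 ∧
        ((θ f : ↥(ModelAlg.Fp (dq_PM N))) : ModelAlg.MM (dq_PM N)) *
            algebraMap (dq_PM N).R (ModelAlg.MM (dq_PM N)) x₂ =
          algebraMap (dq_PM N).R (ModelAlg.MM (dq_PM N)) x₁ ∧
        ∀ z : ℍ, φ z * dq_fun N x₂ z = dq_fun N x₁ z)
    (W₀ : Place Kbar (ModelAlg.MM (dq_PM N))) (e₀ : ℕ) (he₀ : 0 < e₀)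
    (H0 : ∀ x : (dq_PM N).R, x ≠ 0 → (ordAt z₀ (dq_fun N x) : ℤ) =
      (e₀ : ℤ) * W₀.ord (algebraMap (dq_PM N).R (ModelAlg.MM (dq_PM N)) x))
    (hW₀ : 0 < W₀.ord (ModelAlg.JM (dq_PM N) - algebraMap Kbar (ModelAlg.MM (dq_PM N)) c)) :
    ∃ (P₀ : Place Kbar ↥(FNbar N)) (m₀ : ℕ), 0 < m₀ ∧
    ∀ (f : ↥(FNbar N)) (φ : ℍ → ℂ), f ≠ 0 → dict_An (f : LaurentSeries Kbar) φ →
      dict_ModFun N φ → (ordAt (γ • z₀) φ : ℤ) = m₀ * P₀.ord f := by
  -- orders at `γ • z₀` in terms of the conjugate place `act γ • W₀`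
  have H2 : ∀ x : (dq_PM N).R, x ≠ 0 → (ordAt (γ • z₀) (dq_fun N x) : ℤ)
      = e₀ * (ModelAlg.act (dq_PM N) γ • W₀).ord
          (algebraMap (dq_PM N).R (ModelAlg.MM (dq_PM N)) x) := by
    intro x hx
    have hx' : (dq_PM N).ρ γ⁻¹ x ≠ 0 :=
      (map_ne_zero_iff _ ((dq_PM N).ρ γ⁻¹).injective).mpr hx
    have h := H0 _ hx'
    rw [GalB.ord_smul_apply, ← map_inv, ModelAlg.act_algebraMap, ← h]
    have h5 := (dq_hPV.2.2.2.2.1 z₀ γ (dq_fun N x) ((dq_good N).mdiff x)).2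
    have h6 : dq_fun N ((dq_PM N).ρ γ⁻¹ x) = fun τ => dq_fun N x (γ • τ) := by
      funext τ
      rw [dq_PM_rho, inv_inv]
    rw [h6, h5]
  -- the conjugate place is still a zero of `J - c`
  have hWs : 0 < (ModelAlg.act (dq_PM N) γ • W₀).ord
      (ModelAlg.JM (dq_PM N) - algebraMap Kbar (ModelAlg.MM (dq_PM N)) c) := by
    rw [GalB.ord_smul_apply, ← map_inv,
      ModelAlg.act_fixed_of_mem (dq_PM N)
        (sub_mem (mem_adjoin_simple_self Kbar (ModelAlg.JM (dq_PM N)))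
          (IntermediateField.algebraMap_mem _ c)) γ⁻¹]
    exact hW₀
  -- restriction to `F'`
  have hsF : ModelAlg.JM (dq_PM N) - algebraMap Kbar (ModelAlg.MM (dq_PM N)) c
      ∈ ModelAlg.Fp (dq_PM N) :=
    sub_mem (ModelAlg.JM_mem_Fp (dq_PM N)) ((ModelAlg.Fp (dq_PM N)).algebraMap_mem c)
  have hadj := GalB.adjoin_sub_algebraMap (K := Kbar) (ModelAlg.JM (dq_PM N)) c
  have hstr : Transcendental Kbar
      (ModelAlg.JM (dq_PM N) - algebraMap Kbar (ModelAlg.MM (dq_PM N)) c) :=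
    GalB.transcendental_of_adjoin_eq (ModelAlg.JM_transc (dq_PM N)) hadj
  have hfix : ∀ x : ModelAlg.MM (dq_PM N),
      (∀ γ : SL(2, ℤ), ModelAlg.act (dq_PM N) γ x = x) ↔
        x ∈ Kbar⟮ModelAlg.JM (dq_PM N) - algebraMap Kbar (ModelAlg.MM (dq_PM N)) c⟯ := by
    intro x
    rw [hadj]
    exact ModelAlg.fix_iff (dq_PM N) x
  obtain ⟨w, e, he, -, H3⟩ := dqtrb_res Kbar (ModelAlg.MM (dq_PM N)) SL(2, ℤ)
    (ModelAlg.act (dq_PM N)) _
    (ModelAlg.act_finite_range (dq_PM N)) hstr hfix (ModelAlg.Fp (dq_PM N)) hsF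
    (ModelAlg.act (dq_PM N) γ • W₀) hWs
  -- transport to `FNbar N`
  have hP : ∀ f : ↥(FNbar N), (ModelCounts.placeMap θ.symm w).ord f = w.ord (θ f) := by
    intro f
    have h := ModelCounts.placeMap_ord θ.symm w (θ f)
    rwa [AlgEquiv.symm_apply_apply] at h
  refine ⟨ModelCounts.placeMap θ.symm w, e₀ * e, Nat.mul_pos he₀ he, ?_⟩
  intro f φ hf hAn _
  obtain ⟨x₁, x₂, hx₁, hx₂, hθf, hφ⟩ := hθ f φ hf hAn
  have hφhol : MDifferentiable 𝓘(ℂ) 𝓘(ℂ) φ := PreModelBuild.mdiff_of_isCuspMer hAn.1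
  have hφx : φ * dq_fun N x₂ = dq_fun N x₁ := funext hφ
  have hx₁f : dq_fun N x₁ ≠ 0 := fun h => hx₁ (dq_fun_injective N (by rw [h]; rfl))
  have hx₂f : dq_fun N x₂ ≠ 0 := fun h => hx₂ (dq_fun_injective N (by rw [h]; rfl))
  have hφ0 : φ ≠ 0 := by
    rintro rfl
    apply hx₁f
    rw [← hφx, zero_mul]
  have hord := dq_hPV.2.1 (γ • z₀) φ (dq_fun N x₂) hφhol ((dq_good N).mdiff x₂) hφ0 hx₂f
  rw [hφx] at hord
  have h1 := H2 x₁ hx₁
  have h2 := H2 x₂ hx₂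
  have hθf0 : θ f ≠ 0 := (map_ne_zero_iff _ θ.injective).mpr hf
  have hθf0' : ((θ f : ↥(ModelAlg.Fp (dq_PM N))) : ModelAlg.MM (dq_PM N)) ≠ 0 :=
    fun h => hθf0 (Subtype.ext h)
  have hax₂ : algebraMap (dq_PM N).R (ModelAlg.MM (dq_PM N)) x₂ ≠ 0 :=
    (map_ne_zero_iff _ (IsFractionRing.injective (dq_PM N).R (ModelAlg.MM (dq_PM N)))).mpr hx₂
  have h3 := (ModelAlg.act (dq_PM N) γ • W₀).ord_mul hθf0' hax₂
  rw [hθf] at h3
  have h4 := H3 (θ f) hθf0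
  rw [h3, h4, hord] at h1
  rw [hP]
  push_cast at h1 ⊢
  linear_combination h1 - h2

/-- (DQP) The points of the orbits of `i` and `ρ` give finite places of `FNbar N`. -/
theorem refqdqpl_main : refq_EllPlaceStatement → dictE_PointPlaceStatement := by
  intro hEll N _ z₀ hz₀ γ
  rcases hz₀ with rfl | rfl
  · obtain ⟨W₀, e₀, he₀, Ha, Ha', -, -⟩ :=
      hEll N ellI S 2 1728 (Or.inl ⟨rfl, rfl, rfl, rfl⟩)
    exact refqdqpl_core N ellI 1728 γ (refq_theta N) (refq_theta_bridge N) W₀ e₀ he₀ Ha Ha'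
  · obtain ⟨W₀, e₀, he₀, Ha, Ha', -, -⟩ :=
      hEll N ellRho (S * T) 3 0 (Or.inr ⟨rfl, rfl, rfl, rfl⟩)
    exact refqdqpl_core N ellRho 0 γ (refq_theta N) (refq_theta_bridge N) W₀ e₀ he₀ Ha Ha'

end

end Fermat.Agent.S29
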