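/-
S29 — block REF-Q, package ELL (twin M): the place of the model at a standard elliptic point.
-/
import Fermat.Agent.S29.RefQInterfaces

set_option autoImplicit false

open UpperHalfPlane ModularForm Complex CongruenceSubgroup ModularGroup AlgebraicCurve
open IntermediateField
open scoped MatrixGroups Manifold Real

namespace Fermat.Agent.S29

open Fermat.Agent.S24 Fermat.Agent.S42

noncomputable section

/-- The place of the model at a point `z₀` fixed by `S₀` at which `j - c` vanishes to order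
`e' > 0`. -/
theorem refqellm_core (N : ℕ) [NeZero N] (z₀ : ℍ) (S₀ : SL(2, ℤ)) (e' : ℕ) (c : Kbar)
    (hfix : S₀ • z₀ = z₀) (he' : 0 < e')
    (hord : ordAt z₀ (fun z => Jfun z - iotaHom c) = e') :
    ∃ (W₀ : Place Kbar (ModelAlg.MM (dq_PM N))) (e₀ : ℕ), 0 < e₀ ∧
      (∀ x : (dq_PM N).R, x ≠ 0 → (ordAt z₀ (dq_fun N x) : ℤ)
        = e₀ * W₀.ord (algebraMap (dq_PM N).R (ModelAlg.MM (dq_PM N)) x)) ∧
      0 < W₀.ord (ModelAlg.JM (dq_PM N) - algebraMap Kbar (ModelAlg.MM (dq_PM N)) c) ∧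
      ModelAlg.act (dq_PM N) S₀ • W₀ = W₀ ∧
      Nat.card ↥((placeStab (ModelAlg.act (dq_PM N)) W₀).map (ModelAlg.act (dq_PM N))) * e₀
        = e' := by
  have hv : IsAddVal (PreModelBuild.valAt N z₀) :=
    PreModelBuild.isAddVal_valAt dq_hPV (dq_good N) z₀
  have hx₀ : (dq_PM N).J - algebraMap Kbar (dq_PM N).R c ≠ 0 :=
    ModelAlg.J_sub_ne_zero (dq_PM N) c
  have hfun₀ : dq_fun N ((dq_PM N).J - algebraMap Kbar (dq_PM N).R c)
      = fun z => Jfun z - iotaHom c := by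
    funext z
    show dq_fun N (dq_PM N).J z - iotaHom c = Jfun z - iotaHom c
    rw [dq_PM_J]
  have hvx₀ : PreModelBuild.valAt N z₀ ((dq_PM N).J - algebraMap Kbar (dq_PM N).R c) = e' := by
    rw [dq_valAt, hfun₀, hord]
  obtain ⟨W₀, e₀, he₀, H0, Hstab, -⟩ := ModelAlg.exists_place_of_isAddVal (dq_PM N) dq_hV
    (PreModelBuild.valAt N z₀) hv ⟨_, hx₀, by rw [hvx₀]; exact he'.ne'⟩
  have hax₀ : algebraMap (dq_PM N).R (ModelAlg.MM (dq_PM N))
      ((dq_PM N).J - algebraMap Kbar (dq_PM N).R c)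
      = ModelAlg.JM (dq_PM N) - algebraMap Kbar (ModelAlg.MM (dq_PM N)) c :=
    ModelAlg.algebraMap_J_sub (dq_PM N) c
  have he₀' : (0 : ℤ) < e₀ := by exact_mod_cast he₀
  have hkey : (e' : ℤ) = e₀ * W₀.ord
      (ModelAlg.JM (dq_PM N) - algebraMap Kbar (ModelAlg.MM (dq_PM N)) c) := by
    have h := H0 _ hx₀
    rw [hvx₀, hax₀] at h
    exact h
  have hW₀ : 0 < W₀.ord
      (ModelAlg.JM (dq_PM N) - algebraMap Kbar (ModelAlg.MM (dq_PM N)) c) := by
    have hk' : (0 : ℤ) < (e' : ℤ) := by exact_mod_cast he'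
    by_contra hneg
    have hneg' := not_lt.mp hneg
    nlinarith
  have hS : ModelAlg.act (dq_PM N) S₀ • W₀ = W₀ :=
    Hstab S₀ (fun x _ => PreModelBuild.valAt_rho dq_hPV (dq_good N) z₀ S₀ hfix x)
  have hG := dq_hGal Kbar (ModelAlg.MM (dq_PM N)) SL(2, ℤ) (ModelAlg.act (dq_PM N))
    (ModelAlg.JM (dq_PM N)) (ModelAlg.act_finite_range (dq_PM N)) (ModelAlg.JM_transc (dq_PM N))
    (ModelAlg.fix_iff (dq_PM N)) (ModelAlg.Fp (dq_PM N)) (ModelAlg.JM_mem_Fp (dq_PM N))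
  have hcard := (hG.2.1 c W₀ hW₀).1
  refine ⟨W₀, e₀, he₀, fun x hx => ?_, hW₀, hS, ?_⟩
  · have h := H0 x hx
    rw [dq_valAt] at h
    exact h
  · have h : ((Nat.card ↥((placeStab (ModelAlg.act (dq_PM N)) W₀).map
        (ModelAlg.act (dq_PM N))) : ℤ)) * e₀ = e' := by
      rw [hcard, hkey]
      ring
    exact_mod_cast h

/-- The data at `i`. -/
theorem refqellm_I : S • ellI = ellI ∧
    ordAt ellI (fun z => Jfun z - iotaHom (1728 : Kbar)) = 2 := by
  refine ⟨dq_hPV.2.2.2.2.2.1.1, ?_⟩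
  have h : (fun z => Jfun z - iotaHom (1728 : Kbar)) = fun z => Jfun z - 1728 := by
    funext z
    rw [map_ofNat iotaHom 1728]
  rw [h]
  exact dq_hJO.2.1

/-- The data at `ρ`. -/
theorem refqellm_Rho : (S * T) • ellRho = ellRho ∧
    ordAt ellRho (fun z => Jfun z - iotaHom (0 : Kbar)) = 3 := by
  refine ⟨dq_hPV.2.2.2.2.2.1.2, ?_⟩
  have h : (fun z => Jfun z - iotaHom (0 : Kbar)) = Jfun := by
    funext z
    rw [map_zero, sub_zero]
  rw [h]
  exact dq_hJO.2.2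

/-- (ELL) The place of the model attached to a standard elliptic point. -/
theorem refqellm_main : refq_EllPlaceStatement := by
  intro N _ z₀ S₀ e' c hEll
  rcases hEll with ⟨rfl, rfl, rfl, rfl⟩ | ⟨rfl, rfl, rfl, rfl⟩
  · exact refqellm_core N ellI S 2 1728 refqellm_I.1 (by norm_num)
      (by exact_mod_cast refqellm_I.2)
  · exact refqellm_core N ellRho (S * T) 3 0 refqellm_Rho.1 (by norm_num)
      (by exact_mod_cast refqellm_Rho.2)

end

end Fermat.Agent.S29
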