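/-
S29 — block REF-Q, package NS (NORMSTAB), twin M: a general Galois lemma.
If a place `W` of `M` is ramified (`e ≥ 2`) over the place `w` of the intermediate field `F'`,
then some element of the fixer of `F'` acts nontrivially on `M` and stabilises `W`.
-/
import Fermat.Agent.S29.RefQInterfaces
import Fermat.Agent.S24.GalB
import Fermat.Agent.S24.GalBPlaces
import Fermat.Agent.S24.GalAuxOrd

set_option autoImplicit false

open UpperHalfPlane ModularForm Complex CongruenceSubgroup ModularGroup AlgebraicCurve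
  IntermediateField
open scoped MatrixGroups Manifold Real

namespace Fermat.Agent.S29

open Fermat.Agent.S24 Fermat.Agent.S42

noncomputable section

/-- (AV1) Weak approximation: an element of order exactly `1` at `W` and order `0` at the
finitely many places of `T` (`W ∉ T`). -/
theorem refqnsm_av1 {K M : Type} [Field K] [Field M] [Algebra K M] (W : Place K M)
    (T : Finset (Place K M)) (hW : W ∉ T) :
    ∃ x : M, W.ord x = 1 ∧ ∀ W' ∈ T, W'.ord x = 0 := by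
  classical
  obtain ⟨pi0, hπ⟩ := IsDiscreteValuationRing.exists_irreducible W.toValuationSubring
  have hπ1 : W.ord (pi0 : M) = 1 := W.ord_coe_irreducible hπ
  obtain ⟨x₁, hx₁W, hx₁T⟩ := Gal.exists_ord_pos_forall_ord_eq_zero W T hW
  obtain ⟨x₂, hx₂W, hx₂T⟩ := Gal.exists_ord_pos_forall_ord_neg W T hW
  obtain ⟨k, hkpos, hk⟩ : ∃ k : ℕ, (0 : ℤ) < k ∧
      ∀ W' ∈ T, ((W'.ord (pi0 : M)).natAbs : ℤ) < k := by
    refine ⟨1 + ∑ v ∈ T, (v.ord (pi0 : M)).natAbs,
      Int.natCast_pos.mpr (Nat.lt_of_lt_of_le Nat.one_pos (Nat.le_add_right _ _)),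
      fun v hv => ?_⟩
    have h1 := Finset.single_le_sum (f := fun v : Place K M => (v.ord (pi0 : M)).natAbs)
      (fun i _ => Nat.zero_le _) hv
    have h2 : (v.ord (pi0 : M)).natAbs < 1 + ∑ v ∈ T, (v.ord (pi0 : M)).natAbs := by
      omega
    exact_mod_cast h2
  have hπ0 : (pi0 : M) ≠ 0 := Gal.ne_zero_of_ord_ne_zero W (by rw [hπ1]; exact one_ne_zero)
  have hx₁0 : x₁ ≠ 0 := Gal.ne_zero_of_ord_ne_zero W hx₁W.ne'
  have hx₂0 : x₂ ≠ 0 := Gal.ne_zero_of_ord_ne_zero W hx₂W.ne'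
  have hu0 : x₂ ^ k ≠ 0 := pow_ne_zero k hx₂0
  have huW : 0 < W.ord (x₂ ^ k) := by
    rw [Gal.ord_pow]
    exact mul_pos hkpos hx₂W
  have h1uW : W.ord (1 + x₂ ^ k) = 0 := by
    rw [Gal.ord_add_eq_of_lt W one_ne_zero (by simpa using huW)]
    simp
  have h1u : (1 : M) + x₂ ^ k ≠ 0 := by
    intro h0
    have h1 : x₂ ^ k = -1 := by linear_combination h0
    rw [h1, Gal.ord_neg] at huW
    simp at huW
  have hv0 : (1 + x₂ ^ k)⁻¹ ≠ 0 := inv_ne_zero h1u
  have hvW : W.ord (1 + x₂ ^ k)⁻¹ = 0 := by rw [Place.ord_inv, h1uW, neg_zero]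
  have hπv0 : (pi0 : M) * (1 + x₂ ^ k)⁻¹ ≠ 0 := mul_ne_zero hπ0 hv0
  have hπvW : W.ord ((pi0 : M) * (1 + x₂ ^ k)⁻¹) = 1 := by
    rw [W.ord_mul hπ0 hv0, hπ1, hvW, add_zero]
  have hx₁sq0 : x₁ ^ 2 ≠ 0 := pow_ne_zero 2 hx₁0
  refine ⟨x₁ ^ 2 + (pi0 : M) * (1 + x₂ ^ k)⁻¹, ?_, ?_⟩
  · have hlt : W.ord ((pi0 : M) * (1 + x₂ ^ k)⁻¹) < W.ord (x₁ ^ 2) := by
      rw [hπvW, Gal.ord_pow]
      push_cast
      omega
    rw [Gal.ord_add_eq_of_lt' W hπv0 hlt, hπvW]
  · intro W' hW'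
    have hx₂W' := hx₂T W' hW'
    have hukW' : W'.ord (x₂ ^ k) ≤ -(k : ℤ) := by
      rw [Gal.ord_pow]
      nlinarith
    have huW' : W'.ord (x₂ ^ k) < 0 := by omega
    have h1uW' : W'.ord (1 + x₂ ^ k) = W'.ord (x₂ ^ k) := by
      rw [Gal.ord_add_eq_of_lt' W' hu0 (by simpa using huW')]
    have hvW' : W'.ord (1 + x₂ ^ k)⁻¹ = - W'.ord (x₂ ^ k) := by
      rw [Place.ord_inv, h1uW']
    have hlt : W'.ord (x₁ ^ 2) < W'.ord ((pi0 : M) * (1 + x₂ ^ k)⁻¹) := by
      rw [Gal.ord_pow, hx₁T W' hW', W'.ord_mul hπ0 hv0, hvW']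
      have := hk W' hW'
      omega
    rw [Gal.ord_add_eq_of_lt W' hx₁sq0 hlt, Gal.ord_pow, hx₁T W' hW', mul_zero]

/-- (NORMSTAB), core form. -/
theorem refqnsm_core {K M Γ : Type} [Field K] [Field M] [Algebra K M] [Group Γ]
    (act : Γ →* (M ≃ₐ[K] M)) (t : M) [Finite act.range]
    (hfix : ∀ x : M, (∀ γ : Γ, act γ x = x) ↔ x ∈ K⟮t⟯)
    (F' : IntermediateField K M) (htF : t ∈ F') (W : Place K M) (w : Place K ↥F') (e : ℕ)
    (he : 2 ≤ e) (hram : ∀ x : ↥F', x ≠ 0 → W.ord (x : M) = e * w.ord x) :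
    ∃ h : Γ, h ∈ fixer act F' ∧ act h ≠ 1 ∧ act h • W = W := by
  classical
  by_contra hcon
  have hcon' : ∀ h : Γ, h ∈ fixer act F' → act h • W = W → act h = 1 := by
    intro h hh hW
    by_contra hne
    exact hcon ⟨h, hh, hne, hW⟩
  have hfinH : Finite ((fixer act F').map act) := GalB.finite_map_fixer act F'
  cases nonempty_fintype ((fixer act F').map act)
  obtain ⟨x, hxW, hxT⟩ := refqnsm_av1 W
    ((Finset.univ.image fun σ : ((fixer act F').map act) => (σ : M ≃ₐ[K] M) • W).erase W)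
    (Finset.notMem_erase W _)
  have hx0 : x ≠ 0 := Gal.ne_zero_of_ord_ne_zero W (by rw [hxW]; exact one_ne_zero)
  have hσx0 : ∀ σ : ((fixer act F').map act), (σ : M ≃ₐ[K] M) x ≠ 0 := by
    intro σ h0
    apply hx0
    have h1 : (σ : M ≃ₐ[K] M) x = (σ : M ≃ₐ[K] M) 0 := by rw [h0, map_zero]
    exact (σ : M ≃ₐ[K] M).injective h1
  have hyinv : ∀ τ ∈ (fixer act F').map act,
      τ (∏ σ : ((fixer act F').map act), (σ : M ≃ₐ[K] M) x)
        = ∏ σ : ((fixer act F').map act), (σ : M ≃ₐ[K] M) x := by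
    intro τ hτ
    rw [map_prod]
    exact Fintype.prod_equiv (Equiv.mulLeft (⟨τ, hτ⟩ : ((fixer act F').map act))) _ _
      (fun σ => rfl)
  have hyF : (∏ σ : ((fixer act F').map act), (σ : M ≃ₐ[K] M) x) ∈ F' :=
    (GalB.fix_fixer act t hfix F' htF _).1 hyinv
  have hy0 : (∏ σ : ((fixer act F').map act), (σ : M ≃ₐ[K] M) x) ≠ 0 :=
    Finset.prod_ne_zero_iff.mpr (fun σ _ => hσx0 σ)
  have hordy : W.ord (∏ σ : ((fixer act F').map act), (σ : M ≃ₐ[K] M) x) = 1 := by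
    rw [Gal.ord_prod W Finset.univ _ (fun σ _ => hσx0 σ)]
    rw [Finset.sum_eq_single (1 : ((fixer act F').map act))]
    · simpa using hxW
    · intro σ _ hσ
      have h1 : W.ord ((σ : M ≃ₐ[K] M) x) = ((σ : M ≃ₐ[K] M)⁻¹ • W).ord x := by
        rw [GalB.ord_smul_apply, inv_inv]
      rw [h1]
      apply hxT
      rw [Finset.mem_erase]
      refine ⟨?_, Finset.mem_image.mpr ⟨σ⁻¹, Finset.mem_univ _, rfl⟩⟩
      intro hW
      obtain ⟨h, hh, hhσ⟩ := (σ⁻¹).2
      have h2 := hcon' h hh (by rw [hhσ]; exact hW)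
      apply hσ
      have h3 : ((σ⁻¹ : ((fixer act F').map act)) : M ≃ₐ[K] M) = 1 := by rw [← hhσ, h2]
      have h4 : (σ⁻¹ : ((fixer act F').map act)) = 1 := Subtype.ext h3
      exact inv_eq_one.mp h4
    · intro h
      exact absurd (Finset.mem_univ _) h
  have h5 := hram ⟨_, hyF⟩ (by intro h0; exact hy0 (congrArg Subtype.val h0))
  rw [hordy] at h5
  have he' : (2 : ℤ) ≤ (e : ℤ) := by exact_mod_cast he
  rcases le_or_gt (w.ord ⟨_, hyF⟩) 0 with h6 | h6
  · nlinarith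
  · nlinarith

/-- (NORMSTAB) with the full list of binders of the block interface (the hypotheses
`IsAlgClosed K`, `CharZero K`, `Transcendental K t`, `0 < W.ord (t - c)` are not needed). -/
theorem refqnsm_full (K M Γ : Type) [Field K] [Field M] [Algebra K M] [IsAlgClosed K] [CharZero K]
    [Group Γ] (act : Γ →* (M ≃ₐ[K] M)) (t : M) (hfin : Finite act.range)
    (_htr : Transcendental K t) (hfix : ∀ x : M, (∀ γ : Γ, act γ x = x) ↔ x ∈ K⟮t⟯)
    (F' : IntermediateField K M) (htF : t ∈ F') (c : K) (W : Place K M) (w : Place K ↥F')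
    (e : ℕ) (_hW : 0 < W.ord (t - algebraMap K M c)) (he : 2 ≤ e)
    (hram : ∀ x : ↥F', x ≠ 0 → W.ord (x : M) = e * w.ord x) :
    ∃ h : Γ, h ∈ fixer act F' ∧ act h ≠ 1 ∧ act h • W = W :=
  refqnsm_core act t hfix F' htF W w e he hram

/-- (NORMSTAB) the statement of the block interface. -/
theorem refqnsm_main : refq_NormStabStatement := by
  intro K M Γ _ _ _ _ _ _ act t hfin htr hfix F' htF c W w e hW he hram
  exact refqnsm_full K M Γ act t hfin htr hfix F' htF c W w e hW he hram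

end

end Fermat.Agent.S29
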