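/-
S29 — block REF-Q, package PTA (twin L): the pointwise refinement (PT) `dictE_PtStatement`
from the CLAIM and the standard elliptic points (STD).
-/
import Fermat.Agent.S29.RefQInterfaces

set_option autoImplicit false

open UpperHalfPlane ModularForm Complex CongruenceSubgroup ModularGroup AlgebraicCurve IntermediateField
open scoped MatrixGroups Manifold Real

namespace Fermat.Agent.S29

open Fermat.Agent.S24 Fermat.Agent.S42

noncomputable section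

/-- The subgroup of `SL(2, ℤ)` leaving the function `t` invariant. -/
def refqptl_invSub (t : ℍ → ℂ) : Subgroup SL(2, ℤ) where
  carrier := {a | ∀ τ : ℍ, t (a • τ) = t τ}
  mul_mem' := by
    intro a b ha hb τ
    rw [mul_smul, ha, hb]
  one_mem' := by
    intro τ
    rw [one_smul]
  inv_mem' := by
    intro a ha τ
    have h := ha (a⁻¹ • τ)
    rw [smul_inv_smul] at h
    exact h.symm

theorem refqptl_mem_invSub (t : ℍ → ℂ) (a : SL(2, ℤ)) :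
    a ∈ refqptl_invSub t ↔ ∀ τ : ℍ, t (a • τ) = t τ := Iff.rfl

/-- (C) the conclusion from the CLAIM. -/
theorem refqptl_core (N : ℕ) (z₀ : ℍ) (S₀ : SL(2, ℤ)) (e' : ℕ) (he' : e'.Prime)
    (hfix : S₀ • z₀ = z₀) (hpow : ∀ τ : ℍ, (S₀ ^ e') • τ = τ)
    (hstd : ∀ t : ℍ → ℂ, Hol t → (∀ τ : ℍ, t (S₀ • τ) = t τ) → e' ∣ ordAt z₀ t)
    (γ : SL(2, ℤ)) (k : ℤ) (hk : ¬ ((e' : ℤ) ∣ k)) (hg : γ * S₀ ^ k * γ⁻¹ ∈ Gamma0 N) :
    dictE_StabDiv N (γ • z₀) e' := by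
  intro s hs hinv
  -- `S₀ ^ k` fixes `z₀`
  have hfixk : (S₀ ^ k) • z₀ = z₀ := by
    have hmem : S₀ ∈ MulAction.stabilizer SL(2, ℤ) z₀ := MulAction.mem_stabilizer_iff.mpr hfix
    exact MulAction.mem_stabilizer_iff.mp (zpow_mem hmem k)
  have hgfix : (γ * S₀ ^ k * γ⁻¹) • (γ • z₀) = γ • z₀ := by
    rw [mul_smul, mul_smul, inv_smul_smul, hfixk]
  have hsg : ∀ τ : ℍ, s ((γ * S₀ ^ k * γ⁻¹) • τ) = s τ := hinv _ hg hgfix
  have hPV := dq_hPV.2.2.2.2.1 z₀ γ s hs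
  have ht : Hol (fun τ : ℍ => s (γ • τ)) := hPV.1
  -- invariance under `S₀ ^ k`
  have hk_mem : S₀ ^ k ∈ refqptl_invSub (fun τ : ℍ => s (γ • τ)) := by
    intro τ
    show s (γ • ((S₀ ^ k) • τ)) = s (γ • τ)
    have h := hsg (γ • τ)
    rw [mul_smul, mul_smul, inv_smul_smul] at h
    exact h
  have he_mem : S₀ ^ ((e' : ℕ) : ℤ) ∈ refqptl_invSub (fun τ : ℍ => s (γ • τ)) := by
    intro τ
    show s (γ • ((S₀ ^ ((e' : ℕ) : ℤ)) • τ)) = s (γ • τ)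
    rw [zpow_natCast, hpow τ]
  have hcop : IsCoprime ((e' : ℕ) : ℤ) k :=
    ((Nat.prime_iff_prime_int.mp he').irreducible.coprime_iff_not_dvd).mpr hk
  obtain ⟨a, b, hab⟩ := hcop
  have hS₀ : S₀ ∈ refqptl_invSub (fun τ : ℍ => s (γ • τ)) := by
    have h1 : S₀ = (S₀ ^ ((e' : ℕ) : ℤ)) ^ a * (S₀ ^ k) ^ b := by
      rw [← zpow_mul', ← zpow_mul', ← zpow_add, hab, zpow_one]
    rw [h1]
    exact mul_mem (zpow_mem he_mem a) (zpow_mem hk_mem b)
  have hdiv := hstd (fun τ : ℍ => s (γ • τ)) ht hS₀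
  rw [hPV.2] at hdiv
  exact hdiv

/-- `j - c` is realised by `Jfun - c`. -/
theorem refqptl_Jc (N : ℕ) [NeZero N] (c : Kbar) :
    dict_An (((jBar N - algebraMap Kbar ↥(FNbar N) c : ↥(FNbar N))) : LaurentSeries Kbar)
      (fun τ : ℍ => Jfun τ - iotaHom c) ∧ dict_ModFun N (fun τ : ℍ => Jfun τ - iotaHom c) := by
  have hneg := dqringb_neg N (HahnSeries.C c) (fun _ : ℍ => iotaHom c) (dqringb_constAn c)
    (dqringb_const N (iotaHom c))
  have h := dqringb_add_mul N ((jBar N : ↥(FNbar N)) : LaurentSeries Kbar) (-(HahnSeries.C c))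
    Jfun (-(fun _ : ℍ => iotaHom c)) (dqcxa_J_an N) (dqcxa_J_mod N) hneg.1 hneg.2
  have e1 : ((jBar N - algebraMap Kbar ↥(FNbar N) c : ↥(FNbar N)) : LaurentSeries Kbar)
      = ((jBar N : ↥(FNbar N)) : LaurentSeries Kbar) + -(HahnSeries.C c) := by
    have e0 : ((algebraMap Kbar ↥(FNbar N) c : ↥(FNbar N)) : LaurentSeries Kbar)
        = HahnSeries.single 0 c := by
      rw [← ModularCurve.algebraMap_laurentSeries_eq_single]; rfl
    have e1' : ((jBar N - algebraMap Kbar ↥(FNbar N) c : ↥(FNbar N)) : LaurentSeries Kbar)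
        = ((jBar N : ↥(FNbar N)) : LaurentSeries Kbar)
          - ((algebraMap Kbar ↥(FNbar N) c : ↥(FNbar N)) : LaurentSeries Kbar) := rfl
    rw [e1', e0, sub_eq_add_neg]
    rfl
  have e2 : (fun τ : ℍ => Jfun τ - iotaHom c) = Jfun + -(fun _ : ℍ => iotaHom c) := by
    funext τ
    simp [sub_eq_add_neg]
  rw [e1, e2]
  exact ⟨h.1, h.2.1⟩

/-- `j - c ≠ 0`. -/
theorem refqptl_Jc_ne (N : ℕ) [NeZero N] (c : Kbar) :
    (jBar N - algebraMap Kbar ↥(FNbar N) c : ↥(FNbar N)) ≠ 0 := by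
  intro h0
  have han := (refqptl_Jc N c).1
  have hq : Qexp 1 (fun τ : ℍ => Jfun τ - iotaHom c) = 0 := by
    rw [han.2, h0]
    simp
  have hz := dq_hQ.2.2.1 1 _ han.1 hq
  have h1 : Jfun ellI - iotaHom c = 0 := congrFun hz ellI
  have h2 : Jfun ellRho - iotaHom c = 0 := congrFun hz ellRho
  rw [dq_hJB.2.2.1] at h1
  rw [dq_hJB.2.2.2] at h2
  have h3 : (1728 : ℂ) = 0 := by linear_combination h1 - h2
  norm_num at h3

/-- (A) the multiplicity divides the order of `j - c` at `z₀`. -/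
theorem refqptl_dvd (N : ℕ) [NeZero N] (z₀ : ℍ) (e' : ℕ) (c : Kbar)
    (hord : ordAt z₀ (fun τ : ℍ => Jfun τ - iotaHom c) = e') (γ : SL(2, ℤ))
    (P₀ : Place Kbar ↥(FNbar N)) (m₀ : ℕ)
    (H : ∀ (f : ↥(FNbar N)) (φ : ℍ → ℂ), f ≠ 0 → dict_An (f : LaurentSeries Kbar) φ →
      dict_ModFun N φ → (ordAt (γ • z₀) φ : ℤ) = m₀ * P₀.ord f) : m₀ ∣ e' := by
  have han := refqptl_Jc N c
  have hH := H _ _ (refqptl_Jc_ne N c) han.1 han.2
  have hhol : MDifferentiable 𝓘(ℂ) 𝓘(ℂ) (fun τ : ℍ => Jfun τ - iotaHom c) := by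
    obtain ⟨k, hk⟩ := han.1.1
    exact hk.1
  have hPV := (dq_hPV.2.2.2.2.1 z₀ γ _ hhol).2
  have hcomp : (fun τ : ℍ => (fun τ : ℍ => Jfun τ - iotaHom c) (γ • τ))
      = (fun τ : ℍ => Jfun τ - iotaHom c) := by
    funext τ
    show Jfun (γ • τ) - iotaHom c = Jfun τ - iotaHom c
    rw [dq_hJB.2.1 γ τ]
  rw [hcomp, hord] at hPV
  rw [← hPV] at hH
  exact Int.natCast_dvd_natCast.mp ⟨_, hH⟩

/-- (PT) from the two instances (`i` and `ρ`) of the CLAIM, stated explicitly. -/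
theorem refqptl_aux
    (hI : ∀ (N : ℕ) [NeZero N] (γ : SL(2, ℤ)) (P₀ : Place Kbar ↥(FNbar N)),
      (∀ (f : ↥(FNbar N)) (φ : ℍ → ℂ), f ≠ 0 → dict_An (f : LaurentSeries Kbar) φ →
        dict_ModFun N φ → (ordAt (γ • ellI) φ : ℤ) = ((2 : ℕ) : ℤ) * P₀.ord f) →
      ∃ k : ℤ, ¬ (((2 : ℕ) : ℤ) ∣ k) ∧ γ * S ^ k * γ⁻¹ ∈ Gamma0 N)
    (hRho : ∀ (N : ℕ) [NeZero N] (γ : SL(2, ℤ)) (P₀ : Place Kbar ↥(FNbar N)),
      (∀ (f : ↥(FNbar N)) (φ : ℍ → ℂ), f ≠ 0 → dict_An (f : LaurentSeries Kbar) φ →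
        dict_ModFun N φ → (ordAt (γ • ellRho) φ : ℤ) = ((3 : ℕ) : ℤ) * P₀.ord f) →
      ∃ k : ℤ, ¬ (((3 : ℕ) : ℤ) ∣ k) ∧ γ * (S * T) ^ k * γ⁻¹ ∈ Gamma0 N) :
    dictE_StdStatement → dictE_PtStatement := by
  intro hStd N _ z₀ hz₀ γ P₀ m₀ hm₀ H
  rcases hz₀ with rfl | rfl
  · -- `z₀ = i`
    have hord : ordAt ellI (fun τ : ℍ => Jfun τ - iotaHom (1728 : Kbar)) = 2 := by
      have h := dq_hJO.2.1
      have e : iotaHom (1728 : Kbar) = 1728 := map_ofNat iotaHom 1728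
      rw [e]
      exact h
    have hdvd := refqptl_dvd N ellI 2 1728 hord γ P₀ m₀ H
    rcases (Nat.dvd_prime Nat.prime_two).mp hdvd with h1 | h2
    · subst h1
      intro s _ _
      exact one_dvd _
    · subst h2
      obtain ⟨k, hk, hg⟩ := hI N γ P₀ H
      exact refqptl_core N ellI S 2 Nat.prime_two hStd.1.1 PreModelBuild.S_sq_smul
        hStd.2.1 γ k hk hg
  · -- `z₀ = ρ`
    have hord : ordAt ellRho (fun τ : ℍ => Jfun τ - iotaHom (0 : Kbar)) = 3 := by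
      have h := dq_hJO.2.2
      have e : (fun τ : ℍ => Jfun τ - iotaHom (0 : Kbar)) = Jfun := by
        funext τ
        rw [map_zero, sub_zero]
      rw [e]
      exact h
    have hdvd := refqptl_dvd N ellRho 3 0 hord γ P₀ m₀ H
    rcases (Nat.dvd_prime Nat.prime_three).mp hdvd with h1 | h2
    · subst h1
      intro s _ _
      exact one_dvd _
    · subst h2
      obtain ⟨k, hk, hg⟩ := hRho N γ P₀ H
      exact refqptl_core N ellRho (S * T) 3 Nat.prime_three hStd.1.2 PreModelBuild.ST_cube_smul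
        hStd.2.2 γ k hk hg

/-- (PT) from the CLAIM. -/
theorem refqptl_main : refq_ClaimStatement → dictE_StdStatement → dictE_PtStatement := by
  intro hClaim
  refine refqptl_aux ?_ ?_
  · intro N _ γ P₀ H
    exact hClaim N ellI S 2 1728 (Or.inl ⟨rfl, rfl, rfl, rfl⟩) γ P₀ H
  · intro N _ γ P₀ H
    exact hClaim N ellRho (S * T) 3 0 (Or.inr ⟨rfl, rfl, rfl, rfl⟩) γ P₀ H

end

end Fermat.Agent.S29
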