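/-
S29 — block REF-Q, package REL (twin L): the relation between the order function of the
conjugate place `act γ • W₀` of the model field `M` and the order function of the place `P₀`
of `FNbar N` (transported to `F'`), on `F'`.
-/
import Fermat.Agent.S29.RefQInterfaces

set_option autoImplicit false

open UpperHalfPlane ModularForm Complex CongruenceSubgroup ModularGroup AlgebraicCurve
open IntermediateField
open scoped MatrixGroups Manifold Real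

namespace Fermat.Agent.S29

open Fermat.Agent.S24 Fermat.Agent.S42

noncomputable section

/-- Core of REL, for any isomorphism `θ` with the bridge property. -/
theorem refqrell_aux (N : ℕ) [NeZero N] (θ : ↥(FNbar N) ≃ₐ[Kbar] ↥(ModelAlg.Fp (dq_PM N)))
    (hθ : ∀ (f : ↥(FNbar N)) (φ : ℍ → ℂ), f ≠ 0 → dict_An (f : LaurentSeries Kbar) φ →
      ∃ x₁ x₂ : (dq_PM N).R, x₁ ≠ 0 ∧ x₂ ≠ 0 ∧
        ((θ f : ↥(ModelAlg.Fp (dq_PM N))) : ModelAlg.MM (dq_PM N)) *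
            algebraMap (dq_PM N).R (ModelAlg.MM (dq_PM N)) x₂ =
          algebraMap (dq_PM N).R (ModelAlg.MM (dq_PM N)) x₁ ∧
        ∀ z : ℍ, φ z * dq_fun N x₂ z = dq_fun N x₁ z)
    (z₀ : ℍ) (W₀ : Place Kbar (ModelAlg.MM (dq_PM N))) (e₀ : ℕ)
    (H0 : ∀ x : (dq_PM N).R, x ≠ 0 → (ordAt z₀ (dq_fun N x) : ℤ) =
      e₀ * W₀.ord (algebraMap (dq_PM N).R (ModelAlg.MM (dq_PM N)) x))
    (γ : SL(2, ℤ)) (P₀ : Place Kbar ↥(FNbar N)) (m₀ : ℕ)
    (H : ∀ (f : ↥(FNbar N)) (φ : ℍ → ℂ), f ≠ 0 → dict_An (f : LaurentSeries Kbar) φ →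
      dict_ModFun N φ → (ordAt (γ • z₀) φ : ℤ) = m₀ * P₀.ord f) :
    ∀ x : ↥(ModelAlg.Fp (dq_PM N)), x ≠ 0 →
      (e₀ : ℤ) * (ModelAlg.act (dq_PM N) γ • W₀).ord (x : ModelAlg.MM (dq_PM N)) =
        m₀ * (ModelCounts.placeMap θ P₀).ord x := by
  -- orders at `γ • z₀` in terms of the place `act γ • W₀`
  have H2 : ∀ x : (dq_PM N).R, x ≠ 0 → (ordAt (γ • z₀) (dq_fun N x) : ℤ)
      = e₀ * (ModelAlg.act (dq_PM N) γ • W₀).ord
          (algebraMap (dq_PM N).R (ModelAlg.MM (dq_PM N)) x) := by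
    intro x hx
    have hx' : (dq_PM N).ρ γ⁻¹ x ≠ 0 :=
      (map_ne_zero_iff _ ((dq_PM N).ρ γ⁻¹).injective).mpr hx
    have h := H0 _ hx'
    rw [GalB.ord_smul_apply, ← map_inv, ModelAlg.act_algebraMap, ← h]
    have h5 := (dq_hPV.2.2.2.2.1 z₀ γ (dq_fun N x) ((dq_good N).mdiff x)).2
    have h6 : dq_fun N ((dq_PM N).ρ γ⁻¹ x) = fun τ => dq_fun N x (γ • τ) := by
      funext τ
      rw [dq_PM_rho, inv_inv]
    rw [h6, h5]
  -- realised elements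
  have H3 : ∀ (f : ↥(FNbar N)) (φ : ℍ → ℂ), f ≠ 0 → dict_An (f : LaurentSeries Kbar) φ →
      dict_ModFun N φ →
      (e₀ : ℤ) * (ModelAlg.act (dq_PM N) γ • W₀).ord
          ((θ f : ↥(ModelAlg.Fp (dq_PM N))) : ModelAlg.MM (dq_PM N)) =
        m₀ * (ModelCounts.placeMap θ P₀).ord (θ f) := by
    intro f φ hf hAn hMF
    obtain ⟨x₁, x₂, hx₁, hx₂, hθf, hφ⟩ := hθ f φ hf hAn
    have hφhol : MDifferentiable 𝓘(ℂ) 𝓘(ℂ) φ := PreModelBuild.mdiff_of_isCuspMer hAn.1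
    have hφx : φ * dq_fun N x₂ = dq_fun N x₁ := funext hφ
    have hx₁f : dq_fun N x₁ ≠ 0 := fun h => hx₁ (dq_fun_injective N (by rw [h]; rfl))
    have hx₂f : dq_fun N x₂ ≠ 0 := fun h => hx₂ (dq_fun_injective N (by rw [h]; rfl))
    have hφ0 : φ ≠ 0 := by
      rintro rfl
      apply hx₁f
      rw [← hφx, zero_mul]
    have hord := dq_hPV.2.1 (γ • z₀) φ (dq_fun N x₂) hφhol ((dq_good N).mdiff x₂) hφ0 hx₂f
    rw [hφx] at hord
    have h1 := H2 x₁ hx₁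
    have h2 := H2 x₂ hx₂
    have hθf0 : θ f ≠ 0 := (map_ne_zero_iff _ θ.injective).mpr hf
    have hθf0' : ((θ f : ↥(ModelAlg.Fp (dq_PM N))) : ModelAlg.MM (dq_PM N)) ≠ 0 :=
      fun h => hθf0 (Subtype.ext h)
    have hax₂ : algebraMap (dq_PM N).R (ModelAlg.MM (dq_PM N)) x₂ ≠ 0 :=
      (map_ne_zero_iff _ (IsFractionRing.injective (dq_PM N).R (ModelAlg.MM (dq_PM N)))).mpr hx₂
    have h3 := (ModelAlg.act (dq_PM N) γ • W₀).ord_mul hθf0' hax₂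
    rw [hθf] at h3
    have h4 := H f φ hf hAn hMF
    rw [ModelCounts.placeMap_ord θ P₀ f]
    rw [h3, hord] at h1
    push_cast at h1
    linear_combination h2 + h4 - h1
  -- arbitrary elements: quotients of realised ones
  intro x hx
  have hf : θ.symm x ≠ 0 := (map_ne_zero_iff _ θ.symm.injective).mpr hx
  obtain ⟨f₁, f₂, φ₁, φ₂, hf₂, hff, hAn₁, hAn₂, hMF₁, hMF₂⟩ := dqRep_main N (θ.symm x)
  have hf₁ : f₁ ≠ 0 := by
    rw [← hff]
    exact mul_ne_zero hf hf₂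
  have h1 := H3 f₁ φ₁ hf₁ hAn₁ hMF₁
  have h2 := H3 f₂ φ₂ hf₂ hAn₂ hMF₂
  have hθ₁ : θ f₁ = x * θ f₂ := by
    rw [← hff, map_mul, AlgEquiv.apply_symm_apply]
  have hθf₂ : θ f₂ ≠ 0 := (map_ne_zero_iff _ θ.injective).mpr hf₂
  have hxM : (x : ModelAlg.MM (dq_PM N)) ≠ 0 := fun h => hx (Subtype.ext h)
  have hθf₂M : ((θ f₂ : ↥(ModelAlg.Fp (dq_PM N))) : ModelAlg.MM (dq_PM N)) ≠ 0 :=
    fun h => hθf₂ (Subtype.ext h)
  have h3 := (ModelAlg.act (dq_PM N) γ • W₀).ord_mul hxM hθf₂M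
  have h4 := (ModelCounts.placeMap θ P₀).ord_mul hx hθf₂
  rw [hθ₁] at h1
  have h5 : ((x * θ f₂ : ↥(ModelAlg.Fp (dq_PM N))) : ModelAlg.MM (dq_PM N)) =
      (x : ModelAlg.MM (dq_PM N)) *
        ((θ f₂ : ↥(ModelAlg.Fp (dq_PM N))) : ModelAlg.MM (dq_PM N)) := rfl
  rw [h5, h3, h4] at h1
  linear_combination h1 - h2

/-- (REL) On `F'`: `e₀ * ord_{γ W₀} = m₀ * ord_{θ P₀}`. -/
theorem refqrell_main : refq_RelStatement := by
  intro N _ z₀ W₀ e₀ H0 γ P₀ m₀ H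
  exact refqrell_aux N (refq_theta N) (refq_theta_bridge N) z₀ W₀ e₀ H0 γ P₀ m₀ H

end

end Fermat.Agent.S29
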