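/-
S29 — block REF-Q: independent assembly (helper179) of the refined dictionary over `ℚ̄` from the
package files of helper179's twins.
-/
import Fermat.Agent.S29.RefQInterfaces
import Fermat.Agent.S29.RefQAsmK
import Fermat.Agent.S29.RefQNSM
import Fermat.Agent.S29.RefQEllM
import Fermat.Agent.S29.RefQRelL
import Fermat.Agent.S29.RefQClaM
import Fermat.Agent.S29.RefQPtL
import Fermat.Agent.S29.RefQPfK
import Fermat.Agent.S29.RefQDqpL

set_option autoImplicit false

namespace Fermat.Agent.S29

open Fermat.Agent.S24 Fermat.Agent.S42

/-- (CLAIM), hypothesis-free. -/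
theorem refQK_claim : refq_ClaimStatement :=
  refqclam_main refqellm_main refqrell_main refqnsm_main

/-- (PT) from (STD). -/
theorem refQK_pt : dictE_StdStatement → dictE_PtStatement :=
  fun hStd => refqptl_main refQK_claim hStd

/-- (DQP), hypothesis-free. -/
theorem refQK_pointPlace : dictE_PointPlaceStatement := refqdqpl_main refqellm_main

/-- (DQ3f), hypothesis-free. -/
theorem refQK_placePointForm : dictE_PlacePointFormStatement := refqpfk_main

/-- (DQ3') from (STD). -/
theorem refQK_placePoint : dictE_StdStatement → dictE_PlacePointStatement :=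
  fun hStd => refqAsmK_placePoint refQK_placePointForm (refQK_pt hStd)

end Fermat.Agent.S29
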