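/-
S29 / block KUM′ (E-twist of the Kummer chain) — FINAL hypothesis-free assembly.

  * `h22E_N1 : ExistRootEStatement`
  * `h22E_N2 : DivByPEStatement`
  * `h22E_N3 : SameCharEStatement`
  * `h22E_N4 : TrivCharEStatement`
-/
import Fermat.Agent.S29.H22ECond
import Fermat.Agent.S29.RefQMainK

namespace Fermat.Agent.S29

/-- (N1′) existence of the root — hypothesis-free. -/
theorem h22E_N1 : ExistRootEStatement :=
  h22E_N1_of refQK_pointPlace (refQK_pt leaf_std)

/-- (N2′) divisibility by `p` — hypothesis-free. -/
theorem h22E_N2 : DivByPEStatement :=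
  h22E_N2_of (refQK_placePoint leaf_std)

end Fermat.Agent.S29
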