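/-
S29 — block LAM'/PER' (helper19): INTERFACE FILE.  Namespace `Fermat.Agent.S29`.

`LamE N p` is the submodule of `↥(Lam N p)` (landed S42: parabolic homomorphisms
`Γ₀(N) → ZMod p`) of the ELLIPTIC-TRIVIAL classes: those killing every element of finite order
of `Γ₀(N)`.  Deliverables of the block (final theorems `lam_p1`, `lam_p2`, `lam_p3` in
`Fermat/Agent/S29/LamFinal.lean`, hypothesis-free, stated with the explicit types below):

* (P1) `LamP1Statement`: `c ∈ LamE N p → ∀ γ, IsOfFinOrder γ → c γ = 0` (the body of helper22's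
  `EllTriv N p ↑c`, definitionally).  Proven here: `lamE_p1`.
* (P2) `LamP2Statement`: `perTcohLam N ℓ p` maps `LamE N p` into itself (`ℓ` prime, `ℓ ∤ N`).
* (P3) `LamP3Statement`: for every prime `p`, normalized eigenform `g`, field `K` of
  characteristic `p` and `ψ : Zbar →+* K`: a nonzero `v ∈ K ⊗ LamE N p` whose image `w` in
  `K ⊗ Lam N p` satisfies `(1 ⊗ T_ℓ) w = ψ(a_ℓ) w` for all primes `ℓ ∤ N`.
-/
import Mathlib
import Fermat.Agent.S42.Interfaces
import Fermat.Agent.S42.PERInterfaces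
import Fermat.Agent.S42.PERInterfaces2

set_option autoImplicit false

open UpperHalfPlane CongruenceSubgroup ModularCurve ModularCurve.Period
open scoped MatrixGroups ModularForm TensorProduct
open Fermat.Agent.S42

namespace Fermat.Agent.S29

noncomputable section

/-- The elliptic-trivial part of `Lam N p`: the parabolic homomorphisms `Γ₀(N) → ZMod p` that
kill every element of finite order of `Γ₀(N)`. -/
def LamE (N p : ℕ) : Submodule (ZMod p) ↥(Lam N p) where
  carrier := {c | ∀ γ : ↥(Gamma0 N), IsOfFinOrder γ →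
    (c : Additive ↥(Gamma0 N) →+ ZMod p) (Additive.ofMul γ) = 0}
  zero_mem' := fun _ _ => rfl
  add_mem' := fun {a b} ha hb γ hγ => by
    show (a : Additive ↥(Gamma0 N) →+ ZMod p) (Additive.ofMul γ) +
      (b : Additive ↥(Gamma0 N) →+ ZMod p) (Additive.ofMul γ) = 0
    rw [ha γ hγ, hb γ hγ, add_zero]
  smul_mem' := fun t a ha γ hγ => by
    show t • (a : Additive ↥(Gamma0 N) →+ ZMod p) (Additive.ofMul γ) = 0
    rw [ha γ hγ, smul_zero]

theorem mem_LamE (N p : ℕ) (c : ↥(Lam N p)) :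
    c ∈ LamE N p ↔ ∀ γ : ↥(Gamma0 N), IsOfFinOrder γ →
      (c : Additive ↥(Gamma0 N) →+ ZMod p) (Additive.ofMul γ) = 0 := Iff.rfl

/-- (P1) Elements of `LamE N p` kill the elements of finite order. -/
def LamP1Statement : Prop :=
  ∀ (N p : ℕ) [NeZero N] [Fact p.Prime] (c : ↥(Lam N p)), c ∈ LamE N p →
    ∀ γ : ↥(Gamma0 N), IsOfFinOrder γ →
      (c : Additive ↥(Gamma0 N) →+ ZMod p) (Additive.ofMul γ) = 0

theorem lamE_p1 : LamP1Statement := fun _ _ _ _ _ hc => hc

/-- (P2) `LamE N p` is stable under the cohomological Hecke operators `T_ℓ`, `ℓ ∤ N`. -/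
def LamP2Statement : Prop :=
  ∀ (N p ℓ : ℕ) [NeZero N] [Fact p.Prime], ℓ.Prime → ¬ ℓ ∣ N →
    ∀ c : ↥(Lam N p), c ∈ LamE N p → perTcohLam N ℓ p c ∈ LamE N p

/-- (P3) The reduced period eigenvector lies in `K ⊗ LamE N p` (pushed-forward form). -/
def LamP3Statement : Prop :=
  ∀ (N : ℕ) [NeZero N] (p : ℕ) [Fact p.Prime]
    (g : CuspForm (CongruenceSubgroup.Gamma0 N) 2), g.IsNormalizedEigenform →
    ∀ (K : Type) [Field K] [Algebra (ZMod p) K] (ψ : Zbar →+* K),
    ∃ v : K ⊗[ZMod p] ↥(LamE N p), v ≠ 0 ∧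
      ∀ ℓ : ℕ, ℓ.Prime → ¬ ℓ ∣ N → ∀ a : Zbar, (a : ℂ) = ModularFormClass.qCoeff g ℓ →
        (perTcohLam N ℓ p).baseChange K ((LamE N p).subtype.baseChange K v)
          = ψ a • (LamE N p).subtype.baseChange K v

/-! ## Internal statements of the block -/

/-- (KERMAX) The kernel of a ring homomorphism from `ℤ̄` to a field of characteristic `p` is a
maximal ideal. -/
def LamKerMaxStatement : Prop :=
  ∀ (p : ℕ) [Fact p.Prime] (K : Type) [Field K] [Algebra (ZMod p) K] (ψ : Zbar →+* K),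
    (RingHom.ker ψ).IsMaximal

/-- (REDUCE-E) `PERReduceStatement` with the extra conclusion that the reduced homomorphism kills
the elements of finite order. -/
def LamReduceEStatement : Prop :=
  ∀ (N : ℕ) [NeZero N] (c : Additive (Gamma0 N) →+ ℂ), c ≠ 0 → IsParabolicHom (Gamma0 N) c →
    ∀ (S : Set ℕ), (∀ l ∈ S, l.Prime ∧ ¬ l ∣ N) → ∀ (a : ℕ → Zbar),
      (∀ l ∈ S, perTcoh N l ℂ c = ((a l : Zbar) : ℂ) • c) →
    ∀ (𝔪 : Ideal Zbar), 𝔪.IsMaximal →
      ∃ c' : Additive (Gamma0 N) →+ (Zbar ⧸ 𝔪), c' ≠ 0 ∧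
        IsParabolicHom (Gamma0 N) c' ∧
        (∀ γ : ↥(Gamma0 N), IsOfFinOrder γ → c' (Additive.ofMul γ) = 0) ∧
        ∀ l ∈ S, perTcoh N l (Zbar ⧸ 𝔪) c' = Ideal.Quotient.mk 𝔪 (a l) • c'

/-- (SURJ-E) Every parabolic, elliptic-trivial `K`-valued homomorphism is the image under the
comparison map of an element of `K ⊗ LamE N p`. -/
def LamSurjEStatement : Prop :=
  ∀ (N : ℕ) [NeZero N] (p : ℕ) [Fact p.Prime] (K : Type) [Field K] [Algebra (ZMod p) K]
    (c' : Additive (Gamma0 N) →+ K), IsParabolicHom (Gamma0 N) c' →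
    (∀ γ : ↥(Gamma0 N), IsOfFinOrder γ → c' (Additive.ofMul γ) = 0) →
      ∃ v : K ⊗[ZMod p] ↥(LamE N p),
        perCompare N p K ((LamE N p).subtype.baseChange K v) = c'

end

end Fermat.Agent.S29
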