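/-
S29 — block LAM'/PER' (helper19): FINAL FILE.  Hypothesis-free deliverables
`lam_p1`, `lam_p2`, `lam_p3` for the elliptic-trivial lattice `LamE N p` of `LamInterfaces.lean`.
Everything is reduced to the landed PER block of S42 (`Fermat/Agent/S42/PERFinal.lean`).
-/
import Mathlib
import Fermat.Agent.S29.LamInterfaces
import Fermat.Agent.S42.PERFinal

set_option autoImplicit false

open UpperHalfPlane CongruenceSubgroup ModularCurve ModularCurve.Period
open scoped MatrixGroups ModularForm TensorProduct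
open Fermat.Agent.S42

namespace Fermat.Agent.S29

/-! ## (P2): Hecke stability of `LamE` -/

/-- If `σ_γ^r i = i` and `γ` has finite order, then `(γ^r)_i = α_i γ^r α_i⁻¹` has finite order. -/
theorem lamF_finOrder (N l : ℕ) [NeZero N] (hl : l.Prime) (hlN : ¬ l ∣ N) (γ : Gamma0 N)
    (hγ : IsOfFinOrder γ) (r : ℕ) (i : Option (Fin l)) (hfix : (perSig N l γ)^[r] i = i) :
    IsOfFinOrder (perGam N l (γ ^ r) i) := by
  obtain ⟨n, hn, hγn⟩ := isOfFinOrder_iff_pow_eq_one.mp hγ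
  obtain ⟨hrel, -, -, -⟩ := per_sig N l hl hlN
  obtain ⟨h1, -, -⟩ := per_pow N l hl hlN γ r i
  have hR := hrel (γ ^ r) i
  rw [h1, hfix] at hR
  have hsc : SemiconjBy (perAlpha l i)
      (Matrix.SpecialLinearGroup.mapGL ℝ ((γ ^ r : Gamma0 N) : SL(2, ℤ)))
      (Matrix.SpecialLinearGroup.mapGL ℝ ((perGam N l (γ ^ r) i : Gamma0 N) : SL(2, ℤ))) := hR
  have hsc' := hsc.pow_right n
  rw [← map_pow, ← map_pow] at hsc'
  have hpow1 : (((γ ^ r : Gamma0 N) : SL(2, ℤ))) ^ n = 1 := by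
    rw [← SubgroupClass.coe_pow, ← pow_mul, mul_comm, pow_mul, hγn, one_pow]
    rfl
  rw [hpow1, map_one] at hsc'
  have h3 : perAlpha l i * 1 =
      Matrix.SpecialLinearGroup.mapGL ℝ
        (((perGam N l (γ ^ r) i : Gamma0 N) : SL(2, ℤ)) ^ n) * perAlpha l i := hsc'
  rw [mul_one] at h3
  have h2 : Matrix.SpecialLinearGroup.mapGL ℝ
      (((perGam N l (γ ^ r) i : Gamma0 N) : SL(2, ℤ)) ^ n) = 1 := mul_eq_right.mp h3.symm
  refine isOfFinOrder_iff_pow_eq_one.mpr ⟨n, hn, ?_⟩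
  apply Subtype.ext
  rw [SubgroupClass.coe_pow]
  exact Matrix.SpecialLinearGroup.mapGL_injective (h2.trans (map_one _).symm)

/-- (P2) `LamE N p` is stable under the cohomological Hecke operators. -/
theorem lam_p2 : LamP2Statement := by
  intro N p l _ _ hl hlN c hc
  refine (mem_LamE N p _).mpr fun γ hγ => ?_
  have hc' := (mem_LamE N p c).mp hc
  rw [per_tcohLam N l hl hlN p c, per_tcohApply N l hl hlN (ZMod p) _ γ]
  obtain ⟨-, hbij, -, -⟩ := per_sig N l hl hlN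
  refine perOrbitSumA_main (Option (Fin l)) (Equiv.ofBijective (perSig N l γ) (hbij γ)) (ZMod p)
    (fun i => (c : Additive (Gamma0 N) →+ ZMod p) (Additive.ofMul (perGam N l γ i))) ?_
  intro i r _ hfix
  obtain ⟨-, h2, -⟩ := per_pow N l hl hlN γ r i
  rw [perTcohPar_pow_apply] at hfix
  have hsum : ∑ k ∈ Finset.range r,
      (c : Additive (Gamma0 N) →+ ZMod p) (Additive.ofMul (perGam N l γ
        (((Equiv.ofBijective (perSig N l γ) (hbij γ) : Equiv.Perm (Option (Fin l))) ^ k) i))) =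
      ∑ k ∈ Finset.range r, (c : Additive (Gamma0 N) →+ ZMod p)
        (Additive.ofMul (perGam N l γ ((perSig N l γ)^[k] i))) :=
    Finset.sum_congr rfl (fun k _ => by rw [perTcohPar_pow_apply])
  show ∑ k ∈ Finset.range r,
      (c : Additive (Gamma0 N) →+ ZMod p) (Additive.ofMul (perGam N l γ
        (((Equiv.ofBijective (perSig N l γ) (hbij γ) : Equiv.Perm (Option (Fin l))) ^ k) i))) = 0
  rw [hsum, h2 (ZMod p) (c : Additive (Gamma0 N) →+ ZMod p)]
  exact hc' _ (lamF_finOrder N l hl hlN γ hγ r i hfix)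

/-! ## (P3): the reduced period eigenvector -/

/-- A complex-valued homomorphism kills the elements of finite order. -/
theorem lamF_complex_ell (N : ℕ) (c : Additive (Gamma0 N) →+ ℂ) (γ : Gamma0 N)
    (hγ : IsOfFinOrder γ) : c (Additive.ofMul γ) = 0 := by
  obtain ⟨n, hn, hγn⟩ := isOfFinOrder_iff_pow_eq_one.mp hγ
  have h1 : n • c (Additive.ofMul γ) = 0 := by
    rw [← map_nsmul, ← ofMul_pow, hγn, ofMul_one, map_zero]
  rcases smul_eq_zero.mp h1 with h | h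
  · omega
  · exact h

/-- (KERMAX) The kernel of `ψ : ℤ̄ → K`, `K` of characteristic `p`, is maximal. -/
theorem lamF_kerMax : LamKerMaxStatement := by
  intro p _ K _ _ ψ
  have hp : p.Prime := Fact.out
  have : (RingHom.ker ψ).IsPrime := RingHom.ker_isPrime ψ
  apply Ideal.isMaximal_of_isIntegral_of_isMaximal_comap (R := ℤ) (RingHom.ker ψ)
  have hprime : ((RingHom.ker ψ).comap (algebraMap ℤ Zbar)).IsPrime := Ideal.comap_isPrime _ _
  apply Ideal.IsPrime.isMaximal hprime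
  intro hbot
  have hmem : (p : ℤ) ∈ (RingHom.ker ψ).comap (algebraMap ℤ Zbar) := by
    rw [Ideal.mem_comap, RingHom.mem_ker, map_natCast, map_natCast]
    have h : (p : K) = algebraMap (ZMod p) K (p : ZMod p) := by rw [map_natCast]
    rw [h, ZMod.natCast_self, map_zero]
  rw [hbot, Ideal.mem_bot] at hmem
  exact hp.ne_zero (by exact_mod_cast hmem)

/-- (REDUCE-E) Reduction modulo `𝔪`, keeping track of the elements of finite order. -/
theorem lamF_reduceE : LamReduceEStatement := by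
  intro N _ c hc hpar S hS a ha 𝔪 h𝔪
  obtain ⟨V, hV, E, instE, ρ, ι, hρι⟩ := perResidueA_main 𝔪 h𝔪
  obtain ⟨t, ht, htV, x₀, hx₀⟩ := perScaleA_main (Gamma0 N) (perFG_main N) ℂ V c hc
  let c₁ : Additive (Gamma0 N) →+ V :=
    { toFun := fun x => ⟨t * c x, htV x⟩
      map_zero' := Subtype.ext (by simp)
      map_add' := fun x y => Subtype.ext (by simp [mul_add]) }
  have hc₁ : ∀ x, (c₁ x : ℂ) = t * c x := fun x => rfl
  have := h𝔪
  let _ : Field (integralClosure ℤ ℂ ⧸ 𝔪) := Ideal.Quotient.field 𝔪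
  let _ : Algebra (integralClosure ℤ ℂ ⧸ 𝔪) E := ι.toAlgebra
  obtain ⟨π, hπ⟩ := perFunctional_main (integralClosure ℤ ℂ ⧸ 𝔪) E
  refine ⟨π.toAddMonoidHom.comp ((ρ : V →+ E).comp c₁), ?_, ?_, ?_, ?_⟩
  · intro h0
    have h1 : π.toAddMonoidHom.comp ((ρ : V →+ E).comp c₁) x₀ = 1 := by
      have h2 : c₁ x₀ = 1 := Subtype.ext (by rw [hc₁, hx₀]; rfl)
      simp [h2, hπ]
    rw [h0] at h1
    exact zero_ne_one h1
  · intro γ hγ
    have h1 : c₁ (Additive.ofMul γ) = 0 := Subtype.ext (by rw [hc₁, hpar γ hγ, mul_zero]; rfl)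
    simp [h1]
  · intro γ hγ
    have h1 : c₁ (Additive.ofMul γ) = 0 :=
      Subtype.ext (by rw [hc₁, lamF_complex_ell N c γ hγ, mul_zero]; rfl)
    simp [h1]
  · intro l hl
    obtain ⟨hlp, hlN⟩ := hS l hl
    ext x
    have h1 := perReduceA_step_push per_tcohNat N l hlp hlN V E (integralClosure ℤ ℂ ⧸ 𝔪) ρ π c₁
      ⟨(a l : ℂ), hV (a l)⟩ (Ideal.Quotient.mk 𝔪 (a l)) (hρι (a l))
      (perReduceA_step_val per_tcohNat N l hlp hlN V c t c₁ hc₁ ⟨(a l : ℂ), hV (a l)⟩ (ha l hl)) x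
    exact h1

/-- (SURJ-E) Parabolic, elliptic-trivial `K`-valued homomorphisms come from `K ⊗ LamE N p`. -/
theorem lamF_surjE : LamSurjEStatement := by
  intro N _ p _ K _ _ c' hc' hell
  obtain ⟨U, hUfin, hU⟩ := perCompareSurjA_exists_finite (perFG_main N) (ZMod p) c'
  let b := Module.finBasis (ZMod p) U
  have hpar : ∀ i, perCompareSurjA_coord c' U hU b i ∈ Lam N p := by
    intro i γ hγ
    exact perCompareSurjA_coord_eq_zero c' U hU b i _ (hc' γ hγ)
  have hE : ∀ i, (⟨perCompareSurjA_coord c' U hU b i, hpar i⟩ : ↥(Lam N p)) ∈ LamE N p := by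
    intro i
    refine (mem_LamE N p _).mpr fun γ hγ => ?_
    exact perCompareSurjA_coord_eq_zero c' U hU b i _ (hell γ hγ)
  refine ⟨∑ i, ((b i : U) : K) ⊗ₜ[ZMod p]
    (⟨⟨perCompareSurjA_coord c' U hU b i, hpar i⟩, hE i⟩ : ↥(LamE N p)), ?_⟩
  refine AddMonoidHom.ext fun γ => ?_
  rw [map_sum, map_sum, AddMonoidHom.finsetSum_apply]
  rw [← perCompareSurjA_sum_coord c' U hU b γ]
  refine Finset.sum_congr rfl fun i _ => ?_
  rw [LinearMap.baseChange_tmul, Submodule.subtype_apply, perCompareInjA_tmul, Algebra.smul_def,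
    mul_comm]

/-- (P3) The reduced period eigenvector lies in `K ⊗ LamE N p`. -/
theorem lam_p3 : LamP3Statement := by
  classical
  intro N _ p _ g hg K _ _ ψ
  have h𝔪 : (RingHom.ker ψ).IsMaximal := lamF_kerMax p K ψ
  obtain ⟨hc0, hcpar⟩ := per_periodNe N g hg
  set a : ℕ → integralClosure ℤ ℂ := fun l =>
    if h : l.Prime ∧ ¬ l ∣ N then ⟨ModularFormClass.qCoeff ⇑g l, per_integral N g hg l h.1 h.2⟩
    else 0 with ha
  have ha_coe : ∀ l : ℕ, l.Prime → ¬ l ∣ N →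
      ((a l : integralClosure ℤ ℂ) : ℂ) = ModularFormClass.qCoeff ⇑g l := by
    intro l hl hlN
    simp only [ha, dif_pos (And.intro hl hlN)]
  obtain ⟨c₁, hc₁0, hc₁par, hc₁ell, hc₁eig⟩ :=
    lamF_reduceE N (periodMap N g) hc0 hcpar {l : ℕ | l.Prime ∧ ¬ l ∣ N} (fun l hl => hl) a
      (fun l hl => by rw [ha_coe l hl.1 hl.2]; exact per_periodEigen N g hg l hl.1 hl.2)
      (RingHom.ker ψ) h𝔪
  set ψ' : (integralClosure ℤ ℂ ⧸ RingHom.ker ψ) →+* K :=
    Ideal.Quotient.lift (RingHom.ker ψ) ψ (fun _ hx => RingHom.mem_ker.mp hx) with hψ'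
  have hψ'inj : Function.Injective ψ' :=
    perTensorB_lift_injective (RingHom.ker ψ) h𝔪 K ψ le_rfl
  have hψ'mk : ∀ x : integralClosure ℤ ℂ, ψ' (Ideal.Quotient.mk (RingHom.ker ψ) x) = ψ x :=
    fun x => Ideal.Quotient.lift_mk (RingHom.ker ψ) ψ _
  set c' : Additive (Gamma0 N) →+ K :=
    (ψ' : (integralClosure ℤ ℂ ⧸ RingHom.ker ψ) →+ K).comp c₁ with hc'
  have hc'apply : ∀ γ : Additive (Gamma0 N), c' γ = ψ' (c₁ γ) := fun γ => rfl
  have hc'0 : c' ≠ 0 := by
    intro h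
    apply hc₁0
    refine AddMonoidHom.ext (fun γ => ?_)
    apply hψ'inj
    rw [← hc'apply, h, AddMonoidHom.zero_apply, AddMonoidHom.zero_apply, map_zero]
  have hc'par : IsParabolicHom (Gamma0 N) c' := by
    intro γ hγ
    rw [hc'apply, hc₁par γ hγ, map_zero]
  have hc'ell : ∀ γ : ↥(Gamma0 N), IsOfFinOrder γ → c' (Additive.ofMul γ) = 0 := by
    intro γ hγ
    rw [hc'apply, hc₁ell γ hγ, map_zero]
  have hc'eig : ∀ l : ℕ, l.Prime → ¬ l ∣ N → perTcoh N l K c' = ψ (a l) • c' := by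
    intro l hl hlN
    rw [hc', per_tcohNat N l hl hlN _ _ (ψ' : (integralClosure ℤ ℂ ⧸ RingHom.ker ψ) →+ K) c₁,
      hc₁eig l ⟨hl, hlN⟩]
    refine AddMonoidHom.ext (fun γ => ?_)
    simp [hψ'mk]
  obtain ⟨v, hv⟩ := lamF_surjE N p K c' hc'par hc'ell
  refine ⟨v, ?_, ?_⟩
  · rintro rfl
    apply hc'0
    rw [← hv, map_zero, map_zero]
  · intro l hl hlN a₀ ha₀
    have e : a₀ = a l := Subtype.ext (by rw [ha₀, ha_coe l hl hlN])
    rw [e]
    apply perCompareInjA_main N p K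
    rw [per_compareHecke N p K l hl hlN, hv, map_smul, hv, hc'eig l hl hlN]

/-! ## Final statements with explicit types (the shapes of `hP1`, `hP2`, `hP3` of `bridge_of`) -/

/-- (P1), explicit form. -/
theorem lam_p1 : ∀ (N p : ℕ) [NeZero N] [Fact p.Prime] (c : ↥(Lam N p)), c ∈ LamE N p →
    ∀ γ : ↥(Gamma0 N), IsOfFinOrder γ →
      (c : Additive ↥(Gamma0 N) →+ ZMod p) (Additive.ofMul γ) = 0 := lamE_p1

/-- (P2), explicit form. -/
theorem lam_p2' : ∀ (N p ℓ : ℕ) [NeZero N] [Fact p.Prime], ℓ.Prime → ¬ ℓ ∣ N →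
    ∀ c : ↥(Lam N p), c ∈ LamE N p → perTcohLam N ℓ p c ∈ LamE N p := lam_p2

/-- (P3), explicit form. -/
theorem lam_p3' : ∀ (N : ℕ) [NeZero N] (p : ℕ) [Fact p.Prime]
    (g : CuspForm (CongruenceSubgroup.Gamma0 N) 2), g.IsNormalizedEigenform →
    ∀ (K : Type) [Field K] [Algebra (ZMod p) K] (ψ : Zbar →+* K),
    ∃ v : K ⊗[ZMod p] ↥(LamE N p), v ≠ 0 ∧
      ∀ ℓ : ℕ, ℓ.Prime → ¬ ℓ ∣ N → ∀ a : Zbar, (a : ℂ) = ModularFormClass.qCoeff g ℓ →
        (perTcohLam N ℓ p).baseChange K ((LamE N p).subtype.baseChange K v)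
          = ψ a • (LamE N p).subtype.baseChange K v := lam_p3

end Fermat.Agent.S29
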