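/-
S29 follow-up — package THETAREL (twin A): the injective Hecke-equivariant map `Θ : L → J₀(N)` on an
arbitrary submodule `L` of the parabolic lattice `Lam N p`, for all primes `p`.  Prefix `thra_`.
-/
import Fermat.Agent.S42.ThetaInterfaces
import Fermat.Agent.S37.ASMB
import Fermat.Agent.S37.HIInterfaces

set_option autoImplicit false

open ModularCurve AlgebraicCurve CongruenceSubgroup
open UpperHalfPlane
open scoped TensorProduct MatrixGroups Manifold
open Fermat.Agent.S42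

namespace Fermat.Agent.S29

noncomputable section

section General

variable {K F : Type*} [Field K] [Field F] [Algebra K F]

/-- Nonzero constants have order `0` at every place. -/
theorem thra_ord_const (P : Place K F) (a : K) (ha : a ≠ 0) : P.ord (algebraMap K F a) = 0 := by
  have h1 : algebraMap K F a ∈ P.toValuationSubring := P.algebraMap_mem' a
  have h2 : algebraMap K F a⁻¹ ∈ P.toValuationSubring := P.algebraMap_mem' a⁻¹
  have hmul : (⟨algebraMap K F a, h1⟩ : P.toValuationSubring) * ⟨algebraMap K F a⁻¹, h2⟩ = 1 := by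
    apply Subtype.ext
    show algebraMap K F a * algebraMap K F a⁻¹ = 1
    rw [← map_mul, mul_inv_cancel₀ ha, map_one]
  have hu : IsUnit (⟨algebraMap K F a, h1⟩ : P.toValuationSubring) :=
    IsUnit.of_mul_eq_one _ hmul
  have h := P.ord_coe_unit hu.unit
  rwa [IsUnit.unit_spec] at h

theorem thra_ord_pow (P : Place K F) (h : F) (p : ℕ) : P.ord (h ^ p) = (p : ℤ) * P.ord h := by
  have := P.ord_zpow h (p : ℤ)
  rwa [zpow_natCast] at this

/-- `D` is "the divisor of `f` divided by `p`". -/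
def thra_IsRootDiv (p : ℕ) (f : F) (D : Divisor K F) : Prop :=
  ∀ P : Place K F, (p : ℤ) * D P = P.ord f

theorem thra_exists_rootDiv [HasPrincipalDivisors K F] (p : ℕ) (hp : p ≠ 0) (f : F) (hf : f ≠ 0)
    (hdiv : ∀ P : Place K F, (p : ℤ) ∣ P.ord f) :
    ∃ D : Divisor K F, D ∈ Divisor.degZero (K := K) (F := F) ∧ thra_IsRootDiv p f D := by
  obtain ⟨E, hE, hdeg⟩ := HasPrincipalDivisors.exists_divisor (K := K) f hf
  have hp' : (p : ℤ) ≠ 0 := by exact_mod_cast hp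
  let D : Divisor K F := Finsupp.mapRange (fun n : ℤ => n / (p : ℤ)) (by simp) E
  have hDP : ∀ P : Place K F, (p : ℤ) * D P = P.ord f := by
    intro P
    show (p : ℤ) * (Finsupp.mapRange (fun n : ℤ => n / (p : ℤ)) (by simp) E) P = P.ord f
    rw [Finsupp.mapRange_apply, hE P]
    exact Int.mul_ediv_cancel' (hdiv P)
  refine ⟨D, ?_, hDP⟩
  have hpD : (p : ℤ) • D = E := by
    ext P
    rw [Finsupp.smul_apply, smul_eq_mul, hDP P, hE P]
  rw [Divisor.mem_degZero]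
  have h2 : (p : ℤ) • Divisor.degree D = 0 := by
    rw [← map_zsmul, hpD, hdeg]
  rcases smul_eq_zero.mp h2 with h | h
  · exact absurd h hp'
  · exact h

theorem thra_rootDiv_add (p : ℕ) {f g : F} (hf : f ≠ 0) (hg : g ≠ 0) {D E : Divisor K F}
    (hD : thra_IsRootDiv p f D) (hE : thra_IsRootDiv p g E) : thra_IsRootDiv p (f * g) (D + E) := by
  intro P
  rw [Finsupp.add_apply, mul_add, hD P, hE P, P.ord_mul hf hg]

/-- Root divisors of functions differing by `a * h ^ p` have the same class. -/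
theorem thra_class_eq (p : ℕ) (hp : p ≠ 0) (f f' h : F) (a : K) (ha : a ≠ 0) (hh : h ≠ 0)
    (hf : f ≠ 0) (e : f' = algebraMap K F a * h ^ p * f) (D D' : Divisor K F)
    (hD : D ∈ Divisor.degZero (K := K) (F := F)) (hD' : D' ∈ Divisor.degZero (K := K) (F := F))
    (h1 : thra_IsRootDiv p f D) (h2 : thra_IsRootDiv p f' D') :
    (Pic0.mk ⟨D', hD'⟩ : Pic0 K F) = Pic0.mk ⟨D, hD⟩ := by
  have hp' : (p : ℤ) ≠ 0 := by exact_mod_cast hp
  have ha' : algebraMap K F a ≠ 0 := by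
    rwa [Ne, map_eq_zero]
  have hprin : -D' + D ∈ Divisor.principal (K := K) (F := F) := by
    refine ⟨h⁻¹, inv_ne_zero hh, fun P => ?_⟩
    have e1 := h1 P
    have e2 := h2 P
    rw [e, P.ord_mul (mul_ne_zero ha' (pow_ne_zero p hh)) hf,
      P.ord_mul ha' (pow_ne_zero p hh), thra_ord_const P a ha, thra_ord_pow] at e2
    rw [P.ord_inv, Finsupp.add_apply, Finsupp.neg_apply]
    have : (p : ℤ) * (-D' P + D P) = (p : ℤ) * (-P.ord h) := by
      rw [mul_add, mul_neg, e1, e2]; ring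
    exact mul_left_cancel₀ hp' this
  show (QuotientAddGroup.mk (⟨D', hD'⟩ : Divisor.degZero (K := K) (F := F)) : Pic0 K F)
    = QuotientAddGroup.mk ⟨D, hD⟩
  rw [QuotientAddGroup.eq, AddSubgroup.mem_addSubgroupOf]
  exact hprin

/-- A root divisor of class zero: the function is `h ^ p` up to a function without zeros/poles. -/
theorem thra_class_zero (p : ℕ) (f : F) (hf : f ≠ 0) (D : Divisor K F)
    (hD : D ∈ Divisor.degZero (K := K) (F := F)) (h1 : thra_IsRootDiv p f D)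
    (h0 : (Pic0.mk ⟨D, hD⟩ : Pic0 K F) = 0) :
    ∃ h : F, h ≠ 0 ∧ ∀ P : Place K F, P.ord (f * (h ^ p)⁻¹) = 0 := by
  have h' : (QuotientAddGroup.mk (⟨D, hD⟩ : Divisor.degZero (K := K) (F := F)) : Pic0 K F) = 0 :=
    h0
  have h'' := (QuotientAddGroup.eq_zero_iff _).mp h'
  rw [AddSubgroup.mem_addSubgroupOf] at h''
  obtain ⟨h, hh, hDh⟩ := h''
  refine ⟨h, hh, fun P => ?_⟩
  rw [P.ord_mul hf (inv_ne_zero (pow_ne_zero p hh)), P.ord_inv, thra_ord_pow, ← h1 P, ← hDh P]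
  exact add_neg_cancel _

end General

theorem thra_main :
    (∀ (N p ℓ : ℕ) [NeZero N] [NeZero ℓ] [Fact p.Prime], ℓ.Prime → ¬ ℓ ∣ N * p →
      ∀ (hI : HeckeInputsAlong Qbar N ℓ) (c : ↥(Lam N p)) (f : FN N),
        RootProp N p (c : Additive ↥(Gamma0 N) →+ ZMod p) f →
        ∃ f' : FN N, RootProp N p (perTcohLam N ℓ p c : Additive ↥(Gamma0 N) →+ ZMod p) f' ∧
          ∀ D : Divisor Qbar (FN N), (∀ P : Place Qbar (FN N), D P = P.ord f) →
            ∀ P : Place Qbar (FN N),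
              (haveI := hI.snd.snd.fst; heckeDivBar hI.fst hI.snd.fst D) P = P.ord f') →
    RootNeZeroStatement → RootMulStatement → ConstStatement →
    Fermat.Agent.S37.hi_PrincipalStatement → Fermat.Agent.S37.HIStatement →
    ∀ (N p : ℕ) [NeZero N] [Fact p.Prime] (L : Submodule (ZMod p) ↥(Lam N p)),
      (∀ c : ↥(Lam N p), c ∈ L → ∃ f : FN N, RootProp N p (c : Additive ↥(Gamma0 N) →+ ZMod p) f) →
      (∀ c : ↥(Lam N p), c ∈ L → ∀ f : FN N, RootProp N p (c : Additive ↥(Gamma0 N) →+ ZMod p) f →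
        ∀ P : Place Qbar (FN N), (p : ℤ) ∣ P.ord f) →
      (∀ c : ↥(Lam N p), c ∈ L → ∀ f f' : FN N,
        RootProp N p (c : Additive ↥(Gamma0 N) →+ ZMod p) f →
        RootProp N p (c : Additive ↥(Gamma0 N) →+ ZMod p) f' →
          ∃ (a : Qbar) (h : FN N), a ≠ 0 ∧ h ≠ 0 ∧ f' = algebraMap Qbar (FN N) a * h ^ p * f) →
      (∀ c : ↥(Lam N p), c ∈ L → ∀ (a : Qbar) (h : FN N),
        RootProp N p (c : Additive ↥(Gamma0 N) →+ ZMod p) (algebraMap Qbar (FN N) a * h ^ p) → c = 0) →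
      ∃ Θ : ↥L →+ JZero N, Function.Injective Θ ∧
        ∀ ℓ : Nat.Primes, ¬ (ℓ : ℕ) ∣ N * p → ∀ (c : ↥L)
          (hc : perTcohLam N ℓ p (c : ↥(Lam N p)) ∈ L),
          Θ ⟨perTcohLam N ℓ p (c : ↥(Lam N p)), hc⟩ = heckeOperatorBar N ℓ (Θ c) := by
  intro hHecke hRNZ hRMul hConst hPrin hHI N p _ hpF L hExist hDivP hSame hTriv
  have : HasPrincipalDivisors Qbar (FN N) := hPrin N
  have hp0 : p ≠ 0 := hpF.out.ne_zero
  -- the root functions
  choose fc hfc using fun c : ↥L => hExist c.1 c.2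
  have hfc0 : ∀ c, fc c ≠ 0 := fun c => hRNZ N p _ _ (hfc c)
  -- the root divisors
  choose Dc hDc0 hDc using fun c : ↥L =>
    thra_exists_rootDiv (K := Qbar) (F := FN N) p hp0 (fc c) (hfc0 c)
      (hDivP c.1 c.2 (fc c) (hfc c))
  -- key: any root function for `c` with a root divisor gives the class of `Dc c`
  have key : ∀ (c : ↥L) (f : FN N) (D : Divisor Qbar (FN N))
      (hD : D ∈ Divisor.degZero (K := Qbar) (F := FN N)),
      RootProp N p ((c : ↥(Lam N p)) : Additive ↥(Gamma0 N) →+ ZMod p) f → thra_IsRootDiv p f D →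
      (Pic0.mk ⟨Dc c, hDc0 c⟩ : JZero N) = Pic0.mk ⟨D, hD⟩ := by
    intro c f D hD hf hfD
    obtain ⟨a, h, ha, hh, e⟩ := hSame c.1 c.2 f (fc c) hf (hfc c)
    exact thra_class_eq p hp0 f (fc c) h a ha hh (hRNZ N p _ _ hf) e D (Dc c) hD (hDc0 c) hfD
      (hDc c)
  let Θ : ↥L →+ JZero N := AddMonoidHom.mk' (fun c => Pic0.mk ⟨Dc c, hDc0 c⟩) (by
    intro c c'
    have hmul : RootProp N p (((c + c' : ↥L) : ↥(Lam N p)) : Additive ↥(Gamma0 N) →+ ZMod p)
        (fc c * fc c') := hRMul N p _ _ _ _ (hfc c) (hfc c')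
    have h := key (c + c') (fc c * fc c') (Dc c + Dc c') (add_mem (hDc0 c) (hDc0 c')) hmul
      (thra_rootDiv_add p (hfc0 c) (hfc0 c') (hDc c) (hDc c'))
    rw [h]
    rfl)
  have hΘ : ∀ c, Θ c = Pic0.mk ⟨Dc c, hDc0 c⟩ := fun c => rfl
  refine ⟨Θ, ?_, ?_⟩
  · -- injectivity
    rw [injective_iff_map_eq_zero]
    intro c hc
    rw [hΘ] at hc
    obtain ⟨h, hh, hord⟩ := thra_class_zero p (fc c) (hfc0 c) (Dc c) (hDc0 c) (hDc c) hc
    have hne : fc c * (h ^ p)⁻¹ ≠ 0 := mul_ne_zero (hfc0 c) (inv_ne_zero (pow_ne_zero p hh))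
    obtain ⟨a, ha⟩ := hConst N _ hne hord
    have e : fc c = algebraMap Qbar (FN N) a * h ^ p := by
      rw [← ha, mul_assoc, inv_mul_cancel₀ (pow_ne_zero p hh), mul_one]
    have hroot := hfc c
    rw [e] at hroot
    exact Subtype.ext (hTriv c.1 c.2 a h hroot)
  · -- Hecke equivariance
    intro ℓ hℓ c hc
    have : NeZero (ℓ : ℕ) := ⟨ℓ.2.ne_zero⟩
    have hI : HeckeInputsAlong Qbar N ℓ := hHI N ℓ ℓ.2
    obtain ⟨f', hf', hdiv⟩ := hHecke N p ℓ ℓ.2 hℓ hI c.1 (fc c) (hfc c)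
    rw [hΘ c, heckeOperatorBar_apply]
    obtain ⟨hD', e⟩ := Fermat.Agent.S37.asmb_heckeOperatorAlong_mk (ℓ : ℕ) hI (Dc c) (hDc0 c)
    refine ((hΘ _).trans (key ⟨perTcohLam N ℓ p (c : ↥(Lam N p)), hc⟩ f' _ hD' hf' ?_)).trans
      e.symm
    intro P
    have := hI.snd.snd.fst
    have h1 := hdiv ((p : ℤ) • Dc c) (fun Q => by
      rw [Finsupp.smul_apply, smul_eq_mul]; exact hDc c Q) P
    rw [map_zsmul, Finsupp.smul_apply, smul_eq_mul] at h1
    exact h1

end

end Fermat.Agent.S29
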