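/-
S29, package UNR (twin A): inertia at a good prime acts trivially on the `p`-power torsion of
`J₀(N)`, from the S37 block statements.  Purely formal (pattern of `asmb_core`).
Prefix `unra_`.
-/
import Fermat.Agent.S42.Interfaces
import Fermat.Agent.S37.ASMB
import Fermat.Prelude.Def_FLTPrelim_Ramification

set_option autoImplicit false
set_option synthInstance.maxHeartbeats 400000

open ModularCurve AlgebraicCurve

namespace Fermat.Agent.S29

open Fermat.Agent.S37 Fermat.Agent.S18 Fermat.Agent.S42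

noncomputable section

/-- **(UNR)** inertia at a prime `ℓ ∤ N p` acts trivially on the `p`-power torsion of `J₀(N)`. -/
theorem unra_main : Fermat.Agent.S37.RSpecStatement → Fermat.Agent.S37.R1Statement →
    Fermat.Agent.S37.R2Statement → Fermat.Agent.S37.HIStatement → Fermat.Agent.S37.DatumExistsStatement →
    ∀ (N p : ℕ) [NeZero N] (ℓ : ℕ), ℓ.Prime → ¬ ℓ ∣ N * p →
      ∀ A : ValuationSubring Qbar, A.LiesOverPrime ℓ →
        ∀ σ : Qbar ≃ₐ[ℚ] Qbar, σ ∈ A.inertiaSubgroupIn ℚ →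
          ∀ x : JZero N, (∃ n : ℕ, p ^ n • x = 0) → σ • x = x := by
  intro hR h1 h2 _ _ N p _ ℓ hℓ hNp A hA σ hσ x hx
  obtain ⟨n, hn⟩ := hx
  have : Fact ℓ.Prime := ⟨hℓ⟩
  have hN : ¬ ℓ ∣ N := fun h => hNp (Dvd.dvd.mul_right h p)
  have hp : ¬ ℓ ∣ p := fun h => hNp (Dvd.dvd.mul_left h N)
  have hpn : ¬ ℓ ∣ p ^ n := fun h => hp (hℓ.dvd_of_dvd_pow h)
  obtain ⟨r, hS⟩ := hR N ℓ hN A hA
  have hmem : σ • x - x ∈ asmb_H r :=
    asmb_galois_sub_self_mem r σ (asmb_r_inertia N A r (h2 N ℓ hN A hA r hS) σ hσ) x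
  have e1 : p ^ n • (σ • x) = 0 := by
    rw [smul_comm (p ^ n) σ x, hn, smul_zero]
  have h0 : σ • x - x = 0 := by
    refine asmb_torsion r (p ^ n) (h1 N ℓ hN A hA r hS (p ^ n) hpn) _ hmem ?_
    rw [nsmul_sub, e1, hn, sub_zero]
  exact sub_eq_zero.mp h0
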