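/-
S29 — main assembly (helper26): `s29_inputs_main : S29InputsStatement` from the block finals
(UNR, HECKE-ROOT for all `p`, relative THETA, LAM'/PER' of helper19, KUM' of helper22) and the
landed S42 statements (ES', GH, OPEN, integrality).
-/
import Fermat.Agent.S29.Bridge
import Fermat.Agent.S29.UnrA
import Fermat.Agent.S29.HeckeRootAllA
import Fermat.Agent.S29.ThetaRelA
import Fermat.Agent.S29.LamFinal
import Fermat.Agent.S29.H22Final
import Fermat.Agent.S42.InputsMain
import Fermat.Agent.S42.PERFinal

set_option autoImplicit false

namespace Fermat.Agent.S29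

open Fermat.Agent.S42

open Fermat.Agent.S37 in
/-- (UNR) inertia at a good prime acts trivially on the `p`-power torsion of `J₀(N)`. -/
theorem s29_unr : UnrStatement :=
  unra_main r_spec cn_main (galb_main r_specUnique r_datumExists r_inChart) hi_main r_datumExists

/-- (BRIDGE) the elliptic-trivial lattice, its map to `J₀(N)` and the eigenvector. -/
theorem s29_bridge : BridgeStatement :=
  bridge_of LamE (fun N p _ _ c hc => lam_p1 N p c hc)
    (fun N p ℓ _ _ hℓ hℓN c hc => lam_p2 N p ℓ hℓ hℓN c hc)
    (fun N _ p _ g hg K _ _ ψ => lam_p3 N p g hg K ψ)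
    (thra_main
      (hraa_main hr_normId hndb_main
        (hasa_an (hatb_main per_sig per_tcohApply per_tcohLam) hr_anQExp))
      rnzb_main (rmub_main evma_main.2.2) cstc_main
      Fermat.Agent.S37.hi_principal Fermat.Agent.S37.hi_main)
    h22E_N1 h22E_N2 h22E_N3 h22E_N4

/-- All modular-curve inputs of S29. -/
theorem s29_inputs_main : S29InputsStatement :=
  ig_inputs es_main gh_main open_main per_integral s29_unr s29_bridge

end Fermat.Agent.S29
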